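import Mathlib

set_option autoImplicit false

namespace Fermat.Agent.S51.H41

section Core

variable {F : Type*} [Field F] [CharZero F]

/-- Doubling, `x`-coordinate, in the `η`-model. -/
theorem core_dbl_x (x η Λ b₂ b₄ b₆ b₈ : F)
    (hG : η ^ 2 = 4 * x ^ 3 + b₂ * x ^ 2 + 2 * b₄ * x + b₆)
    (hb₈ : 4 * b₈ = b₂ * b₆ - b₄ ^ 2)
    (hΛ : Λ * η = 6 * x ^ 2 + b₂ * x + b₄) :
    ((Λ ^ 2 - b₂ - 8 * x) / 4 - x) * η ^ 2 =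
      -(3 * x ^ 4 + b₂ * x ^ 3 + 3 * b₄ * x ^ 2 + 3 * b₆ * x + b₈) := by
  obtain rfl : b₄ = Λ * η - 6 * x ^ 2 - b₂ * x := by linear_combination -hΛ
  obtain rfl : b₆ = η ^ 2 - 4 * x ^ 3 - b₂ * x ^ 2 - 2 * (Λ * η - 6 * x ^ 2 - b₂ * x) * x := by
    linear_combination -hG
  obtain rfl : b₈ = (b₂ * (η ^ 2 - 4 * x ^ 3 - b₂ * x ^ 2 - 2 * (Λ * η - 6 * x ^ 2 - b₂ * x) * x)
      - (Λ * η - 6 * x ^ 2 - b₂ * x) ^ 2) / 4 := by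
    field_simp
    linear_combination hb₈
  ring

/-- Doubling, `η`-coordinate, in the `η`-model. -/
theorem core_dbl_eta (x η Λ b₂ b₄ b₆ b₈ : F)
    (hG : η ^ 2 = 4 * x ^ 3 + b₂ * x ^ 2 + 2 * b₄ * x + b₆)
    (hb₈ : 4 * b₈ = b₂ * b₆ - b₄ ^ 2)
    (hΛ : Λ * η = 6 * x ^ 2 + b₂ * x + b₄) :
    (-(Λ * ((Λ ^ 2 - b₂ - 8 * x) / 4 - x)) - η) * η ^ 3 =
      2 * x ^ 6 + b₂ * x ^ 5 + 5 * b₄ * x ^ 4 + 10 * b₆ * x ^ 3 + 10 * b₈ * x ^ 2 +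
        (b₂ * b₈ - b₄ * b₆) * x + (b₄ * b₈ - b₆ ^ 2) := by
  obtain rfl : b₄ = Λ * η - 6 * x ^ 2 - b₂ * x := by linear_combination -hΛ
  obtain rfl : b₆ = η ^ 2 - 4 * x ^ 3 - b₂ * x ^ 2 - 2 * (Λ * η - 6 * x ^ 2 - b₂ * x) * x := by
    linear_combination -hG
  obtain rfl : b₈ = (b₂ * (η ^ 2 - 4 * x ^ 3 - b₂ * x ^ 2 - 2 * (Λ * η - 6 * x ^ 2 - b₂ * x) * x)
      - (Λ * η - 6 * x ^ 2 - b₂ * x) ^ 2) / 4 := by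
    field_simp
    linear_combination hb₈
  ring

/-- Tripling, `x`-coordinate, in the `η`-model. Here `x₂, η₂` are the coordinates of `2P`
and `M` is the (doubled, shifted) slope of the line through `P` and `2P`. -/
theorem core_tpl_x (x η Λ M b₂ b₄ b₆ b₈ : F)
    (hG : η ^ 2 = 4 * x ^ 3 + b₂ * x ^ 2 + 2 * b₄ * x + b₆)
    (hb₈ : 4 * b₈ = b₂ * b₆ - b₄ ^ 2)
    (hΛ : Λ * η = 6 * x ^ 2 + b₂ * x + b₄)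
    (hM : M * (x - (Λ ^ 2 - b₂ - 8 * x) / 4) =
      η - (-(Λ * ((Λ ^ 2 - b₂ - 8 * x) / 4 - x)) - η)) :
    (((M ^ 2 - b₂) / 4 - x - (Λ ^ 2 - b₂ - 8 * x) / 4) - (Λ ^ 2 - b₂ - 8 * x) / 4) *
        (3 * x ^ 4 + b₂ * x ^ 3 + 3 * b₄ * x ^ 2 + 3 * b₆ * x + b₈) ^ 2 * η ^ 2 =
      -((2 * x ^ 6 + b₂ * x ^ 5 + 5 * b₄ * x ^ 4 + 10 * b₆ * x ^ 3 + 10 * b₈ * x ^ 2 +
        (b₂ * b₈ - b₄ * b₆) * x + (b₄ * b₈ - b₆ ^ 2)) *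
          (4 * x ^ 3 + b₂ * x ^ 2 + 2 * b₄ * x + b₆) ^ 2 -
        (3 * x ^ 4 + b₂ * x ^ 3 + 3 * b₄ * x ^ 2 + 3 * b₆ * x + b₈) ^ 3) := by
  obtain rfl : η = -((Λ ^ 2 - b₂ - 12 * x) * (M + Λ)) / 8 := by linear_combination -hM / 2
  obtain rfl : b₄ = Λ * (-((Λ ^ 2 - b₂ - 12 * x) * (M + Λ)) / 8) - 6 * x ^ 2 - b₂ * x := by
    linear_combination -hΛ
  obtain rfl : b₆ = (-((Λ ^ 2 - b₂ - 12 * x) * (M + Λ)) / 8) ^ 2 - 4 * x ^ 3 - b₂ * x ^ 2 -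
      2 * (Λ * (-((Λ ^ 2 - b₂ - 12 * x) * (M + Λ)) / 8) - 6 * x ^ 2 - b₂ * x) * x := by
    linear_combination -hG
  obtain rfl : b₈ = (b₂ * ((-((Λ ^ 2 - b₂ - 12 * x) * (M + Λ)) / 8) ^ 2 - 4 * x ^ 3 - b₂ * x ^ 2 -
      2 * (Λ * (-((Λ ^ 2 - b₂ - 12 * x) * (M + Λ)) / 8) - 6 * x ^ 2 - b₂ * x) * x)
      - (Λ * (-((Λ ^ 2 - b₂ - 12 * x) * (M + Λ)) / 8) - 6 * x ^ 2 - b₂ * x) ^ 2) / 4 := by
    field_simp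
    linear_combination 64 * hb₈
  ring

end Core

end Fermat.Agent.S51.H41
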