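import Mathlib
import Fermat.Agent.S51.H41_Core

set_option autoImplicit false

open WeierstrassCurve WeierstrassCurve.Affine Polynomial

namespace Fermat.Agent.S51.H41

variable {F : Type*} [Field F] (W : Affine F)

/-- `η = 2y + a₁x + a₃`. -/
def eta (x y : F) : F := 2 * y + W.a₁ * x + W.a₃

lemma eval_Ψ₃ (x : F) : W.Ψ₃.eval x =
    3 * x ^ 4 + W.b₂ * x ^ 3 + 3 * W.b₄ * x ^ 2 + 3 * W.b₆ * x + W.b₈ := by
  simp [Ψ₃]

lemma eval_Ψ₂Sq (x : F) : W.Ψ₂Sq.eval x =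
    4 * x ^ 3 + W.b₂ * x ^ 2 + 2 * W.b₄ * x + W.b₆ := by
  simp [Ψ₂Sq]

lemma eval_preΨ₄ (x : F) : W.preΨ₄.eval x =
    2 * x ^ 6 + W.b₂ * x ^ 5 + 5 * W.b₄ * x ^ 4 + 10 * W.b₆ * x ^ 3 + 10 * W.b₈ * x ^ 2 +
    (W.b₂ * W.b₈ - W.b₄ * W.b₆) * x + (W.b₄ * W.b₈ - W.b₆ ^ 2) := by
  simp [preΨ₄]

/-- the `5`-division polynomial -/
noncomputable def psi5 : F[X] := W.preΨ₄ * W.Ψ₂Sq ^ 2 - W.Ψ₃ ^ 3

lemma eval_psi5 (x : F) : (psi5 W).eval x =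
    W.preΨ₄.eval x * W.Ψ₂Sq.eval x ^ 2 - W.Ψ₃.eval x ^ 3 := by
  simp [psi5]

lemma eta_sq {x y : F} (h : W.Equation x y) :
    eta W x y ^ 2 = 4 * x ^ 3 + W.b₂ * x ^ 2 + 2 * W.b₄ * x + W.b₆ := by
  rw [Affine.equation_iff] at h
  simp only [eta, b₂, b₄, b₆]
  linear_combination 4 * h

lemma eta_negY (x y : F) : eta W x (W.negY x y) = - eta W x y := by
  simp only [eta, negY]; ring

lemma sub_negY (x y : F) : y - W.negY x y = eta W x y := by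
  simp only [eta, negY]; ring

lemma eq_negY_iff (x y : F) : y = W.negY x y ↔ eta W x y = 0 := by
  rw [← sub_negY, sub_eq_zero]

/-- doubled shifted slope, tangent case -/
lemma two_slope_tangent [DecidableEq F] {x y : F} (hη : eta W x y ≠ 0) :
    (2 * W.slope x x y y + W.a₁) * eta W x y = 6 * x ^ 2 + W.b₂ * x + W.b₄ := by
  have hy : y ≠ W.negY x y := fun h => hη ((eq_negY_iff W x y).mp h)
  rw [slope_of_Y_ne rfl hy, sub_negY]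
  field_simp
  simp only [eta, b₂, b₄]
  ring

/-- doubled shifted slope, secant case -/
lemma two_slope_secant [DecidableEq F] {x₁ x₂ y₁ y₂ : F} (hx : x₁ ≠ x₂) :
    (2 * W.slope x₁ x₂ y₁ y₂ + W.a₁) * (x₁ - x₂) = eta W x₁ y₁ - eta W x₂ y₂ := by
  have hx' : x₁ - x₂ ≠ 0 := sub_ne_zero.mpr hx
  rw [slope_of_X_ne hx]
  field_simp
  simp only [eta]
  ring

lemma four_addX (x₁ x₂ ℓ : F) :
    4 * W.addX x₁ x₂ ℓ = (2 * ℓ + W.a₁) ^ 2 - W.b₂ - 4 * x₁ - 4 * x₂ := by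
  simp only [addX, b₂]; ring

lemma eta_add (x₁ x₂ y₁ ℓ : F) :
    eta W (W.addX x₁ x₂ ℓ) (W.addY x₁ x₂ y₁ ℓ) =
      -((2 * ℓ + W.a₁) * (W.addX x₁ x₂ ℓ - x₁)) - eta W x₁ y₁ := by
  simp only [eta, addY, negAddY, negY]; ring

end Fermat.Agent.S51.H41
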