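import Mathlib
import Fermat.Agent.S51.H41_Eta

set_option autoImplicit false

open WeierstrassCurve WeierstrassCurve.Affine Polynomial

namespace Fermat.Agent.S51.H41

variable {F : Type*} [Field F] [CharZero F] [DecidableEq F] (W : Affine F)

/-- If `η(P) = 0` then `2P = 0`. -/
lemma two_nsmul_of_eta_eq_zero {x y : F} (h : W.Nonsingular x y) (hη : eta W x y = 0) :
    (2 : ℕ) • Point.some x y h = 0 := by
  rw [two_nsmul]
  exact Point.add_self_of_Y_eq ((eq_negY_iff W x y).mpr hη)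

/-- Doubling formula. -/
lemma two_nsmul_of_eta_ne_zero {x y : F} (h : W.Nonsingular x y) (hη : eta W x y ≠ 0) :
    ∃ (x₂ y₂ : F) (h₂ : W.Nonsingular x₂ y₂), (2 : ℕ) • Point.some x y h = Point.some x₂ y₂ h₂ ∧
      (x₂ - x) * eta W x y ^ 2 = - W.Ψ₃.eval x ∧
      eta W x₂ y₂ * eta W x y ^ 3 = W.preΨ₄.eval x ∧
      4 * x₂ = (2 * W.slope x x y y + W.a₁) ^ 2 - W.b₂ - 8 * x ∧
      eta W x₂ y₂ = -((2 * W.slope x x y y + W.a₁) * (x₂ - x)) - eta W x y := by
  have hy : y ≠ W.negY x y := fun h' => hη ((eq_negY_iff W x y).mp h')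
  refine ⟨_, _, _, by rw [two_nsmul]; exact Point.add_self_of_Y_ne hy, ?_, ?_, ?_, ?_⟩
  · have h4 := four_addX W x x (W.slope x x y y)
    have hx₂ : W.addX x x (W.slope x x y y) =
        ((2 * W.slope x x y y + W.a₁) ^ 2 - W.b₂ - 8 * x) / 4 := by
      field_simp; linear_combination h4
    rw [hx₂, eval_Ψ₃]
    exact core_dbl_x x (eta W x y) _ W.b₂ W.b₄ W.b₆ W.b₈ (eta_sq W h.1) W.b_relation
      (two_slope_tangent W hη)
  · have h4 := four_addX W x x (W.slope x x y y)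
    have hx₂ : W.addX x x (W.slope x x y y) =
        ((2 * W.slope x x y y + W.a₁) ^ 2 - W.b₂ - 8 * x) / 4 := by
      field_simp; linear_combination h4
    rw [eta_add, hx₂, eval_preΨ₄]
    exact core_dbl_eta x (eta W x y) _ W.b₂ W.b₄ W.b₆ W.b₈ (eta_sq W h.1) W.b_relation
      (two_slope_tangent W hη)
  · linear_combination four_addX W x x (W.slope x x y y)
  · exact eta_add W x x y _

end Fermat.Agent.S51.H41

namespace Fermat.Agent.S51.H41

variable {F : Type*} [Field F] [CharZero F] [DecidableEq F] (W : Affine F)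

/-- Tripling formula. -/
lemma three_nsmul_of_ne_zero {x y : F} (h : W.Nonsingular x y) (hη : eta W x y ≠ 0)
    (h3 : W.Ψ₃.eval x ≠ 0) :
    ∃ (x₂ y₂ : F) (h₂ : W.Nonsingular x₂ y₂) (x₃ y₃ : F) (h₃ : W.Nonsingular x₃ y₃),
      (2 : ℕ) • Point.some x y h = Point.some x₂ y₂ h₂ ∧
      (3 : ℕ) • Point.some x y h = Point.some x₃ y₃ h₃ ∧ x₂ ≠ x ∧
      (x₂ - x) * eta W x y ^ 2 = - W.Ψ₃.eval x ∧
      eta W x₂ y₂ * eta W x y ^ 3 = W.preΨ₄.eval x ∧
      (x₃ - x₂) * W.Ψ₃.eval x ^ 2 * eta W x y ^ 2 = - (psi5 W).eval x := by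
  obtain ⟨x₂, y₂, h₂, h2P, hx₂, hη₂, h4x₂, hη₂'⟩ := two_nsmul_of_eta_ne_zero W h hη
  have hne : x₂ ≠ x := by
    rintro rfl
    rw [sub_self, zero_mul, eq_comm, neg_eq_zero] at hx₂
    exact h3 hx₂
  have hne' : x ≠ x₂ := fun h' => hne h'.symm
  refine ⟨x₂, y₂, h₂, W.addX x x₂ (W.slope x x₂ y y₂), W.addY x x₂ y (W.slope x x₂ y y₂),
    nonsingular_add h h₂ (fun hxy => hne' hxy.left), h2P, ?_, hne, hx₂, hη₂, ?_⟩
  · rw [show (3 : ℕ) = 1 + 2 from rfl, add_nsmul, one_nsmul, h2P]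
    exact Point.add_of_X_ne hne'
  · have hx₂' : x₂ = ((2 * W.slope x x y y + W.a₁) ^ 2 - W.b₂ - 8 * x) / 4 := by
      field_simp; linear_combination h4x₂
    have h4 := four_addX W x x₂ (W.slope x x₂ y y₂)
    have hx₃ : W.addX x x₂ (W.slope x x₂ y y₂) =
        ((2 * W.slope x x₂ y y₂ + W.a₁) ^ 2 - W.b₂) / 4 - x - x₂ := by
      field_simp; linear_combination h4
    have hM := two_slope_secant W (y₁ := y) (y₂ := y₂) hne'
    rw [hη₂'] at hM
    rw [hx₃, eval_psi5, eval_Ψ₃, eval_preΨ₄, eval_Ψ₂Sq]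
    subst hx₂'
    exact core_tpl_x x (eta W x y) _ _ W.b₂ W.b₄ W.b₆ W.b₈ (eta_sq W h.1) W.b_relation
      (two_slope_tangent W hη) hM

end Fermat.Agent.S51.H41

namespace Fermat.Agent.S51.H41

variable {F : Type*} [Field F] [CharZero F] [DecidableEq F] (W : Affine F)

/-- A point with `η = 0` and `Ψ₃(x) = 0` is singular. -/
lemma eta_ne_zero_of_Ψ₃ {x y : F} (h : W.Nonsingular x y) (h3 : W.Ψ₃.eval x = 0) :
    eta W x y ≠ 0 := by
  intro hη
  have hG := eta_sq W h.1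
  rw [hη] at hG
  rw [eval_Ψ₃] at h3
  have hb8 := W.b_relation
  have key : (6 * x ^ 2 + W.b₂ * x + W.b₄) ^ 2 = 0 := by
    linear_combination (-(12 * x + W.b₂)) * hG - 4 * h3 + hb8
  have key' : 6 * x ^ 2 + W.b₂ * x + W.b₄ = 0 := by simpa using key
  rw [Affine.nonsingular_iff'] at h
  rcases h.2 with h' | h'
  · apply h'
    have : 2 * (W.a₁ * y - (3 * x ^ 2 + 2 * W.a₂ * x + W.a₄)) = 0 := by
      simp only [eta] at hη
      simp only [b₂, b₄] at key'
      linear_combination W.a₁ * hη - key'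
    simpa using this
  · exact h' hη

lemma three_nsmul_eq_zero_iff {x y : F} (h : W.Nonsingular x y) :
    (3 : ℕ) • Point.some x y h = 0 ↔ W.Ψ₃.eval x = 0 := by
  constructor
  · intro h3P
    by_contra h3
    by_cases hη : eta W x y = 0
    · have h2 := two_nsmul_of_eta_eq_zero W h hη
      rw [show (3 : ℕ) = 1 + 2 from rfl, add_nsmul, one_nsmul, h2, add_zero] at h3P
      exact Point.some_ne_zero h h3P
    · obtain ⟨x₂, y₂, h₂, h2P, hx₂, -⟩ := two_nsmul_of_eta_ne_zero W h hη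
      rw [show (3 : ℕ) = 2 + 1 from rfl, add_nsmul, one_nsmul, h2P,
        add_eq_zero_iff_eq_neg] at h3P
      have hx : x₂ = x := Point.X_eq_iff.mpr (Or.inr h3P)
      rw [hx, sub_self, zero_mul, eq_comm, neg_eq_zero] at hx₂
      exact h3 hx₂
  · intro h3
    have hη := eta_ne_zero_of_Ψ₃ W h h3
    obtain ⟨x₂, y₂, h₂, h2P, hx₂, -⟩ := two_nsmul_of_eta_ne_zero W h hη
    rw [h3, neg_zero, mul_eq_zero] at hx₂
    have hx : x₂ = x := by
      rcases hx₂ with hx₂ | hx₂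
      · exact sub_eq_zero.mp hx₂
      · exact absurd ((pow_eq_zero_iff (two_ne_zero)).mp hx₂) hη
    rw [show (3 : ℕ) = 2 + 1 from rfl, add_nsmul, one_nsmul, h2P]
    rcases (Point.X_eq_iff (h₁ := h₂) (h₂ := h)).mp hx with h' | h'
    · exfalso
      rw [h'] at h2P
      rw [two_nsmul] at h2P
      simp at h2P
    · rw [h', neg_add_cancel]

end Fermat.Agent.S51.H41

namespace Fermat.Agent.S51.H41

variable {F : Type*} [Field F] [CharZero F] [DecidableEq F] (W : Affine F)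

lemma five_nsmul_eq_zero_iff {x y : F} (h : W.Nonsingular x y) :
    (5 : ℕ) • Point.some x y h = 0 ↔ (psi5 W).eval x = 0 := by
  set P := Point.some x y h with hP
  have hP0 : P ≠ 0 := Point.some_ne_zero h
  constructor
  · intro h5P
    by_cases hη : eta W x y = 0
    · exfalso
      have h2 := two_nsmul_of_eta_eq_zero W h hη
      have : (5 : ℕ) • P = P + (2 : ℕ) • ((2 : ℕ) • P) := by
        rw [← mul_nsmul]; rw [show (5 : ℕ) = 1 + 2 * 2 from rfl, add_nsmul, one_nsmul]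
      rw [this, h2, nsmul_zero, add_zero] at h5P
      exact hP0 h5P
    by_cases h3 : W.Ψ₃.eval x = 0
    · exfalso
      have h3P := (three_nsmul_eq_zero_iff W h).mpr h3
      have h2P : (2 : ℕ) • P = 0 := by
        have : (5 : ℕ) • P = (3 : ℕ) • P + (2 : ℕ) • P := by rw [← add_nsmul]
        rw [this, h3P, zero_add] at h5P
        exact h5P
      have : (3 : ℕ) • P = (2 : ℕ) • P + P := by
        rw [show (3 : ℕ) = 2 + 1 from rfl, add_nsmul, one_nsmul]
      rw [this, h2P, zero_add] at h3P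
      exact hP0 h3P
    obtain ⟨x₂, y₂, h₂, x₃, y₃, h₃, h2P, h3P, hne, hx₂, hη₂, hx₃⟩ :=
      three_nsmul_of_ne_zero W h hη h3
    have : (5 : ℕ) • P = (3 : ℕ) • P + (2 : ℕ) • P := by rw [← add_nsmul]
    rw [this, h3P, h2P, add_eq_zero_iff_eq_neg] at h5P
    have hx : x₃ = x₂ := Point.X_eq_iff.mpr (Or.inr h5P)
    rw [hx, sub_self, zero_mul, zero_mul, eq_comm, neg_eq_zero] at hx₃
    exact hx₃
  · intro h5
    have hG := eta_sq W h.1
    have hη : eta W x y ≠ 0 := by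
      intro hη
      have h3 : W.Ψ₃.eval x = 0 := by
        rw [eval_psi5, eval_Ψ₂Sq, ← hG, hη] at h5
        have : W.Ψ₃.eval x ^ 3 = 0 := by linear_combination -h5
        exact (pow_eq_zero_iff (by norm_num)).mp this
      exact eta_ne_zero_of_Ψ₃ W h h3 hη
    have h3 : W.Ψ₃.eval x ≠ 0 := by
      intro h3
      have h3P := (three_nsmul_eq_zero_iff W h).mpr h3
      obtain ⟨x₂, y₂, h₂, h2P, hx₂, hη₂, -⟩ := two_nsmul_of_eta_ne_zero W h hη
      have h4 : W.preΨ₄.eval x = 0 := by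
        rw [eval_psi5, eval_Ψ₂Sq, ← hG, h3] at h5
        have : W.preΨ₄.eval x * (eta W x y ^ 2) ^ 2 = 0 := by linear_combination h5
        rcases mul_eq_zero.mp this with h' | h'
        · exact h'
        · exact absurd ((pow_eq_zero_iff (by norm_num)).mp ((pow_eq_zero_iff (by norm_num)).mp h')) hη
      rw [h4, mul_eq_zero] at hη₂
      have hη₂' : eta W x₂ y₂ = 0 := by
        rcases hη₂ with h' | h'
        · exact h'
        · exact absurd ((pow_eq_zero_iff (by norm_num)).mp h') hη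
      have h4P : (2 : ℕ) • ((2 : ℕ) • P) = 0 := by
        rw [h2P]; exact two_nsmul_of_eta_eq_zero W h₂ hη₂'
      rw [← mul_nsmul] at h4P
      have : (2 * 2 : ℕ) • P = (3 : ℕ) • P + P := by
        rw [show (2 * 2 : ℕ) = 3 + 1 from rfl, add_nsmul, one_nsmul]
      rw [this, h3P, zero_add] at h4P
      exact hP0 h4P
    obtain ⟨x₂, y₂, h₂, x₃, y₃, h₃, h2P, h3P, hne, hx₂, hη₂, hx₃⟩ :=
      three_nsmul_of_ne_zero W h hη h3
    rw [h5, neg_zero, mul_eq_zero, mul_eq_zero] at hx₃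
    have hx : x₃ = x₂ := by
      rcases hx₃ with (h' | h') | h'
      · exact sub_eq_zero.mp h'
      · exact absurd ((pow_eq_zero_iff (by norm_num)).mp h') h3
      · exact absurd ((pow_eq_zero_iff (by norm_num)).mp h') hη
    have : (5 : ℕ) • P = (3 : ℕ) • P + (2 : ℕ) • P := by rw [← add_nsmul]
    rw [this, h3P, h2P]
    rcases (Point.X_eq_iff (h₁ := h₃) (h₂ := h₂)).mp hx with h' | h'
    · exfalso
      have h32 : (3 : ℕ) • P = (2 : ℕ) • P := by rw [h3P, h2P, h']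
      have : (3 : ℕ) • P = (2 : ℕ) • P + P := by
        rw [show (3 : ℕ) = 2 + 1 from rfl, add_nsmul, one_nsmul]
      rw [this] at h32
      simp [hP] at h32
    · rw [h', neg_add_cancel]

end Fermat.Agent.S51.H41
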