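import Mathlib
import Fermat.Agent.S51.H41_Points

set_option autoImplicit false

open WeierstrassCurve WeierstrassCurve.Affine Polynomial

namespace Fermat.Agent.S51.H41

variable {F : Type*} [Field F] (W : Affine F)

lemma psi5_eq_preΨ' : psi5 W = W.preΨ' 5 := by
  have h := W.preΨ'_odd 0
  simp only [zero_add, Nat.reduceMul, Nat.reduceAdd, preΨ'_four, preΨ'_two, one_pow, mul_one,
    Even.zero, if_true, preΨ'_one, preΨ'_three, one_mul] at h
  rw [h, psi5]

lemma natDegree_psi5 [CharZero F] : (psi5 W).natDegree = 12 := by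
  rw [psi5_eq_preΨ', natDegree_preΨ' W (n := 5) (by norm_num)]
  norm_num

lemma psi5_ne_zero [CharZero F] : psi5 W ≠ 0 := by
  intro h
  have := natDegree_psi5 W
  rw [h, natDegree_zero] at this
  omega

lemma Ψ₃_ne_zero [CharZero F] : W.Ψ₃ ≠ 0 := by
  intro h
  have := W.natDegree_Ψ₃ (by norm_num : (3 : F) ≠ 0)
  rw [h, natDegree_zero] at this
  omega

/-- Over an algebraically closed field every `x` is the `x`-coordinate of a point on the curve. -/
lemma exists_y [IsAlgClosed F] (x : F) : ∃ y : F, W.Equation x y := by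
  let p : F[X] := X ^ 2 + C (W.a₁ * x + W.a₃) * X - C (x ^ 3 + W.a₂ * x ^ 2 + W.a₄ * x + W.a₆)
  have hp : p.degree ≠ 0 := by
    have : p.degree = 2 := by
      simp only [p]
      compute_degree!
    rw [this]; norm_num
  obtain ⟨y, hy⟩ := IsAlgClosed.exists_root p hp
  refine ⟨y, ?_⟩
  rw [Affine.equation_iff]
  simp only [p, IsRoot.def, eval_sub, eval_add, eval_pow, eval_X, eval_mul, eval_C] at hy
  linear_combination hy

variable [CharZero F] [DecidableEq F] [IsAlgClosed F]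

/-- Existence of a nonzero `3`-torsion point. -/
lemma exists_three_torsion (hΔ : W.Δ ≠ 0) :
    ∃ P : W.Point, P ≠ 0 ∧ (3 : ℕ) • P = 0 := by
  have hdeg : W.Ψ₃.degree ≠ 0 := by
    rw [degree_eq_natDegree (Ψ₃_ne_zero W), W.natDegree_Ψ₃ (by norm_num : (3 : F) ≠ 0)]
    norm_num
  obtain ⟨x, hx⟩ := IsAlgClosed.exists_root W.Ψ₃ hdeg
  obtain ⟨y, hy⟩ := exists_y W x
  have h : W.Nonsingular x y := (W.equation_iff_nonsingular_of_Δ_ne_zero hΔ).mp hy
  exact ⟨Point.some x y h, Point.some_ne_zero h, (three_nsmul_eq_zero_iff W h).mpr hx⟩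

/-- Existence of a nonzero `5`-torsion point. -/
lemma exists_five_torsion (hΔ : W.Δ ≠ 0) :
    ∃ P : W.Point, P ≠ 0 ∧ (5 : ℕ) • P = 0 := by
  have hdeg : (psi5 W).degree ≠ 0 := by
    rw [degree_eq_natDegree (psi5_ne_zero W), natDegree_psi5 W]
    norm_num
  obtain ⟨x, hx⟩ := IsAlgClosed.exists_root (psi5 W) hdeg
  obtain ⟨y, hy⟩ := exists_y W x
  have h : W.Nonsingular x y := (W.equation_iff_nonsingular_of_Δ_ne_zero hΔ).mp hy
  exact ⟨Point.some x y h, Point.some_ne_zero h, (five_nsmul_eq_zero_iff W h).mpr hx⟩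

end Fermat.Agent.S51.H41
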