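import Mathlib
import Fermat.Agent.S51.H41_Exists

set_option autoImplicit false

open WeierstrassCurve WeierstrassCurve.Affine Polynomial

namespace Fermat.Agent.S51.H41

variable {F : Type*} [Field F] [DecidableEq F] (W : Affine F)

/-- the `x`-coordinate of a point, with junk value `0` at the origin -/
def xCoord : W.Point → F
  | .zero => 0
  | .some x _ _ => x

@[simp] lemma xCoord_some {x y : F} (h : W.Nonsingular x y) : xCoord W (Point.some x y h) = x := rfl

lemma eq_or_eq_neg_of_xCoord_eq {P Q : W.Point} (hP : P ≠ 0) (hQ : Q ≠ 0)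
    (h : xCoord W P = xCoord W Q) : P = Q ∨ P = -Q := by
  rcases P with _ | ⟨x₁, y₁, h₁⟩
  · exact absurd rfl hP
  rcases Q with _ | ⟨x₂, y₂, h₂⟩
  · exact absurd rfl hQ
  exact Point.X_eq_iff.mp h

lemma xCoord_neg (P : W.Point) : xCoord W (-P) = xCoord W P := by
  rcases P with _ | ⟨x₁, y₁, h₁⟩
  · rfl
  · rfl

/-- A set of nonzero points whose `x`-coordinates are roots of a nonzero polynomial `p`
is finite of cardinality at most `2 deg p`. -/
lemma finset_card_le (p : F[X]) (hp : p ≠ 0) (s : Finset W.Point)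
    (h0 : ∀ P ∈ s, P ≠ 0) (hs : ∀ P ∈ s, p.eval (xCoord W P) = 0) :
    s.card ≤ 2 * p.natDegree := by
  classical
  have h1 : s.card ≤ 2 * (s.image (xCoord W)).card := by
    apply Finset.card_le_mul_card_image
    intro a ha
    obtain ⟨P₀, hP₀, rfl⟩ := Finset.mem_image.mp ha
    have hsub : (s.filter fun Q => xCoord W Q = xCoord W P₀) ⊆ {P₀, -P₀} := by
      intro Q hQ
      rw [Finset.mem_filter] at hQ
      rcases eq_or_eq_neg_of_xCoord_eq W (h0 Q hQ.1) (h0 P₀ hP₀) hQ.2 with h | h
      · simp [h]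
      · simp [h]
    exact (Finset.card_le_card hsub).trans Finset.card_le_two
  have h2 : (s.image (xCoord W)).card ≤ p.natDegree := by
    have hsub : s.image (xCoord W) ⊆ p.roots.toFinset := by
      intro a ha
      obtain ⟨P₀, hP₀, rfl⟩ := Finset.mem_image.mp ha
      rw [Multiset.mem_toFinset, mem_roots hp]
      exact hs P₀ hP₀
    calc (s.image (xCoord W)).card ≤ p.roots.toFinset.card := Finset.card_le_card hsub
      _ ≤ Multiset.card p.roots := Multiset.toFinset_card_le _
      _ ≤ p.natDegree := p.card_roots'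
  omega

lemma set_finite_and_ncard_le (p : F[X]) (hp : p ≠ 0) (S : Set W.Point)
    (h0 : ∀ P ∈ S, P ≠ 0) (hs : ∀ P ∈ S, p.eval (xCoord W P) = 0) :
    S.Finite ∧ S.ncard ≤ 2 * p.natDegree := by
  have hfin : S.Finite := by
    by_contra hinf
    obtain ⟨t, hts, htc⟩ := Set.Infinite.exists_subset_card_eq hinf (2 * p.natDegree + 1)
    have := finset_card_le W p hp t (fun P hP => h0 P (hts hP)) (fun P hP => hs P (hts hP))
    omega
  refine ⟨hfin, ?_⟩
  rw [Set.ncard_eq_toFinset_card S hfin]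
  exact finset_card_le W p hp _ (fun P hP => h0 P ((Set.Finite.mem_toFinset hfin).mp hP))
    (fun P hP => hs P ((Set.Finite.mem_toFinset hfin).mp hP))

end Fermat.Agent.S51.H41

namespace Fermat.Agent.S51.H41

section LinearAlgebra

/-- In a `ZMod p`-vector space with at most `p²` elements, a proper nonzero subspace is
generated by a single nonzero vector. -/
lemma exists_generator_of_card_le {p : ℕ} [Fact p.Prime] {V : Type*} [AddCommGroup V]
    [Module (ZMod p) V] [Finite V] (hcard : Nat.card V ≤ p ^ 2)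
    (N : Submodule (ZMod p) V) (hbot : N ≠ ⊥) (htop : N ≠ ⊤) :
    ∃ v ∈ N, v ≠ 0 ∧ ∀ w ∈ N, ∃ c : ZMod p, w = c • v := by
  have hp : 1 < p := (Fact.out : p.Prime).one_lt
  have hfin : Module.Finite (ZMod p) V := Module.Finite.of_finite
  have hV : Module.finrank (ZMod p) V ≤ 2 := by
    have h := Module.natCard_eq_pow_finrank (K := ZMod p) (V := V)
    rw [Nat.card_zmod] at h
    rw [h] at hcard
    exact (Nat.pow_le_pow_iff_right hp).mp hcard
  have hlt : Module.finrank (ZMod p) N < Module.finrank (ZMod p) V :=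
    Submodule.finrank_lt htop
  have hpos : 0 < Module.finrank (ZMod p) N := by
    rw [Module.finrank_pos_iff (R := ZMod p)]
    exact (Submodule.nontrivial_iff_ne_bot).mpr hbot
  have h1 : Module.finrank (ZMod p) N = 1 := by omega
  obtain ⟨v, hv0, hv⟩ := finrank_eq_one_iff'.mp h1
  refine ⟨v.1, v.2, fun h => hv0 (Subtype.ext h), fun w hw => ?_⟩
  obtain ⟨c, hc⟩ := hv ⟨w, hw⟩
  exact ⟨c, by rw [← Submodule.coe_smul, hc]⟩

end LinearAlgebra

variable {F : Type*} [Field F] [DecidableEq F] (W : Affine F)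

/-- Cardinality bound for the `n`-torsion: if `x`-coordinates of nonzero `n`-torsion points
are roots of `p ≠ 0` then there are at most `2 deg p + 1` such points. -/
lemma card_torsionBy_le (n : ℕ) (p : F[X]) (hp : p ≠ 0)
    (h : ∀ (x y : F) (hxy : W.Nonsingular x y), n • Point.some x y hxy = 0 → p.eval x = 0) :
    Finite (Submodule.torsionBy ℤ W.Point (n : ℤ)) ∧
      Nat.card (Submodule.torsionBy ℤ W.Point (n : ℤ)) ≤ 2 * p.natDegree + 1 := by
  set S : Set W.Point := {P | P ≠ 0 ∧ n • P = 0} with hS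
  have hS0 : ∀ P ∈ S, P ≠ 0 := fun P hP => hP.1
  have hSp : ∀ P ∈ S, p.eval (xCoord W P) = 0 := by
    rintro (_ | ⟨x, y, hxy⟩) hP
    · exact absurd rfl hP.1
    · exact h x y hxy hP.2
  obtain ⟨hfin, hcard⟩ := set_finite_and_ncard_le W p hp S hS0 hSp
  have hT : ((Submodule.torsionBy ℤ W.Point (n : ℤ) : Submodule ℤ W.Point) : Set W.Point) =
      insert 0 S := by
    ext P
    simp only [SetLike.mem_coe, Submodule.mem_torsionBy_iff, natCast_zsmul, Set.mem_insert_iff, hS,
      Set.mem_ofPred_eq]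
    constructor
    · intro hP
      by_cases h0 : P = 0
      · exact Or.inl h0
      · exact Or.inr ⟨h0, hP⟩
    · rintro (rfl | hP)
      · simp
      · exact hP.2
  have hfinT : ((Submodule.torsionBy ℤ W.Point (n : ℤ) : Submodule ℤ W.Point) :
      Set W.Point).Finite := by
    rw [hT]; exact hfin.insert 0
  refine ⟨hfinT.to_subtype, ?_⟩
  have : Nat.card (Submodule.torsionBy ℤ W.Point (n : ℤ)) =
      ((Submodule.torsionBy ℤ W.Point (n : ℤ) : Submodule ℤ W.Point) : Set W.Point).ncard :=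
    (Nat.card_coe_set_eq _)
  rw [this, hT]
  calc (insert 0 S).ncard ≤ S.ncard + 1 := Set.ncard_insert_le 0 S
    _ ≤ 2 * p.natDegree + 1 := by omega

variable [CharZero F]

lemma card_torsionBy_three_le :
    Finite (Submodule.torsionBy ℤ W.Point ((3 : ℕ) : ℤ)) ∧
      Nat.card (Submodule.torsionBy ℤ W.Point ((3 : ℕ) : ℤ)) ≤ 3 ^ 2 := by
  have := card_torsionBy_le W 3 W.Ψ₃ (Ψ₃_ne_zero W)
    (fun x y hxy h => (three_nsmul_eq_zero_iff W hxy).mp h)
  rw [W.natDegree_Ψ₃ (by norm_num : (3 : F) ≠ 0)] at this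
  exact this

lemma card_torsionBy_five_le :
    Finite (Submodule.torsionBy ℤ W.Point ((5 : ℕ) : ℤ)) ∧
      Nat.card (Submodule.torsionBy ℤ W.Point ((5 : ℕ) : ℤ)) ≤ 5 ^ 2 := by
  have := card_torsionBy_le W 5 (psi5 W) (psi5_ne_zero W)
    (fun x y hxy h => (five_nsmul_eq_zero_iff W hxy).mp h)
  rw [natDegree_psi5 W] at this
  exact this

end Fermat.Agent.S51.H41
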