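import Mathlib
import Fermat.Prelude.Def_FLTPrelim_GaloisRep
import Fermat.Agent.S51.H41_Count

set_option autoImplicit false

open WeierstrassCurve WeierstrassCurve.Affine WeierstrassCurve.Affine.Point Polynomial

namespace Fermat.Agent.S51.H41

local notation "Qb" => AlgebraicClosure ℚ

theorem isGalois_Qb : IsGalois ℚ Qb :=
  have : IsAlgClosure ℚ Qb := AlgebraicClosure.instIsAlgClosure ℚ
  IsAlgClosure.isGalois ℚ Qb

/-- An element of `ℚ̄` fixed by all of `Gal(ℚ̄/ℚ)` is rational. -/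
theorem exists_rat_of_fixed (x : Qb) (hx : ∀ σ : Qb ≃ₐ[ℚ] Qb, σ x = x) :
    ∃ r : ℚ, algebraMap ℚ Qb r = x := by
  have := isGalois_Qb
  exact (InfiniteGalois.mem_range_algebraMap_iff_fixed x).mpr hx

variable (E : WeierstrassCurve ℚ)

/-- the curve over `ℚ̄` -/
noncomputable abbrev EK : Affine Qb := E.toAffine⁄Qb

lemma EK_Δ_ne_zero (hΔ : E.Δ ≠ 0) : (EK E).Δ ≠ 0 := by
  have : (EK E).Δ = algebraMap ℚ Qb E.Δ := WeierstrassCurve.map_Δ E (algebraMap ℚ Qb)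
  rw [this]
  exact (map_ne_zero_iff _ (algebraMap ℚ Qb).injective).mpr hΔ

/-- The Galois action on a nonzero point is by acting on coordinates. -/
lemma smul_some (σ : Qb ≃ₐ[ℚ] Qb) {x y : Qb} (h : (EK E).Nonsingular x y) :
    ∃ h' : (EK E).Nonsingular (σ x) (σ y),
      σ • (Point.some x y h : (EK E).Point) = Point.some (σ x) (σ y) h' := by
  refine ⟨?_, ?_⟩
  · have := (Affine.baseChange_nonsingular (W := E.toAffine) (f := σ.toAlgHom)
      σ.injective x y).mpr h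
    exact this
  · rfl

end Fermat.Agent.S51.H41

namespace Fermat.Agent.S51.H41

local notation "Qb" => AlgebraicClosure ℚ

variable (E : WeierstrassCurve ℚ)

/-- `E[n](ℚ̄)` -/
noncomputable abbrev Tors (n : ℕ) : Submodule ℤ (EK E).Point :=
  Submodule.torsionBy ℤ (EK E).Point (n : ℤ)

lemma mem_Tors_iff (n : ℕ) (P : (EK E).Point) : P ∈ Tors E n ↔ n • P = 0 := by
  rw [Submodule.mem_torsionBy_iff, natCast_zsmul]

lemma nontrivial_Tors_three (hΔ : E.Δ ≠ 0) : Nontrivial (Tors E 3) := by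
  obtain ⟨P, hP0, hP⟩ := exists_three_torsion (EK E) (EK_Δ_ne_zero E hΔ)
  refine ⟨⟨⟨P, (mem_Tors_iff E 3 P).mpr hP⟩, 0, ?_⟩⟩
  intro h
  exact hP0 (congrArg Subtype.val h)

lemma nontrivial_Tors_five (hΔ : E.Δ ≠ 0) : Nontrivial (Tors E 5) := by
  obtain ⟨P, hP0, hP⟩ := exists_five_torsion (EK E) (EK_Δ_ne_zero E hΔ)
  refine ⟨⟨⟨P, (mem_Tors_iff E 5 P).mpr hP⟩, 0, ?_⟩⟩
  intro h
  exact hP0 (congrArg Subtype.val h)

/-- If `E[3]` is not irreducible there is a Galois-stable line generated by one point. -/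
lemma exists_stable_generator_three (hΔ : E.Δ ≠ 0)
    (h : ¬ GaloisRepIsIrreducible (K := Qb) ℚ E.toAffine 3) :
    ∃ v : Tors E 3, v ≠ 0 ∧ ∀ σ : Qb ≃ₐ[ℚ] Qb, ∃ c : ZMod 3, σ • v = c • v := by
  have : Fact (Nat.Prime 3) := ⟨by norm_num⟩
  rw [GaloisRepIsIrreducible, not_and] at h
  have h' := h (nontrivial_Tors_three E hΔ)
  push Not at h'
  obtain ⟨N, hN, hbot, htop⟩ := h'
  obtain ⟨hfin, hcard⟩ := card_torsionBy_three_le (EK E)
  have := hfin
  obtain ⟨v, hvN, hv0, hv⟩ := exists_generator_of_card_le (p := 3) hcard N hbot htop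
  exact ⟨v, hv0, fun σ => hv _ (hN σ v hvN)⟩

end Fermat.Agent.S51.H41

namespace Fermat.Agent.S51.H41

local notation "Qb" => AlgebraicClosure ℚ

variable (E : WeierstrassCurve ℚ)

/-- If `E[5]` is not irreducible there is a Galois-stable line generated by one point. -/
lemma exists_stable_generator_five (hΔ : E.Δ ≠ 0)
    (h : ¬ GaloisRepIsIrreducible (K := Qb) ℚ E.toAffine 5) :
    ∃ v : Tors E 5, v ≠ 0 ∧ ∀ σ : Qb ≃ₐ[ℚ] Qb, ∃ c : ZMod 5, σ • v = c • v := by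
  have : Fact (Nat.Prime 5) := ⟨by norm_num⟩
  rw [GaloisRepIsIrreducible, not_and] at h
  have h' := h (nontrivial_Tors_five E hΔ)
  push Not at h'
  obtain ⟨N, hN, hbot, htop⟩ := h'
  obtain ⟨hfin, hcard⟩ := card_torsionBy_five_le (EK E)
  have := hfin
  obtain ⟨v, hvN, hv0, hv⟩ := exists_generator_of_card_le (p := 5) hcard N hbot htop
  exact ⟨v, hv0, fun σ => hv _ (hN σ v hvN)⟩

lemma coe_zmod_smul {n : ℕ} (c : ZMod n) (v : Tors E n) :
    ((c • v : Tors E n) : (EK E).Point) = (ZMod.cast c : ℤ) • (v : (EK E).Point) := by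
  conv_lhs => rw [← ZMod.intCast_zmod_cast c, Int.cast_smul_eq_zsmul]
  rfl

lemma coe_galois_smul {n : ℕ} (σ : Qb ≃ₐ[ℚ] Qb) (v : Tors E n) :
    ((σ • v : Tors E n) : (EK E).Point) = σ • (v : (EK E).Point) := rfl

lemma coe_zmod_smul' {n : ℕ} [NeZero n] (c : ZMod n) (v : Tors E n) :
    ((c • v : Tors E n) : (EK E).Point) = c.val • (v : (EK E).Point) := by
  rw [coe_zmod_smul, ← ZMod.natCast_val, natCast_zsmul]

lemma xCoord_eq_of_eq_nsmul_three {P Q : (EK E).Point} (h3 : (3 : ℕ) • P = 0) (hQ0 : Q ≠ 0)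
    {m : ℕ} (hm : m < 3) (hQ : Q = m • P) : xCoord (EK E) Q = xCoord (EK E) P := by
  interval_cases m
  · rw [zero_nsmul] at hQ; exact absurd hQ hQ0
  · rw [one_nsmul] at hQ; rw [hQ]
  · have : (2 : ℕ) • P = -P := by
      have : (2 : ℕ) • P + P = 0 := by
        rw [← h3, show (3 : ℕ) = 2 + 1 from rfl, add_nsmul, one_nsmul]
      exact eq_neg_of_add_eq_zero_left this
    rw [hQ, this, xCoord_neg]

/-- B3 (general form): if `E[3]` is not irreducible, `Ψ₃` has a rational root. -/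
theorem exists_rat_root_Ψ₃ (hΔ : E.Δ ≠ 0)
    (h : ¬ GaloisRepIsIrreducible (K := Qb) ℚ E.toAffine 3) :
    ∃ r : ℚ, E.Ψ₃.eval r = 0 := by
  obtain ⟨⟨P, hP⟩, hv0, hv⟩ := exists_stable_generator_three E hΔ h
  have hP3 : (3 : ℕ) • P = 0 := (mem_Tors_iff E 3 P).mp hP
  have hP0 : P ≠ 0 := fun h0 => hv0 (Subtype.ext h0)
  rcases P with _ | ⟨x, y, hxy⟩
  · exact absurd rfl hP0
  have hΨ : (EK E).Ψ₃.eval x = 0 := (three_nsmul_eq_zero_iff (EK E) hxy).mp hP3
  -- `x` is fixed by Galois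
  have hfix : ∀ σ : Qb ≃ₐ[ℚ] Qb, σ x = x := by
    intro σ
    obtain ⟨c, hc⟩ := hv σ
    have hc' := congrArg (Subtype.val) hc
    rw [coe_galois_smul, coe_zmod_smul'] at hc'
    obtain ⟨h', hσ⟩ := smul_some E σ hxy
    simp only at hc'
    rw [hσ] at hc'
    have key := xCoord_eq_of_eq_nsmul_three E hP3 (Point.some_ne_zero h') (ZMod.val_lt c) hc'
    simpa using key
  obtain ⟨r, hr⟩ := exists_rat_of_fixed x hfix
  refine ⟨r, ?_⟩
  have hmap : (EK E).Ψ₃ = E.Ψ₃.map (algebraMap ℚ Qb) := by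
    show (E.baseChange Qb).Ψ₃ = _
    exact WeierstrassCurve.map_Ψ₃ E (algebraMap ℚ Qb)
  rw [hmap, ← hr, eval_map_algebraMap, aeval_algebraMap_apply] at hΨ
  exact (map_eq_zero_iff _ (algebraMap ℚ Qb).injective).mp hΨ

end Fermat.Agent.S51.H41
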