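import Mathlib
import Fermat.Prelude.Def_FLTPrelim_ModularRep
import Fermat.Agent.S51.H41_Galois

set_option autoImplicit false

open WeierstrassCurve WeierstrassCurve.Affine WeierstrassCurve.Affine.Point Polynomial

namespace Fermat.Agent.S51.H41

/-- Sub-task B3 of S51: if the mod `3` representation of an integral Weierstrass curve with
nonzero discriminant is not irreducible, its `3`-division polynomial has a rational root. -/
theorem exists_rat_root_psi3 (W : WeierstrassCurve ℤ) (hΔ : W.Δ ≠ 0)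
    (h : ¬ W.ModRepIsIrreducible 3) :
    ∃ x : ℚ, 3 * x ^ 4 + (W.b₂ : ℚ) * x ^ 3 + 3 * (W.b₄ : ℚ) * x ^ 2 + 3 * (W.b₆ : ℚ) * x
      + (W.b₈ : ℚ) = 0 := by
  set E : WeierstrassCurve ℚ := W.map (Int.castRingHom ℚ) with hE
  have hΔE : E.Δ ≠ 0 := by
    rw [hE, WeierstrassCurve.map_Δ]
    simpa using hΔ
  obtain ⟨r, hr⟩ := exists_rat_root_Ψ₃ E hΔE h
  refine ⟨r, ?_⟩
  rw [eval_Ψ₃] at hr
  simpa [hE, WeierstrassCurve.map_b₂, WeierstrassCurve.map_b₄, WeierstrassCurve.map_b₆,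
    WeierstrassCurve.map_b₈] using hr

/-- `E[3](ℚ̄)` is nontrivial (Spec shape). -/
theorem nontrivial_torsion_three (W : WeierstrassCurve ℤ) (hΔ : W.Δ ≠ 0) :
    Nontrivial (Submodule.torsionBy ℤ
      ((W.map (Int.castRingHom ℚ)).toAffine⁄(AlgebraicClosure ℚ)).Point ((3 : ℕ) : ℤ)) := by
  apply nontrivial_Tors_three
  rw [WeierstrassCurve.map_Δ]
  simpa using hΔ

/-- `E[5](ℚ̄)` is nontrivial (Spec shape). -/
theorem nontrivial_torsion_five (W : WeierstrassCurve ℤ) (hΔ : W.Δ ≠ 0) :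
    Nontrivial (Submodule.torsionBy ℤ
      ((W.map (Int.castRingHom ℚ)).toAffine⁄(AlgebraicClosure ℚ)).Point ((5 : ℕ) : ℤ)) := by
  apply nontrivial_Tors_five
  rw [WeierstrassCurve.map_Δ]
  simpa using hΔ

end Fermat.Agent.S51.H41
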