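import Mathlib
import Fermat.Prelude.Def_FLTPrelim_Modularity

set_option autoImplicit false

namespace Fermat.Agent.S51.H52

/-- Arithmetic core: if `α c₄³ = β Δ` with `5 ∤ α`, `5 ∣ β`, `125 ∤ β`, then `5 ∣ c₄` and `5 ∣ Δ`. -/
theorem five_dvd_of_rel {c Δ α β : ℤ} (h : α * c ^ 3 = β * Δ) (hα : ¬ (5 : ℤ) ∣ α)
    (h5β : (5 : ℤ) ∣ β) (hβ : ¬ (125 : ℤ) ∣ β) : (5 : ℤ) ∣ c ∧ (5 : ℤ) ∣ Δ := by
  have p5 : Prime (5 : ℤ) := by
    rw [Int.prime_iff_natAbs_prime]; norm_num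
  have h5c : (5 : ℤ) ∣ c := by
    have : (5 : ℤ) ∣ α * c ^ 3 := by rw [h]; exact Dvd.dvd.mul_right h5β _
    rcases p5.dvd_or_dvd this with h' | h'
    · exact absurd h' hα
    · exact p5.dvd_of_dvd_pow h'
  refine ⟨h5c, ?_⟩
  by_contra h5Δ
  apply hβ
  obtain ⟨k, rfl⟩ := h5c
  have h125 : (125 : ℤ) ∣ β * Δ := ⟨α * k ^ 3, by rw [← h]; ring⟩
  have hcop : IsCoprime (125 : ℤ) Δ := by
    have : IsCoprime (5 : ℤ) Δ := p5.coprime_iff_not_dvd.mpr h5Δ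
    have := this.pow_left (m := 3)
    norm_num at this
    exact this
  exact hcop.dvd_of_dvd_mul_right h125

/-- **P3 of the S51 plan.** The four non-cuspidal rational points of `X₀(15)`
(`s = -10, -40, -25/2, -25/8`, i.e. `j = -25/2, -349938025/8, -121945/32, 46969655/32768`)
do not come from a semistable model. -/
theorem not_semistable_of_s (W : WeierstrassCurve ℤ) (hW : W.IsSemistableModel) (s : ℚ)
    (hs : s = -10 ∨ s = -40 ∨ s = -25 / 2 ∨ s = -25 / 8)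
    (h : (W.c₄ : ℚ) ^ 3 * s = (W.Δ : ℚ) * (s ^ 2 + 10 * s + 5) ^ 3) : False := by
  have h5 : (5 : ℤ) ∣ W.c₄ ∧ (5 : ℤ) ∣ W.Δ := by
    rcases hs with rfl | rfl | rfl | rfl
    · have e : (-2 : ℤ) * W.c₄ ^ 3 = 25 * W.Δ := by
        have : (-2 : ℚ) * (W.c₄ : ℚ) ^ 3 = 25 * (W.Δ : ℚ) := by linear_combination (1 / 5 : ℚ) * h
        exact_mod_cast this
      exact five_dvd_of_rel e (by norm_num) (by norm_num) (by norm_num)
    · have e : (-8 : ℤ) * W.c₄ ^ 3 = (25 * 241 ^ 3) * W.Δ := by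
        have : (-8 : ℚ) * (W.c₄ : ℚ) ^ 3 = (25 * 241 ^ 3) * (W.Δ : ℚ) := by
          linear_combination (1 / 5 : ℚ) * h
        exact_mod_cast this
      exact five_dvd_of_rel e (by norm_num) (by norm_num) (by norm_num)
    · have e : (-32 : ℤ) * W.c₄ ^ 3 = (5 * 29 ^ 3) * W.Δ := by
        have : (-32 : ℚ) * (W.c₄ : ℚ) ^ 3 = (5 * 29 ^ 3) * (W.Δ : ℚ) := by
          linear_combination (64 / 25 : ℚ) * h
        exact_mod_cast this
      exact five_dvd_of_rel e (by norm_num) (by norm_num) (by norm_num)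
    · have e : (2 ^ 15 : ℤ) * W.c₄ ^ 3 = (5 * 211 ^ 3) * W.Δ := by
        have : (2 ^ 15 : ℚ) * (W.c₄ : ℚ) ^ 3 = (5 * 211 ^ 3) * (W.Δ : ℚ) := by
          linear_combination (-(2 ^ 18) / 25 : ℚ) * h
        exact_mod_cast this
      exact five_dvd_of_rel e (by norm_num) (by norm_num) (by norm_num)
  exact hW 5 (by norm_num) (by exact_mod_cast h5.2) (by exact_mod_cast h5.1)

end Fermat.Agent.S51.H52
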