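import Mathlib

set_option autoImplicit false

namespace Fermat.Agent.S51.H52

/-- If `x * y^2` is a perfect square and `y ≠ 0`, then `x` is a perfect square. -/
theorem exists_sq_of_mul_sq {x y z : ℤ} (hy : y ≠ 0) (h : x * y ^ 2 = z ^ 2) :
    ∃ t : ℤ, x = t ^ 2 := by
  have hdvd : y ∣ z := by
    rw [← Int.pow_dvd_pow_iff (n := 2) (by norm_num)]
    exact ⟨x, by rw [← h]; ring⟩
  obtain ⟨t, rfl⟩ := hdvd
  refine ⟨t, ?_⟩
  have hy2 : y ^ 2 ≠ 0 := pow_ne_zero 2 hy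
  apply mul_right_cancel₀ hy2
  rw [h]; ring

/-- Coprime integers whose product is `-80` times a square: one of them is, up to sign,
a perfect square. -/
theorem exists_sq_of_coprime_mul_eq {K L M : ℤ} (hKL : IsCoprime K L)
    (h : K * L = -80 * M ^ 2) :
    ∃ a : ℤ, K = a ^ 2 ∨ K = -a ^ 2 ∨ L = a ^ 2 ∨ L = -a ^ 2 := by
  have h5 : (5 : ℤ) ∣ K * L := ⟨-16 * M ^ 2, by rw [h]; ring⟩
  have p5 : Prime (5 : ℤ) := by
    rw [Int.prime_iff_natAbs_prime]; norm_num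
  rcases p5.dvd_or_dvd h5 with h5K | h5L
  · obtain ⟨K', rfl⟩ := h5K
    have hcop : IsCoprime L (-K') := by
      have h1 : IsCoprime K' L := hKL.of_mul_left_right
      exact h1.symm.neg_right
    have heq : L * (-K') = (4 * M) ^ 2 := by
      have : 5 * (L * (-K')) = 5 * (4 * M) ^ 2 := by linear_combination -h
      exact mul_left_cancel₀ (by norm_num) this
    obtain ⟨a, ha⟩ := Int.sq_of_isCoprime hcop heq
    exact ⟨a, Or.inr (Or.inr ha)⟩
  · obtain ⟨L', rfl⟩ := h5L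
    have hcop : IsCoprime K (-L') := by
      have h1 : IsCoprime K L' := hKL.of_mul_right_right
      exact h1.neg_right
    have heq : K * (-L') = (4 * M) ^ 2 := by
      have : 5 * (K * (-L')) = 5 * (4 * M) ^ 2 := by linear_combination -h
      exact mul_left_cancel₀ (by norm_num) this
    obtain ⟨a, ha⟩ := Int.sq_of_isCoprime hcop heq
    rcases ha with ha | ha
    · exact ⟨a, Or.inl ha⟩
    · exact ⟨a, Or.inr (Or.inl ha)⟩

theorem mul_K_L {m n r s : ℤ} (h1 : m ^ 2 + n ^ 2 = r ^ 2 + s ^ 2) (h2 : r * s = 9 * m * n) :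
    (r ^ 2 - n ^ 2) * (r ^ 2 - m ^ 2) = -80 * (m * n) ^ 2 := by
  linear_combination (-r ^ 2) * h1 - (r * s + 9 * m * n) * h2

theorem isCoprime_K_L {m n r s : ℤ} (hmn : IsCoprime m n) (hodd : ¬ (2 : ℤ) ∣ (m ^ 2 - n ^ 2))
    (h1 : m ^ 2 + n ^ 2 = r ^ 2 + s ^ 2) (h2 : r * s = 9 * m * n) :
    IsCoprime (r ^ 2 - n ^ 2) (r ^ 2 - m ^ 2) := by
  have hKL := mul_K_L h1 h2
  rw [Int.isCoprime_iff_gcd_eq_one]
  by_contra hne
  obtain ⟨p, hp, hpK, hpL⟩ := Nat.Prime.not_coprime_iff_dvd.mp hne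
  have hpK' : (p : ℤ) ∣ r ^ 2 - n ^ 2 := Int.natCast_dvd.mpr hpK
  have hpL' : (p : ℤ) ∣ r ^ 2 - m ^ 2 := Int.natCast_dvd.mpr hpL
  have hpp : Prime (p : ℤ) := Nat.prime_iff_prime_int.mp hp
  have hpV : (p : ℤ) ∣ m ^ 2 - n ^ 2 := by
    have := dvd_sub hpK' hpL'
    have e : (r ^ 2 - n ^ 2) - (r ^ 2 - m ^ 2) = m ^ 2 - n ^ 2 := by ring
    rwa [e] at this
  have hnot_m : ¬ (p : ℤ) ∣ m := by
    intro hm
    have hn2 : (p : ℤ) ∣ n ^ 2 := by
      have : (p : ℤ) ∣ m ^ 2 := dvd_pow hm (by norm_num)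
      have := dvd_sub this hpV
      have e : m ^ 2 - (m ^ 2 - n ^ 2) = n ^ 2 := by ring
      rwa [e] at this
    have hn : (p : ℤ) ∣ n := hpp.dvd_of_dvd_pow hn2
    exact hpp.not_isUnit (hmn.isUnit_of_dvd' hm hn)
  have hnot_n : ¬ (p : ℤ) ∣ n := by
    intro hn
    have hm2 : (p : ℤ) ∣ m ^ 2 := by
      have : (p : ℤ) ∣ n ^ 2 := dvd_pow hn (by norm_num)
      have := dvd_add this hpV
      have e : n ^ 2 + (m ^ 2 - n ^ 2) = m ^ 2 := by ring
      rwa [e] at this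
    exact hnot_m (hpp.dvd_of_dvd_pow hm2)
  have hnot_mn : ¬ (p : ℤ) ∣ (m * n) ^ 2 := by
    intro h
    rcases hpp.dvd_or_dvd (hpp.dvd_of_dvd_pow h) with h | h
    · exact hnot_m h
    · exact hnot_n h
  have hp80 : (p : ℤ) ∣ -80 * (m * n) ^ 2 := hKL ▸ dvd_mul_of_dvd_left hpK' _
  have hp80' : (p : ℤ) ∣ (-80 : ℤ) := (hpp.dvd_or_dvd hp80).resolve_right hnot_mn
  have hp80n : p ∣ 80 := by
    have : (p : ℤ) ∣ ((80 : ℕ) : ℤ) := by
      have := (dvd_neg (a := (p : ℤ)) (b := (-80 : ℤ))).mpr hp80'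
      simpa using this
    exact Int.natCast_dvd_natCast.mp this
  have hp25 : p = 2 ∨ p = 5 := by
    have h80 : (80 : ℕ) = 2 ^ 4 * 5 := by norm_num
    rw [h80] at hp80n
    rcases (Nat.Prime.dvd_mul hp).mp hp80n with h | h
    · left
      exact (Nat.prime_dvd_prime_iff_eq hp Nat.prime_two).mp (hp.dvd_of_dvd_pow h)
    · right
      exact (Nat.prime_dvd_prime_iff_eq hp Nat.prime_five).mp h
  rcases hp25 with rfl | rfl
  · exact hodd (by exact_mod_cast hpV)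
  · have h25 : ((5 : ℕ) : ℤ) * ((5 : ℕ) : ℤ) ∣ -80 * (m * n) ^ 2 := hKL ▸ mul_dvd_mul hpK' hpL'
    obtain ⟨c, hc⟩ := h25
    have : ((5 : ℕ) : ℤ) ∣ 16 * (m * n) ^ 2 := by
      refine ⟨-c, ?_⟩
      push_cast at hc ⊢
      linarith
    rcases hpp.dvd_or_dvd this with h | h
    · norm_num at h
    · exact hnot_mn h

/-- From `K = r^2 - n^2 = ± a^2` build a smaller solution. -/
theorem new_sol_of_K {m n r s a : ℤ} (hm : m ≠ 0) (hn : n ≠ 0)
    (h1 : m ^ 2 + n ^ 2 = r ^ 2 + s ^ 2) (h2 : r * s = 9 * m * n)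
    (hK : r ^ 2 - n ^ 2 = a ^ 2 ∨ r ^ 2 - n ^ 2 = -a ^ 2) :
    ∃ c b a' w : ℤ, b ≠ 0 ∧ c ^ 2 - b ^ 2 = a' ^ 2 ∧ c ^ 2 - 81 * b ^ 2 = w ^ 2 ∧
      c ^ 2 < m ^ 2 + n ^ 2 := by
  have hrs : r * s ≠ 0 := by
    rw [h2]; exact mul_ne_zero (mul_ne_zero (by norm_num) hm) hn
  have hr : r ≠ 0 := left_ne_zero_of_mul hrs
  have hs : s ≠ 0 := right_ne_zero_of_mul hrs
  rcases hK with hK | hK
  · obtain ⟨w, hw⟩ := exists_sq_of_mul_sq (x := r ^ 2 - 81 * n ^ 2) (y := m) (z := r * a) hm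
      (by linear_combination r ^ 2 * h1 + (r * s + 9 * m * n) * h2 + r ^ 2 * hK)
    refine ⟨r, n, a, w, hn, hK, hw, ?_⟩
    rw [h1]
    have : 0 < s ^ 2 := by positivity
    linarith
  · obtain ⟨w, hw⟩ := exists_sq_of_mul_sq (x := s ^ 2 - 81 * m ^ 2) (y := n) (z := s * a) hn
      (by linear_combination (r * s + 9 * m * n) * h2 - s ^ 2 * hK)
    refine ⟨s, m, a, w, hm, by linear_combination -h1 - hK, hw, ?_⟩
    rw [h1]
    have : 0 < r ^ 2 := by positivity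
    linarith

/-- The descent step: from the Pythagorean parameters of a coprime solution
build a strictly smaller solution. -/
theorem new_sol {m n r s : ℤ} (hm : m ≠ 0) (hn : n ≠ 0) (hmn : IsCoprime m n)
    (hodd : ¬ (2 : ℤ) ∣ (m ^ 2 - n ^ 2))
    (h1 : m ^ 2 + n ^ 2 = r ^ 2 + s ^ 2) (h2 : r * s = 9 * m * n) :
    ∃ c b a' w : ℤ, b ≠ 0 ∧ c ^ 2 - b ^ 2 = a' ^ 2 ∧ c ^ 2 - 81 * b ^ 2 = w ^ 2 ∧
      c ^ 2 < m ^ 2 + n ^ 2 := by
  have hcop := isCoprime_K_L hmn hodd h1 h2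
  obtain ⟨a, ha⟩ := exists_sq_of_coprime_mul_eq hcop (mul_K_L h1 h2)
  rcases ha with ha | ha | ha | ha
  · exact new_sol_of_K hm hn h1 h2 (Or.inl ha)
  · exact new_sol_of_K hm hn h1 h2 (Or.inr ha)
  · have h1' : n ^ 2 + m ^ 2 = r ^ 2 + s ^ 2 := by rw [← h1]; ring
    have h2' : r * s = 9 * n * m := by rw [h2]; ring
    obtain ⟨c, b, a', w, hb, hc1, hc2, hlt⟩ := new_sol_of_K hn hm h1' h2' (Or.inl ha)
    exact ⟨c, b, a', w, hb, hc1, hc2, by rw [add_comm]; exact hlt⟩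
  · have h1' : n ^ 2 + m ^ 2 = r ^ 2 + s ^ 2 := by rw [← h1]; ring
    have h2' : r * s = 9 * n * m := by rw [h2]; ring
    obtain ⟨c, b, a', w, hb, hc1, hc2, hlt⟩ := new_sol_of_K hn hm h1' h2' (Or.inr ha)
    exact ⟨c, b, a', w, hb, hc1, hc2, by rw [add_comm]; exact hlt⟩

theorem zmod3_sq_add_sq : ∀ v z : ZMod 3, v ^ 2 + z ^ 2 = 0 → z = 0 := by decide

/-- Coprimality bookkeeping for a coprime solution. -/
theorem coprime_facts {N Z V W : ℤ} (hNZ : IsCoprime N Z)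
    (h1 : N ^ 2 - Z ^ 2 = V ^ 2) (h2 : N ^ 2 - 81 * Z ^ 2 = W ^ 2) :
    IsCoprime V Z ∧ IsCoprime W (9 * Z) := by
  have hVZ : IsCoprime V Z := by
    have h : IsCoprime (N ^ 2) Z := hNZ.pow_left
    have e : N ^ 2 = V ^ 2 + Z * Z := by linear_combination h1
    rw [e] at h
    exact (IsCoprime.pow_left_iff (by norm_num : 0 < 2)).mp h.of_add_mul_left_left
  have hWZ : IsCoprime W Z := by
    have h : IsCoprime (N ^ 2) Z := hNZ.pow_left
    have e : N ^ 2 = W ^ 2 + Z * (81 * Z) := by linear_combination h2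
    rw [e] at h
    exact (IsCoprime.pow_left_iff (by norm_num : 0 < 2)).mp h.of_add_mul_left_left
  refine ⟨hVZ, ?_⟩
  have p3 : Prime (3 : ℤ) := by
    rw [Int.prime_iff_natAbs_prime]; norm_num
  have hW3 : IsCoprime W 3 := by
    rw [isCoprime_comm, p3.coprime_iff_not_dvd]
    intro h3W
    have h3N : (3 : ℤ) ∣ N := by
      apply p3.dvd_of_dvd_pow (n := 2)
      have e : N ^ 2 = W ^ 2 + 3 * (27 * Z ^ 2) := by linear_combination h2
      rw [e]
      exact dvd_add (dvd_pow h3W (by norm_num)) (dvd_mul_right _ _)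
    have h3Z : (3 : ℤ) ∣ Z := by
      have hz : ((V ^ 2 + Z ^ 2 : ℤ) : ZMod 3) = 0 := by
        rw [ZMod.intCast_zmod_eq_zero_iff_dvd]
        have e : V ^ 2 + Z ^ 2 = N ^ 2 := by linear_combination -h1
        rw [e]
        exact dvd_pow h3N (by norm_num)
      push_cast at hz
      have := zmod3_sq_add_sq _ _ hz
      rwa [ZMod.intCast_zmod_eq_zero_iff_dvd] at this
    exact p3.not_isUnit (hNZ.isUnit_of_dvd' h3N h3Z)
  have hW9 : IsCoprime W 9 := by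
    have : IsCoprime W (3 ^ 2) := hW3.pow_right
    norm_num at this
    exact this
  exact hW9.mul_right hWZ

theorem zmod8_key : ∀ s n' m' : ZMod 8, s ^ 2 ≠ 5 * (2 * n' + 1) ^ 2 - 4 * (2 * m') ^ 2 := by
  decide

/-- The case `Z` odd is impossible. -/
theorem odd_case_false {m n r s : ℤ} (hpar : m % 2 = 0 ∧ n % 2 = 1 ∨ m % 2 = 1 ∧ n % 2 = 0)
    (h1 : m ^ 2 + n ^ 2 = r ^ 2 + s ^ 2) (h2 : 9 * (m ^ 2 - n ^ 2) = r ^ 2 - s ^ 2) : False := by
  have hr : r ^ 2 = 5 * m ^ 2 - 4 * n ^ 2 := by linarith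
  have hs : s ^ 2 = 5 * n ^ 2 - 4 * m ^ 2 := by linarith
  rcases hpar with ⟨hm, hn⟩ | ⟨hm, hn⟩
  · obtain ⟨m', rfl⟩ : ∃ m', m = 2 * m' := ⟨m / 2, by omega⟩
    obtain ⟨n', rfl⟩ : ∃ n', n = 2 * n' + 1 := ⟨n / 2, by omega⟩
    have := congrArg (Int.cast : ℤ → ZMod 8) hs
    push_cast at this
    exact zmod8_key _ _ _ this
  · obtain ⟨m', rfl⟩ : ∃ m', m = 2 * m' + 1 := ⟨m / 2, by omega⟩
    obtain ⟨n', rfl⟩ : ∃ n', n = 2 * n' := ⟨n / 2, by omega⟩
    have := congrArg (Int.cast : ℤ → ZMod 8) hr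
    push_cast at this
    exact zmod8_key _ _ _ this

/-- **Fermat descent.** There are no integers `N, Z, V, W` with `Z ≠ 0`,
`N^2 - Z^2 = V^2` and `N^2 - 81 Z^2 = W^2`. -/
theorem no_sol : ∀ (N : ℕ) (Z V W : ℤ), Z ≠ 0 → (N : ℤ) ^ 2 - Z ^ 2 = V ^ 2 →
    (N : ℤ) ^ 2 - 81 * Z ^ 2 = W ^ 2 → False := by
  intro N
  induction N using Nat.strong_induction_on with
  | _ N ih =>
  intro Z V W hZ h1 h2
  have hZ2 : 0 < Z ^ 2 := by positivity
  have hNpos : 0 < N := by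
    rcases Nat.eq_zero_or_pos N with h0 | h0
    · exfalso
      subst h0
      have : 0 ≤ W ^ 2 := by positivity
      simp at h2
      nlinarith
    · exact h0
  have hNposZ : (0 : ℤ) < N := by exact_mod_cast hNpos
  by_cases hg : Int.gcd (N : ℤ) Z = 1
  swap
  · obtain ⟨p, hp, hpN, hpZ⟩ := Nat.Prime.not_coprime_iff_dvd.mp hg
    have hpN' : p ∣ N := by simpa using hpN
    obtain ⟨N₁, rfl⟩ := hpN'
    obtain ⟨Z₁, rfl⟩ := Int.natCast_dvd.mpr hpZ
    have hp0 : (p : ℤ) ≠ 0 := by exact_mod_cast hp.ne_zero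
    have hpV : (p : ℤ) ∣ V := by
      rw [← Int.pow_dvd_pow_iff (n := 2) (by norm_num), ← h1]
      exact ⟨(N₁ : ℤ) ^ 2 - Z₁ ^ 2, by push_cast; ring⟩
    have hpW : (p : ℤ) ∣ W := by
      rw [← Int.pow_dvd_pow_iff (n := 2) (by norm_num), ← h2]
      exact ⟨(N₁ : ℤ) ^ 2 - 81 * Z₁ ^ 2, by push_cast; ring⟩
    obtain ⟨V₁, rfl⟩ := hpV
    obtain ⟨W₁, rfl⟩ := hpW
    have hN1 : 0 < N₁ := Nat.pos_of_mul_pos_left hNpos
    have hlt : N₁ < p * N₁ := by
      have := hp.two_le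
      nlinarith
    have hp2 : ((p : ℤ)) ^ 2 ≠ 0 := pow_ne_zero 2 hp0
    refine ih N₁ hlt Z₁ V₁ W₁ ?_ ?_ ?_
    · rintro rfl; simp at hZ
    · apply mul_left_cancel₀ hp2
      push_cast at h1
      linear_combination h1
    · apply mul_left_cancel₀ hp2
      push_cast at h2
      linear_combination h2
  · have hNZ : IsCoprime (N : ℤ) Z := Int.isCoprime_iff_gcd_eq_one.mpr hg
    obtain ⟨hVZ, hW9Z⟩ := coprime_facts hNZ h1 h2
    have pyV : PythagoreanTriple V Z N := by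
      unfold PythagoreanTriple; linear_combination -h1
    have pyW : PythagoreanTriple W (9 * Z) N := by
      unfold PythagoreanTriple; linear_combination -h2
    have p2 : Prime (2 : ℤ) := Int.prime_two
    rcases Int.emod_two_eq_zero_or_one Z with hZe | hZo
    · have h2Z : (2 : ℤ) ∣ Z := Int.dvd_of_emod_eq_zero hZe
      have hVodd : V % 2 = 1 := by
        rcases Int.emod_two_eq_zero_or_one V with h | h
        · exfalso
          exact p2.not_isUnit (hVZ.isUnit_of_dvd' (Int.dvd_of_emod_eq_zero h) h2Z)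
        · exact h
      have hWodd : W % 2 = 1 := by
        rcases Int.emod_two_eq_zero_or_one W with h | h
        · exfalso
          exact p2.not_isUnit (hW9Z.isUnit_of_dvd' (Int.dvd_of_emod_eq_zero h)
            (Dvd.dvd.mul_left h2Z 9))
        · exact h
      obtain ⟨m, n, hVm, hZm, hNm, hmn, hpar, -⟩ :=
        pyV.coprime_classification' (Int.isCoprime_iff_gcd_eq_one.mp hVZ) hVodd hNposZ
      obtain ⟨r, s, hWr, hZr, hNr, hrs, hpar', -⟩ :=
        pyW.coprime_classification' (Int.isCoprime_iff_gcd_eq_one.mp hW9Z) hWodd hNposZ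
      have hm : m ≠ 0 := by rintro rfl; simp at hZm; exact hZ hZm
      have hn : n ≠ 0 := by rintro rfl; simp at hZm; exact hZ hZm
      have hodd : ¬ (2 : ℤ) ∣ (m ^ 2 - n ^ 2) := by
        rw [← hVm]; intro h
        have := Int.emod_eq_zero_of_dvd h
        omega
      have e1 : m ^ 2 + n ^ 2 = r ^ 2 + s ^ 2 := by rw [← hNm, ← hNr]
      have e2 : r * s = 9 * m * n := by
        have : 2 * (r * s) = 2 * (9 * m * n) := by
          calc 2 * (r * s) = 2 * r * s := by ring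
            _ = 9 * Z := hZr.symm
            _ = 9 * (2 * m * n) := by rw [hZm]
            _ = 2 * (9 * m * n) := by ring
        exact mul_left_cancel₀ (by norm_num) this
      obtain ⟨c, b, a', w, hb, hc1, hc2, hclt⟩ :=
        new_sol hm hn (Int.isCoprime_iff_gcd_eq_one.mpr hmn) hodd e1 e2
      have hcN : c ^ 2 < N := by rw [hNm]; exact hclt
      have hcabs : ((c.natAbs : ℕ) : ℤ) ^ 2 = c ^ 2 := Int.natAbs_sq c
      have hlt : c.natAbs < N := by
        by_contra hle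
        rw [not_lt] at hle
        have h' : (N : ℤ) ≤ (c.natAbs : ℤ) := by exact_mod_cast hle
        nlinarith
      exact ih c.natAbs hlt b a' w hb (by rw [hcabs]; exact hc1) (by rw [hcabs]; exact hc2)
    · have pyV' : PythagoreanTriple Z V N := pythagoreanTriple_comm.mp pyV
      have pyW' : PythagoreanTriple (9 * Z) W N := pythagoreanTriple_comm.mp pyW
      have h9Zo : (9 * Z) % 2 = 1 := by omega
      obtain ⟨m, n, hZm, hVm, hNm, hmn, hpar, -⟩ :=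
        pyV'.coprime_classification' (Int.isCoprime_iff_gcd_eq_one.mp hVZ.symm) hZo hNposZ
      obtain ⟨r, s, hZr, hWr, hNr, hrs, hpar', -⟩ :=
        pyW'.coprime_classification' (Int.isCoprime_iff_gcd_eq_one.mp hW9Z.symm) h9Zo hNposZ
      have e1 : m ^ 2 + n ^ 2 = r ^ 2 + s ^ 2 := by rw [← hNm, ← hNr]
      have e2 : 9 * (m ^ 2 - n ^ 2) = r ^ 2 - s ^ 2 := by rw [← hZm, ← hZr]
      exact odd_case_false hpar e1 e2

/-- Integer form without normalisations. -/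
theorem no_int_sol (U Z V W : ℤ) (hZ : Z ≠ 0) (h1 : U ^ 2 - Z ^ 2 = V ^ 2)
    (h2 : U ^ 2 - 81 * Z ^ 2 = W ^ 2) : False := by
  have hU : ((U.natAbs : ℕ) : ℤ) ^ 2 = U ^ 2 := Int.natAbs_sq U
  exact no_sol U.natAbs Z V W hZ (by rw [hU]; exact h1) (by rw [hU]; exact h2)

/-- An integer that is the square of a rational is the square of an integer. -/
theorem int_sq_of_rat_sq {n : ℤ} {q : ℚ} (h : (n : ℚ) = q ^ 2) : ∃ k : ℤ, n = k ^ 2 := by
  have : IsSquare (n : ℚ) := ⟨q, by rw [h]; ring⟩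
  obtain ⟨k, hk⟩ := Rat.isSquare_intCast_iff.mp this
  exact ⟨k, by rw [hk]; ring⟩

/-- Rational form: `u^2 - 1` and `u^2 - 81` are never both rational squares. -/
theorem no_rat_sol (u v w : ℚ) (h1 : u ^ 2 - 1 = v ^ 2) (h2 : u ^ 2 - 81 = w ^ 2) : False := by
  have hd : (u.den : ℚ) ≠ 0 := by exact_mod_cast u.den_ne_zero
  have e1 : (((u.num ^ 2 - (u.den : ℤ) ^ 2 : ℤ)) : ℚ) = (v * u.den) ^ 2 := by
    push_cast
    have : u * (u.den : ℚ) = u.num := Rat.mul_den_eq_num u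
    calc (u.num : ℚ) ^ 2 - (u.den : ℚ) ^ 2 = (u * u.den) ^ 2 - (u.den : ℚ) ^ 2 := by rw [this]
      _ = (u ^ 2 - 1) * (u.den : ℚ) ^ 2 := by ring
      _ = (v * u.den) ^ 2 := by rw [h1]; ring
  have e2 : (((u.num ^ 2 - 81 * (u.den : ℤ) ^ 2 : ℤ)) : ℚ) = (w * u.den) ^ 2 := by
    push_cast
    have : u * (u.den : ℚ) = u.num := Rat.mul_den_eq_num u
    calc (u.num : ℚ) ^ 2 - 81 * (u.den : ℚ) ^ 2
        = (u * u.den) ^ 2 - 81 * (u.den : ℚ) ^ 2 := by rw [this]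
      _ = (u ^ 2 - 81) * (u.den : ℚ) ^ 2 := by ring
      _ = (w * u.den) ^ 2 := by rw [h2]; ring
  obtain ⟨V, hV⟩ := int_sq_of_rat_sq e1
  obtain ⟨W, hW⟩ := int_sq_of_rat_sq e2
  exact no_int_sol u.num (u.den : ℤ) V W (by exact_mod_cast u.den_ne_zero) hV hW

/-- **Rational points of `y^2 = x (x - 1) (x - 81)`** (the curve 15a2): only the 2-torsion. -/
theorem rational_points_E' (x y : ℚ) (h : y ^ 2 = x * (x - 1) * (x - 81)) : y = 0 := by
  by_contra hy
  have h2y : (2 * y) ≠ 0 := mul_ne_zero (by norm_num) hy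
  refine no_rat_sol ((x ^ 2 - 81) / (2 * y)) ((x ^ 2 - 2 * x + 81) / (2 * y))
    ((x ^ 2 - 162 * x + 81) / (2 * y)) ?_ ?_
  · field_simp
    linear_combination (-4 : ℚ) * h
  · field_simp
    linear_combination (-324 : ℚ) * h

/-- **Rational points of `y^2 = x (x + 9) (x - 16)`** (a model of `X₀(15)`). -/
theorem rational_points (x y : ℚ) (h : y ^ 2 = x * (x + 9) * (x - 16)) :
    y = 0 ∨ x = 36 ∨ x = -4 := by
  by_cases hy : y = 0
  · exact Or.inl hy
  right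
  have hX : x - 16 ≠ 0 := by
    intro h0
    apply hy
    have : y ^ 2 = 0 := by rw [h, h0]; ring
    exact pow_eq_zero_iff (by norm_num) |>.mp this
  have key := rational_points_E' (y ^ 2 / (x - 16) ^ 2)
    (y * (400 - (x - 16) ^ 2) / (x - 16) ^ 2) (by
      field_simp
      rw [h]
      ring)
  have h400 : y * (400 - (x - 16) ^ 2) = 0 := by
    have hX2 : (x - 16) ^ 2 ≠ 0 := pow_ne_zero 2 hX
    rcases div_eq_zero_iff.mp key with h0 | h0
    · exact h0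
    · exact absurd h0 hX2
  have h400' : 400 - (x - 16) ^ 2 = 0 := (mul_eq_zero.mp h400).resolve_left hy
  have : (x - 36) * (x + 4) = 0 := by linear_combination -h400'
  rcases mul_eq_zero.mp this with h36 | h4
  · left; linarith
  · right; linarith

/-- The same statement in the shape used by the S51 plan (all eight points; the four with
`Y = 0`... are `Z = 0, -9, 16`). -/
theorem descent_15a1 (Z Y : ℚ) (h : Y ^ 2 = Z * (Z + 9) * (Z - 16)) :
    Z = 0 ∨ Z = -9 ∨ Z = 16 ∨ Z = 36 ∨ Z = -4 := by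
  rcases rational_points Z Y h with hY | h36 | h4
  · rw [hY] at h
    have h0 : Z * (Z + 9) * (Z - 16) = 0 := by rw [← h]; ring
    rcases mul_eq_zero.mp h0 with h1 | h1
    · rcases mul_eq_zero.mp h1 with h2 | h2
      · exact Or.inl h2
      · exact Or.inr (Or.inl (by linarith))
    · exact Or.inr (Or.inr (Or.inl (by linarith)))
  · exact Or.inr (Or.inr (Or.inr (Or.inl h36)))
  · exact Or.inr (Or.inr (Or.inr (Or.inr h4)))

end Fermat.Agent.S51.H52
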