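import Mathlib
import Fermat.Agent.S51.H52_Descent
import Fermat.Agent.S51.H9_X015Ids

set_option autoImplicit false

namespace Fermat.Agent.S51.H9

theorem no_rat_sq_five (r : ℚ) : r ^ 2 ≠ 5 := by
  intro h
  obtain ⟨k, hk⟩ := Fermat.Agent.S51.H52.int_sq_of_rat_sq (n := 5) (q := r) (by exact_mod_cast h.symm)
  have h1 : k.natAbs ^ 2 = 5 := by
    have : (k.natAbs : ℤ) ^ 2 = 5 := by rw [Int.natAbs_sq]; exact hk.symm
    exact_mod_cast this
  have h2 : k.natAbs < 3 := by
    by_contra hcon
    have hcon' : 3 ≤ k.natAbs := Nat.le_of_not_lt hcon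
    have : 9 ≤ k.natAbs ^ 2 := by nlinarith
    omega
  interval_cases k.natAbs <;> omega

theorem f1_ne_zero (s : ℚ) : s ^ 2 + 10 * s + 5 ≠ 0 := by
  intro h
  apply no_rat_sq_five ((s + 5) / 2)
  linear_combination h / 4

theorem f2_ne_zero (s : ℚ) : s ^ 2 + 4 * s - 1 ≠ 0 := by
  intro h
  apply no_rat_sq_five (s + 2)
  linear_combination h

theorem DZ_ne_zero {s : ℚ} (hs : s ≠ 0) : DZ s ≠ 0 := by
  unfold DZ
  exact mul_ne_zero (mul_ne_zero (pow_ne_zero _ hs) (pow_ne_zero _ (f1_ne_zero s))) (f2_ne_zero s)

/-- Rational points of `X_0(15)` in the plane model given by the Hauptmoduln `t` of `X_0(3)` and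
`s` of `X_0(5)` (`j = (t+27)(t+3)^3/t = (s^2+10s+5)^3/s`): away from the cusps there are exactly
four of them. -/
theorem x015_points (t s : ℚ) (_ht : t ≠ 0) (hs : s ≠ 0)
    (h : (t + 27) * (t + 3) ^ 3 * s = (s ^ 2 + 10 * s + 5) ^ 3 * t) :
    s = -10 ∨ s = -40 ∨ s = -25 / 2 ∨ s = -25 / 8 := by
  have hD : DZ s ≠ 0 := DZ_ne_zero hs
  have h1 := mul_left_cancel₀ (pow_ne_zero 6 hs) (id1 t s h)
  have h2 := mul_left_cancel₀ (pow_ne_zero 3 hs) (id2 t s h)
  have h3 := mul_left_cancel₀ (pow_ne_zero 7 hs) (id3 t s h)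
  set p := PZ t s with hp
  set q := QW t s with hq
  set d := DZ s with hd
  -- the point of 15a1
  have hE : (q / (s * d)) ^ 2 = (p / d) * (p / d + 9) * (p / d - 16) := by
    field_simp
    linear_combination h1
  have hS : s * ((p / d) * (q / (s * d)) + 36 * (q / (s * d)) - 13 * (p / d) ^ 2 + 108 * (p / d))
      = 250 * (p / d) ^ 2 := by
    field_simp
    linear_combination h2
  have hT : t * (9072 * (p / d) - 324 * (p / d) ^ 2 - 23 * (p / d) ^ 3 - 1296 * (q / (s * d))
        + 180 * (p / d) * (q / (s * d)) + (p / d) ^ 2 * (q / (s * d)))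
      = -93312 + 34992 * (p / d) + 20412 * (p / d) ^ 2 + 1458 * (p / d) ^ 3
        + 11664 * (q / (s * d)) + 2916 * (p / d) * (q / (s * d)) := by
    field_simp
    linear_combination h3
  generalize p / d = Z at hE hS hT
  generalize q / (s * d) = W at hE hS hT
  rcases Fermat.Agent.S51.H52.descent_15a1 Z W hE with hZ | hZ | hZ | hZ | hZ
  · -- Z = 0 : the cusp 1/5
    subst hZ
    have hW : W = 0 := by
      have : W ^ 2 = 0 := by rw [hE]; ring
      exact pow_eq_zero_iff (by norm_num) |>.mp this
    subst hW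
    norm_num at hT
  · -- Z = -9
    subst hZ
    have hW : W = 0 := by
      have : W ^ 2 = 0 := by rw [hE]; ring
      exact pow_eq_zero_iff (by norm_num) |>.mp this
    subst hW
    left
    linarith
  · -- Z = 16
    subst hZ
    have hW : W = 0 := by
      have : W ^ 2 = 0 := by rw [hE]; ring
      exact pow_eq_zero_iff (by norm_num) |>.mp this
    subst hW
    right; left
    linarith
  · -- Z = 36
    subst hZ
    have hW : (W - 180) * (W + 180) = 0 := by linear_combination hE
    rcases mul_eq_zero.mp hW with hW | hW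
    · have : W = 180 := by linarith
      subst this
      norm_num at hS
    · have : W = -180 := by linarith
      subst this
      right; right; left
      linarith
  · -- Z = -4
    subst hZ
    have hW : (W - 20) * (W + 20) = 0 := by linear_combination hE
    rcases mul_eq_zero.mp hW with hW | hW
    · have : W = 20 := by linarith
      subst this
      norm_num at hS
    · have : W = -20 := by linarith
      subst this
      right; right; right
      linarith

end Fermat.Agent.S51.H9
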