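import Fermat.Agent.S51.H74_Ident
import Fermat.Agent.S51.H9_X015
import Fermat.Agent.S51.H52_JValues

set_option autoImplicit false

namespace Fermat.Agent.S51.H74

/-- The moduli step: no semistable integral Weierstrass curve carries both a rational root of the
3-division polynomial and order-five data `u = x(P)`, `v = x(2P)` with rational sum and product. -/
theorem no_fifteen (W : WeierstrassCurve ℤ) (hΔ : W.Δ ≠ 0) (hW : W.IsSemistableModel)
    (x₃ : ℚ)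
    (h3 : 3 * x₃ ^ 4 + (W.b₂ : ℚ) * x₃ ^ 3 + 3 * (W.b₄ : ℚ) * x₃ ^ 2 + 3 * (W.b₆ : ℚ) * x₃
      + (W.b₈ : ℚ) = 0)
    (u v : AlgebraicClosure ℚ) (huv : u ≠ v)
    (hs : ∃ s : ℚ, u + v = algebraMap ℚ (AlgebraicClosure ℚ) s)
    (ht : ∃ t : ℚ, u * v = algebraMap ℚ (AlgebraicClosure ℚ) t)
    (h5a : v * (4 * u ^ 3 + (W.b₂ : AlgebraicClosure ℚ) * u ^ 2 + 2 * (W.b₄ : AlgebraicClosure ℚ) * u
          + (W.b₆ : AlgebraicClosure ℚ))
        = u ^ 4 - (W.b₄ : AlgebraicClosure ℚ) * u ^ 2 - 2 * (W.b₆ : AlgebraicClosure ℚ) * u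
          - (W.b₈ : AlgebraicClosure ℚ))
    (h5b : u * (4 * v ^ 3 + (W.b₂ : AlgebraicClosure ℚ) * v ^ 2 + 2 * (W.b₄ : AlgebraicClosure ℚ) * v
          + (W.b₆ : AlgebraicClosure ℚ))
        = v ^ 4 - (W.b₄ : AlgebraicClosure ℚ) * v ^ 2 - 2 * (W.b₆ : AlgebraicClosure ℚ) * v
          - (W.b₈ : AlgebraicClosure ℚ)) : False := by
  obtain ⟨t, s, ht0, hs0, _, hsj, hplane⟩ :=
    exists_plane_point W hΔ x₃ h3 u v huv hs ht h5a h5b
  exact Fermat.Agent.S51.H52.not_semistable_of_s W hW s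
    (Fermat.Agent.S51.H9.x015_points t s ht0 hs0 hplane) hsj

end Fermat.Agent.S51.H74
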