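import Fermat.Agent.S51.H84_FiveGalois

set_option autoImplicit false

namespace Fermat.Agent.S51.H84

open WeierstrassCurve WeierstrassCurve.Affine WeierstrassCurve.Affine.Point

lemma isGalois_ratAlgClosure : IsGalois ℚ (AlgebraicClosure ℚ) := by
  have h : (AlgebraicClosure.instAlgebra ℚ : Algebra ℚ (AlgebraicClosure ℚ)) =
      DivisionRing.toRatAlgebra := Subsingleton.elim _ _
  have := @IsAlgClosure.isGalois ℚ (AlgebraicClosure ℚ) _ _ (AlgebraicClosure.instAlgebra ℚ) _ _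
  rwa [h] at this

/-- Sub-task B5 of the S51 plan, in the exact shape of `Spec.exists_five_data`. -/
theorem exists_five_data (W : WeierstrassCurve ℤ) (hΔ : W.Δ ≠ 0)
    (h : ¬ W.ModRepIsIrreducible 5) :
    ∃ u v : AlgebraicClosure ℚ, u ≠ v ∧
      (∃ s : ℚ, u + v = algebraMap ℚ (AlgebraicClosure ℚ) s) ∧
      (∃ t : ℚ, u * v = algebraMap ℚ (AlgebraicClosure ℚ) t) ∧
      v * (4 * u ^ 3 + (W.b₂ : AlgebraicClosure ℚ) * u ^ 2 + 2 * (W.b₄ : AlgebraicClosure ℚ) * u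
          + (W.b₆ : AlgebraicClosure ℚ))
        = u ^ 4 - (W.b₄ : AlgebraicClosure ℚ) * u ^ 2 - 2 * (W.b₆ : AlgebraicClosure ℚ) * u
          - (W.b₈ : AlgebraicClosure ℚ) ∧
      u * (4 * v ^ 3 + (W.b₂ : AlgebraicClosure ℚ) * v ^ 2 + 2 * (W.b₄ : AlgebraicClosure ℚ) * v
          + (W.b₆ : AlgebraicClosure ℚ))
        = v ^ 4 - (W.b₄ : AlgebraicClosure ℚ) * v ^ 2 - 2 * (W.b₆ : AlgebraicClosure ℚ) * v
          - (W.b₈ : AlgebraicClosure ℚ) := by
  have hΔ' : (((W.map (Int.castRingHom ℚ)).toAffine)⁄(AlgebraicClosure ℚ)).Δ ≠ 0 := by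
    rw [Affine.baseChange, WeierstrassCurve.baseChange, map_Δ, map_Δ]
    simpa using hΔ
  unfold ModRepIsIrreducible GaloisRepIsIrreducible at h
  have hnt := nontrivial_five_torsion (W' := (W.map (Int.castRingHom ℚ)).toAffine)
    (K := AlgebraicClosure ℚ) hΔ'
  obtain ⟨N, hst, hN⟩ : ∃ N : Submodule (ZMod 5) (Submodule.torsionBy ℤ
      (((W.map (Int.castRingHom ℚ)).toAffine)⁄(AlgebraicClosure ℚ)).Point (5 : ℕ)),
      IsGaloisStable ℚ N ∧ ¬ (N = ⊥ ∨ N = ⊤) := by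
    by_contra hcon
    push Not at hcon
    exact h ⟨hnt, fun N hN => hcon N hN⟩
  rw [not_or] at hN
  obtain ⟨u, v, huv, hs, ht, h1, h2⟩ := exists_pair_of_stable (S := ℚ) hΔ' N hN.1 hN.2 hst
  have hgal := isGalois_ratAlgClosure
  refine ⟨u, v, huv, ?_, ?_, ?_, ?_⟩
  · obtain ⟨s, hs'⟩ := (InfiniteGalois.mem_range_algebraMap_iff_fixed (k := ℚ) (u + v)).mpr hs
    exact ⟨s, hs'.symm⟩
  · obtain ⟨t, ht'⟩ := (InfiniteGalois.mem_range_algebraMap_iff_fixed (k := ℚ) (u * v)).mpr ht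
    exact ⟨t, ht'.symm⟩
  · simpa [dupDen, dupNum, Affine.baseChange, WeierstrassCurve.baseChange] using h1
  · simpa [dupDen, dupNum, Affine.baseChange, WeierstrassCurve.baseChange] using h2

end Fermat.Agent.S51.H84
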