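import Mathlib

set_option autoImplicit false

namespace Fermat.Agent.S51.H52

/-- Identity (3) of the S51 plan: if `x` is a root of the 3-division polynomial then, with
`Y = 4x^3 + b₂x^2 + 2b₄x + b₆` and `t = Δ / Y^2`, one has `c₄^3 = Y^2 (t+27)(t+3)^3`,
in denominator-free form. -/
theorem identity_three {K : Type*} [Field K] [CharZero K] (b₂ b₄ b₆ b₈ x : K)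
    (hrel : 4 * b₈ = b₂ * b₆ - b₄ ^ 2)
    (h3 : 3 * x ^ 4 + b₂ * x ^ 3 + 3 * b₄ * x ^ 2 + 3 * b₆ * x + b₈ = 0) :
    (b₂ ^ 2 - 24 * b₄) ^ 3 * (4 * x ^ 3 + b₂ * x ^ 2 + 2 * b₄ * x + b₆) ^ 6 =
      ((-b₂ ^ 2 * b₈ - 8 * b₄ ^ 3 - 27 * b₆ ^ 2 + 9 * b₂ * b₄ * b₆) +
          27 * (4 * x ^ 3 + b₂ * x ^ 2 + 2 * b₄ * x + b₆) ^ 2) *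
        ((-b₂ ^ 2 * b₈ - 8 * b₄ ^ 3 - 27 * b₆ ^ 2 + 9 * b₂ * b₄ * b₆) +
          3 * (4 * x ^ 3 + b₂ * x ^ 2 + 2 * b₄ * x + b₆) ^ 2) ^ 3 := by
  have hb8 : b₈ = (b₂ * b₆ - b₄ ^ 2) / 4 := by
    field_simp
    linear_combination hrel
  subst hb8
  linear_combination
    (-(1 / 64) * b₂ ^ 11 * b₆ ^ 3 + (1 / 16) * b₂ ^ 11 * b₆ ^ 2 * x ^ 3 - (1 / 4) * b₂ ^ 11 * b₆ * x ^ 6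
      + b₂ ^ 11 * x ^ 9 + (3 / 64) * b₂ ^ 10 * b₄ ^ 2 * b₆ ^ 2 - (1 / 8) * b₂ ^ 10 * b₄ ^ 2 * b₆ * x ^ 3
      + (1 / 4) * b₂ ^ 10 * b₄ ^ 2 * x ^ 6 + (3 / 16) * b₂ ^ 10 * b₄ * b₆ ^ 2 * x ^ 2 - (3 / 2) * b₂ ^ 10 * b₄ * b₆ * x ^ 5
      + 9 * b₂ ^ 10 * b₄ * x ^ 8 + (3 / 16) * b₂ ^ 10 * b₆ ^ 3 * x + (15 / 16) * b₂ ^ 10 * b₆ ^ 2 * x ^ 4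
      - (3 / 2) * b₂ ^ 10 * b₆ * x ^ 7 + 21 * b₂ ^ 10 * x ^ 10 - (3 / 64) * b₂ ^ 9 * b₄ ^ 4 * b₆
      + (1 / 16) * b₂ ^ 9 * b₄ ^ 4 * x ^ 3 - (3 / 8) * b₂ ^ 9 * b₄ ^ 3 * b₆ * x ^ 2 + (3 / 2) * b₂ ^ 9 * b₄ ^ 3 * x ^ 5
      - (3 / 8) * b₂ ^ 9 * b₄ ^ 2 * b₆ ^ 2 * x - (45 / 8) * b₂ ^ 9 * b₄ ^ 2 * b₆ * x ^ 4 + (75 / 2) * b₂ ^ 9 * b₄ ^ 2 * x ^ 7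
      + (9 / 4) * b₂ ^ 9 * b₄ * b₆ ^ 3 - (9 / 2) * b₂ ^ 9 * b₄ * b₆ ^ 2 * x ^ 3 + (45 / 2) * b₂ ^ 9 * b₄ * b₆ * x ^ 6
      + 78 * b₂ ^ 9 * b₄ * x ^ 9 + (9 / 4) * b₂ ^ 9 * b₆ ^ 3 * x ^ 2 - (9 / 2) * b₂ ^ 9 * b₆ ^ 2 * x ^ 5
      + (69 / 4) * b₂ ^ 9 * b₆ * x ^ 8 + 177 * b₂ ^ 9 * x ^ 11 + (1 / 64) * b₂ ^ 8 * b₄ ^ 6 + (3 / 16) * b₂ ^ 8 * b₄ ^ 5 * x ^ 2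
      + (3 / 16) * b₂ ^ 8 * b₄ ^ 4 * b₆ * x + (75 / 16) * b₂ ^ 8 * b₄ ^ 4 * x ^ 4 - (13 / 2) * b₂ ^ 8 * b₄ ^ 3 * b₆ ^ 2
      + (7 / 2) * b₂ ^ 8 * b₄ ^ 3 * b₆ * x ^ 3 + (125 / 2) * b₂ ^ 8 * b₄ ^ 3 * x ^ 6 - (99 / 4) * b₂ ^ 8 * b₄ ^ 2 * b₆ ^ 2 * x ^ 2
      + (333 / 2) * b₂ ^ 8 * b₄ ^ 2 * b₆ * x ^ 5 - (825 / 4) * b₂ ^ 8 * b₄ ^ 2 * x ^ 8 - 18 * b₂ ^ 8 * b₄ * b₆ ^ 3 * x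
      - 135 * b₂ ^ 8 * b₄ * b₆ ^ 2 * x ^ 4 + 318 * b₂ ^ 8 * b₄ * b₆ * x ^ 7 - 573 * b₂ ^ 8 * b₄ * x ^ 10
      - (9 / 2) * b₂ ^ 8 * b₆ ^ 4 + 9 * b₂ ^ 8 * b₆ ^ 3 * x ^ 3 - 163 * b₂ ^ 8 * b₆ ^ 2 * x ^ 6
      + 379 * b₂ ^ 8 * b₆ * x ^ 9 + 749 * b₂ ^ 8 * x ^ 12 + (25 / 4) * b₂ ^ 7 * b₄ ^ 5 * b₆ + b₂ ^ 7 * b₄ ^ 5 * x ^ 3
      + (75 / 2) * b₂ ^ 7 * b₄ ^ 4 * b₆ * x ^ 2 - 30 * b₂ ^ 7 * b₄ ^ 4 * x ^ 5 + 33 * b₂ ^ 7 * b₄ ^ 3 * b₆ ^ 2 * x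
      + 660 * b₂ ^ 7 * b₄ ^ 3 * b₆ * x ^ 4 - 2112 * b₂ ^ 7 * b₄ ^ 3 * x ^ 7 - (225 / 2) * b₂ ^ 7 * b₄ ^ 2 * b₆ ^ 3
      - 54 * b₂ ^ 7 * b₄ ^ 2 * b₆ ^ 2 * x ^ 3 + 224 * b₂ ^ 7 * b₄ ^ 2 * b₆ * x ^ 6 - 7456 * b₂ ^ 7 * b₄ ^ 2 * x ^ 9
      - 216 * b₂ ^ 7 * b₄ * b₆ ^ 3 * x ^ 2 - 492 * b₂ ^ 7 * b₄ * b₆ ^ 2 * x ^ 5 + 1548 * b₂ ^ 7 * b₄ * b₆ * x ^ 8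
      - 10128 * b₂ ^ 7 * b₄ * x ^ 11 + 54 * b₂ ^ 7 * b₆ ^ 4 * x + 114 * b₂ ^ 7 * b₆ ^ 3 * x ^ 4
      - 888 * b₂ ^ 7 * b₆ ^ 2 * x ^ 7 + 4776 * b₂ ^ 7 * b₆ * x ^ 10 + 864 * b₂ ^ 7 * x ^ 13 - 2 * b₂ ^ 6 * b₄ ^ 7
      - 15 * b₂ ^ 6 * b₄ ^ 6 * x ^ 2 - 15 * b₂ ^ 6 * b₄ ^ 5 * b₆ * x - 384 * b₂ ^ 6 * b₄ ^ 5 * x ^ 4
      + 333 * b₂ ^ 6 * b₄ ^ 4 * b₆ ^ 2 + 630 * b₂ ^ 6 * b₄ ^ 4 * b₆ * x ^ 3 - 5308 * b₂ ^ 6 * b₄ ^ 4 * x ^ 6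
      + 1170 * b₂ ^ 6 * b₄ ^ 3 * b₆ ^ 2 * x ^ 2 - 4224 * b₂ ^ 6 * b₄ ^ 3 * b₆ * x ^ 5 - 16800 * b₂ ^ 6 * b₄ ^ 3 * x ^ 8
      + 432 * b₂ ^ 6 * b₄ ^ 2 * b₆ ^ 3 * x + 4908 * b₂ ^ 6 * b₄ ^ 2 * b₆ ^ 2 * x ^ 4 - 7296 * b₂ ^ 6 * b₄ ^ 2 * b₆ * x ^ 7
      - 32976 * b₂ ^ 6 * b₄ ^ 2 * x ^ 10 + 486 * b₂ ^ 6 * b₄ * b₆ ^ 4 - 408 * b₂ ^ 6 * b₄ * b₆ ^ 3 * x ^ 3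
      + 9432 * b₂ ^ 6 * b₄ * b₆ ^ 2 * x ^ 6 + 11376 * b₂ ^ 6 * b₄ * b₆ * x ^ 9 - 60672 * b₂ ^ 6 * b₄ * x ^ 12
      + 564 * b₂ ^ 6 * b₆ ^ 4 * x ^ 2 - 1200 * b₂ ^ 6 * b₆ ^ 3 * x ^ 5 + 1728 * b₂ ^ 6 * b₆ ^ 2 * x ^ 8
      + 35232 * b₂ ^ 6 * b₆ * x ^ 11 - 19776 * b₂ ^ 6 * x ^ 14 - 312 * b₂ ^ 5 * b₄ ^ 6 * b₆ - 480 * b₂ ^ 5 * b₄ ^ 6 * x ^ 3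
      - 1188 * b₂ ^ 5 * b₄ ^ 5 * b₆ * x ^ 2 - 4176 * b₂ ^ 5 * b₄ ^ 5 * x ^ 5 - 756 * b₂ ^ 5 * b₄ ^ 4 * b₆ ^ 2 * x
      - 24048 * b₂ ^ 5 * b₄ ^ 4 * b₆ * x ^ 4 + 14400 * b₂ ^ 5 * b₄ ^ 4 * x ^ 7 + 1998 * b₂ ^ 5 * b₄ ^ 3 * b₆ ^ 3
      + 8872 * b₂ ^ 5 * b₄ ^ 3 * b₆ ^ 2 * x ^ 3 - 35872 * b₂ ^ 5 * b₄ ^ 3 * b₆ * x ^ 6 + 91264 * b₂ ^ 5 * b₄ ^ 3 * x ^ 9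
      + 6204 * b₂ ^ 5 * b₄ ^ 2 * b₆ ^ 3 * x ^ 2 + 52560 * b₂ ^ 5 * b₄ ^ 2 * b₆ ^ 2 * x ^ 5 - 17280 * b₂ ^ 5 * b₄ ^ 2 * b₆ * x ^ 8
      + 26112 * b₂ ^ 5 * b₄ ^ 2 * x ^ 11 - 3408 * b₂ ^ 5 * b₄ * b₆ ^ 4 * x - 15576 * b₂ ^ 5 * b₄ * b₆ ^ 3 * x ^ 4
      + 88416 * b₂ ^ 5 * b₄ * b₆ ^ 2 * x ^ 7 - 13632 * b₂ ^ 5 * b₄ * b₆ * x ^ 10 - 349440 * b₂ ^ 5 * b₄ * x ^ 13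
      - 428 * b₂ ^ 5 * b₆ ^ 5 - 208 * b₂ ^ 5 * b₆ ^ 4 * x ^ 3 - 28592 * b₂ ^ 5 * b₆ ^ 3 * x ^ 6
      + 44032 * b₂ ^ 5 * b₆ ^ 2 * x ^ 9 + 104192 * b₂ ^ 5 * b₆ * x ^ 12 - 263168 * b₂ ^ 5 * x ^ 15
      + 96 * b₂ ^ 4 * b₄ ^ 8 + 288 * b₂ ^ 4 * b₄ ^ 7 * x ^ 2 + 288 * b₂ ^ 4 * b₄ ^ 6 * b₆ * x + 9144 * b₂ ^ 4 * b₄ ^ 6 * x ^ 4
      - 7344 * b₂ ^ 4 * b₄ ^ 5 * b₆ ^ 2 - 35408 * b₂ ^ 4 * b₄ ^ 5 * b₆ * x ^ 3 + 110944 * b₂ ^ 4 * b₄ ^ 5 * x ^ 6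
      - 23712 * b₂ ^ 4 * b₄ ^ 4 * b₆ ^ 2 * x ^ 2 - 30336 * b₂ ^ 4 * b₄ ^ 4 * b₆ * x ^ 5 + 516384 * b₂ ^ 4 * b₄ ^ 4 * x ^ 8
      + 2856 * b₂ ^ 4 * b₄ ^ 3 * b₆ ^ 3 * x + 960 * b₂ ^ 4 * b₄ ^ 3 * b₆ ^ 2 * x ^ 4 + 11136 * b₂ ^ 4 * b₄ ^ 3 * b₆ * x ^ 7
      + 896256 * b₂ ^ 4 * b₄ ^ 3 * x ^ 10 - 17060 * b₂ ^ 4 * b₄ ^ 2 * b₆ ^ 4 - 15632 * b₂ ^ 4 * b₄ ^ 2 * b₆ ^ 3 * x ^ 3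
      + 55680 * b₂ ^ 4 * b₄ ^ 2 * b₆ ^ 2 * x ^ 6 - 565760 * b₂ ^ 4 * b₄ ^ 2 * b₆ * x ^ 9 - 191360 * b₂ ^ 4 * b₄ ^ 2 * x ^ 12
      - 41232 * b₂ ^ 4 * b₄ * b₆ ^ 4 * x ^ 2 - 85152 * b₂ ^ 4 * b₄ * b₆ ^ 3 * x ^ 5 + 271872 * b₂ ^ 4 * b₄ * b₆ ^ 2 * x ^ 8
      - 1286400 * b₂ ^ 4 * b₄ * b₆ * x ^ 11 - 2523648 * b₂ ^ 4 * b₄ * x ^ 14 + 5136 * b₂ ^ 4 * b₆ ^ 5 * x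
      - 10320 * b₂ ^ 4 * b₆ ^ 4 * x ^ 4 - 131520 * b₂ ^ 4 * b₆ ^ 3 * x ^ 7 + 356352 * b₂ ^ 4 * b₆ ^ 2 * x ^ 10
      - 301056 * b₂ ^ 4 * b₆ * x ^ 13 - 1823232 * b₂ ^ 4 * x ^ 16 + 6912 * b₂ ^ 3 * b₄ ^ 7 * b₆
      + 19456 * b₂ ^ 3 * b₄ ^ 7 * x ^ 3 + 9984 * b₂ ^ 3 * b₄ ^ 6 * b₆ * x ^ 2 + 162816 * b₂ ^ 3 * b₄ ^ 6 * x ^ 5
      - 3840 * b₂ ^ 3 * b₄ ^ 5 * b₆ ^ 2 * x + 257472 * b₂ ^ 3 * b₄ ^ 5 * b₆ * x ^ 4 + 648960 * b₂ ^ 3 * b₄ ^ 5 * x ^ 7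
      + 4864 * b₂ ^ 3 * b₄ ^ 4 * b₆ ^ 3 - 108672 * b₂ ^ 3 * b₄ ^ 4 * b₆ ^ 2 * x ^ 3 + 501888 * b₂ ^ 3 * b₄ ^ 4 * b₆ * x ^ 6
      + 1154560 * b₂ ^ 3 * b₄ ^ 4 * x ^ 9 - 29760 * b₂ ^ 3 * b₄ ^ 3 * b₆ ^ 3 * x ^ 2 - 769536 * b₂ ^ 3 * b₄ ^ 3 * b₆ ^ 2 * x ^ 5
      - 1714176 * b₂ ^ 3 * b₄ ^ 3 * b₆ * x ^ 8 - 430080 * b₂ ^ 3 * b₄ ^ 3 * x ^ 11 + 35328 * b₂ ^ 3 * b₄ ^ 2 * b₆ ^ 4 * x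
      + 295680 * b₂ ^ 3 * b₄ ^ 2 * b₆ ^ 3 * x ^ 4 - 1170432 * b₂ ^ 3 * b₄ ^ 2 * b₆ ^ 2 * x ^ 7 - 7378944 * b₂ ^ 3 * b₄ ^ 2 * b₆ * x ^ 10
      - 6881280 * b₂ ^ 3 * b₄ ^ 2 * x ^ 13 + 30816 * b₂ ^ 3 * b₄ * b₆ ^ 5 - 28800 * b₂ ^ 3 * b₄ * b₆ ^ 4 * x ^ 3
      + 794880 * b₂ ^ 3 * b₄ * b₆ ^ 3 * x ^ 6 + 921600 * b₂ ^ 3 * b₄ * b₆ ^ 2 * x ^ 9 - 10165248 * b₂ ^ 3 * b₄ * b₆ * x ^ 12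
      - 13381632 * b₂ ^ 3 * b₄ * x ^ 15 + 42048 * b₂ ^ 3 * b₆ ^ 5 * x ^ 2 - 85248 * b₂ ^ 3 * b₆ ^ 4 * x ^ 5
      + 202752 * b₂ ^ 3 * b₆ ^ 3 * x ^ 8 + 2193408 * b₂ ^ 3 * b₆ ^ 2 * x ^ 11 - 3631104 * b₂ ^ 3 * b₆ * x ^ 14
      - 7593984 * b₂ ^ 3 * x ^ 17 - 2048 * b₂ ^ 2 * b₄ ^ 9 + 3072 * b₂ ^ 2 * b₄ ^ 8 * x ^ 2 + 3072 * b₂ ^ 2 * b₄ ^ 7 * b₆ * x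
      - 19968 * b₂ ^ 2 * b₄ ^ 7 * x ^ 4 + 53248 * b₂ ^ 2 * b₄ ^ 6 * b₆ ^ 2 + 527360 * b₂ ^ 2 * b₄ ^ 6 * b₆ * x ^ 3
      - 297728 * b₂ ^ 2 * b₄ ^ 6 * x ^ 6 + 198144 * b₂ ^ 2 * b₄ ^ 5 * b₆ ^ 2 * x ^ 2 + 1509120 * b₂ ^ 2 * b₄ ^ 5 * b₆ * x ^ 5
      - 2193408 * b₂ ^ 2 * b₄ ^ 5 * x ^ 8 - 119808 * b₂ ^ 2 * b₄ ^ 4 * b₆ ^ 3 * x - 1416960 * b₂ ^ 2 * b₄ ^ 4 * b₆ ^ 2 * x ^ 4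
      - 2391552 * b₂ ^ 2 * b₄ ^ 4 * b₆ * x ^ 7 - 8248320 * b₂ ^ 2 * b₄ ^ 4 * x ^ 10 + 182016 * b₂ ^ 2 * b₄ ^ 3 * b₆ ^ 4
      + 721152 * b₂ ^ 2 * b₄ ^ 3 * b₆ ^ 3 * x ^ 3 - 5211648 * b₂ ^ 2 * b₄ ^ 3 * b₆ ^ 2 * x ^ 6 - 16773120 * b₂ ^ 2 * b₄ ^ 3 * b₆ * x ^ 9
      - 19980288 * b₂ ^ 2 * b₄ ^ 3 * x ^ 12 + 736128 * b₂ ^ 2 * b₄ ^ 2 * b₆ ^ 4 * x ^ 2 + 4769280 * b₂ ^ 2 * b₄ ^ 2 * b₆ ^ 3 * x ^ 5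
      - 2985984 * b₂ ^ 2 * b₄ ^ 2 * b₆ ^ 2 * x ^ 8 - 34504704 * b₂ ^ 2 * b₄ ^ 2 * b₆ * x ^ 11 - 36163584 * b₂ ^ 2 * b₄ ^ 2 * x ^ 14
      - 162432 * b₂ ^ 2 * b₄ * b₆ ^ 5 * x + 69120 * b₂ ^ 2 * b₄ * b₆ ^ 4 * x ^ 4 + 7934976 * b₂ ^ 2 * b₄ * b₆ ^ 3 * x ^ 7
      + 7022592 * b₂ ^ 2 * b₄ * b₆ ^ 2 * x ^ 10 - 36384768 * b₂ ^ 2 * b₄ * b₆ * x ^ 13 - 41582592 * b₂ ^ 2 * b₄ * x ^ 16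
      - 13824 * b₂ ^ 2 * b₆ ^ 6 - 34560 * b₂ ^ 2 * b₆ ^ 5 * x ^ 3 - 981504 * b₂ ^ 2 * b₆ ^ 4 * x ^ 6
      + 3483648 * b₂ ^ 2 * b₆ ^ 3 * x ^ 9 + 8736768 * b₂ ^ 2 * b₆ ^ 2 * x ^ 12 - 13049856 * b₂ ^ 2 * b₆ * x ^ 15
      - 19021824 * b₂ ^ 2 * x ^ 18 - 57344 * b₂ * b₄ ^ 8 * b₆ - 229376 * b₂ * b₄ ^ 8 * x ^ 3 + 61440 * b₂ * b₄ ^ 7 * b₆ * x ^ 2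
      - 1523712 * b₂ * b₄ ^ 7 * x ^ 5 + 208896 * b₂ * b₄ ^ 6 * b₆ ^ 2 * x + 657408 * b₂ * b₄ ^ 6 * b₆ * x ^ 4
      - 6021120 * b₂ * b₄ ^ 6 * x ^ 7 - 350208 * b₂ * b₄ ^ 5 * b₆ ^ 3 - 1216512 * b₂ * b₄ ^ 5 * b₆ ^ 2 * x ^ 3
      - 2792448 * b₂ * b₄ ^ 5 * b₆ * x ^ 6 - 18100224 * b₂ * b₄ ^ 5 * x ^ 9 - 663552 * b₂ * b₄ ^ 4 * b₆ ^ 3 * x ^ 2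
      - 8045568 * b₂ * b₄ ^ 4 * b₆ ^ 2 * x ^ 5 - 19325952 * b₂ * b₄ ^ 4 * b₆ * x ^ 8 - 38817792 * b₂ * b₄ ^ 4 * x ^ 11
      + 608256 * b₂ * b₄ ^ 3 * b₆ ^ 4 * x + 4216320 * b₂ * b₄ ^ 3 * b₆ ^ 3 * x ^ 4 - 9787392 * b₂ * b₄ ^ 3 * b₆ ^ 2 * x ^ 7
      - 47333376 * b₂ * b₄ ^ 3 * b₆ * x ^ 10 - 61931520 * b₂ * b₄ ^ 3 * x ^ 13 - 552960 * b₂ * b₄ ^ 2 * b₆ ^ 5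
      + 829440 * b₂ * b₄ ^ 2 * b₆ ^ 4 * x ^ 3 + 17390592 * b₂ * b₄ ^ 2 * b₆ ^ 3 * x ^ 6 + 8073216 * b₂ * b₄ ^ 2 * b₆ ^ 2 * x ^ 9
      - 71000064 * b₂ * b₄ ^ 2 * b₆ * x ^ 12 - 78741504 * b₂ * b₄ ^ 2 * x ^ 15 - 1617408 * b₂ * b₄ * b₆ ^ 5 * x ^ 2
      - 2820096 * b₂ * b₄ * b₆ ^ 4 * x ^ 5 + 24053760 * b₂ * b₄ * b₆ ^ 3 * x ^ 8 + 25878528 * b₂ * b₄ * b₆ ^ 2 * x ^ 11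
      - 65028096 * b₂ * b₄ * b₆ * x ^ 14 - 69009408 * b₂ * b₄ * x ^ 17 + 165888 * b₂ * b₆ ^ 6 * x
      - 829440 * b₂ * b₆ ^ 5 * x ^ 4 - 4644864 * b₂ * b₆ ^ 4 * x ^ 7 + 10948608 * b₂ * b₆ ^ 3 * x ^ 10
      + 18579456 * b₂ * b₆ ^ 2 * x ^ 13 - 22560768 * b₂ * b₆ * x ^ 16 - 26542080 * b₂ * x ^ 19 + 16384 * b₄ ^ 10
      - 98304 * b₄ ^ 9 * x ^ 2 - 98304 * b₄ ^ 8 * b₆ * x - 1056768 * b₄ ^ 8 * x ^ 4 + 147456 * b₄ ^ 7 * b₆ ^ 2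
      - 737280 * b₄ ^ 7 * b₆ * x ^ 3 - 4202496 * b₄ ^ 7 * x ^ 6 - 737280 * b₄ ^ 6 * b₆ ^ 2 * x ^ 2
      - 3465216 * b₄ ^ 6 * b₆ * x ^ 5 - 11934720 * b₄ ^ 6 * x ^ 8 - 663552 * b₄ ^ 5 * b₆ ^ 3 * x
      - 6303744 * b₄ ^ 5 * b₆ ^ 2 * x ^ 4 - 11612160 * b₄ ^ 5 * b₆ * x ^ 7 - 26873856 * b₄ ^ 5 * x ^ 10
      + 442368 * b₄ ^ 4 * b₆ ^ 4 - 1769472 * b₄ ^ 4 * b₆ ^ 3 * x ^ 3 - 11943936 * b₄ ^ 4 * b₆ ^ 2 * x ^ 6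
      - 25767936 * b₄ ^ 4 * b₆ * x ^ 9 - 45895680 * b₄ ^ 4 * x ^ 12 + 331776 * b₄ ^ 3 * b₆ ^ 4 * x ^ 2
      + 4147200 * b₄ ^ 3 * b₆ ^ 3 * x ^ 5 - 42467328 * b₄ ^ 3 * b₆ * x ^ 11 - 61046784 * b₄ ^ 3 * x ^ 14
      - 663552 * b₄ ^ 2 * b₆ ^ 5 * x - 3732480 * b₄ ^ 2 * b₆ ^ 4 * x ^ 4 + 19574784 * b₄ ^ 2 * b₆ ^ 3 * x ^ 7
      + 25214976 * b₄ ^ 2 * b₆ ^ 2 * x ^ 10 - 55738368 * b₄ ^ 2 * b₆ * x ^ 13 - 65028096 * b₄ ^ 2 * x ^ 16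
      + 497664 * b₄ * b₆ ^ 6 - 2488320 * b₄ * b₆ ^ 5 * x ^ 3 - 8957952 * b₄ * b₆ ^ 4 * x ^ 6 + 25878528 * b₄ * b₆ ^ 3 * x ^ 9
      + 31850496 * b₄ * b₆ ^ 2 * x ^ 12 - 47775744 * b₄ * b₆ * x ^ 15 - 47775744 * b₄ * x ^ 18 + 995328 * b₆ ^ 6 * x ^ 2
      - 1990656 * b₆ ^ 5 * x ^ 5 - 6967296 * b₆ ^ 4 * x ^ 8 + 11943936 * b₆ ^ 3 * x ^ 11 + 15925248 * b₆ ^ 2 * x ^ 14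
      - 15925248 * b₆ * x ^ 17 - 15925248 * x ^ 20) * h3

/-- Bezout certificate: `A * ψ₃ + B * Y = Δ ^ 2`; hence `Y ≠ 0` at a root of `ψ₃` when `Δ ≠ 0`. -/
theorem sq_disc_eq_of_psi_three {K : Type*} [Field K] [CharZero K] (b₂ b₄ b₆ b₈ x : K)
    (hrel : 4 * b₈ = b₂ * b₆ - b₄ ^ 2)
    (h3 : 3 * x ^ 4 + b₂ * x ^ 3 + 3 * b₄ * x ^ 2 + 3 * b₆ * x + b₈ = 0)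
    (hY : 4 * x ^ 3 + b₂ * x ^ 2 + 2 * b₄ * x + b₆ = 0) :
    (-b₂ ^ 2 * b₈ - 8 * b₄ ^ 3 - 27 * b₆ ^ 2 + 9 * b₂ * b₄ * b₆) ^ 2 = 0 := by
  have hb8 : b₈ = (b₂ * b₆ - b₄ ^ 2) / 4 := by
    field_simp
    linear_combination hrel
  subst hb8
  linear_combination
    ((1 / 4) * b₂ ^ 5 * b₆ - (1 / 4) * b₂ ^ 4 * b₄ ^ 2 - 2 * b₂ ^ 4 * b₆ * x + 2 * b₂ ^ 3 * b₄ ^ 2 * x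
      - 17 * b₂ ^ 3 * b₄ * b₆ - 12 * b₂ ^ 3 * b₆ * x ^ 2 + 16 * b₂ ^ 2 * b₄ ^ 3 + 12 * b₂ ^ 2 * b₄ ^ 2 * x ^ 2
      + 72 * b₂ ^ 2 * b₄ * b₆ * x + 27 * b₂ ^ 2 * b₆ ^ 2 - 64 * b₂ * b₄ ^ 3 * x + 288 * b₂ * b₄ ^ 2 * b₆
      + 432 * b₂ * b₄ * b₆ * x ^ 2 - 216 * b₂ * b₆ ^ 2 * x - 256 * b₄ ^ 4 - 384 * b₄ ^ 3 * x ^ 2
      - 864 * b₄ * b₆ ^ 2 - 1296 * b₆ ^ 2 * x ^ 2) * h3 +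
    (-(1 / 4) * b₂ ^ 5 * b₆ * x + (1 / 4) * b₂ ^ 4 * b₄ ^ 2 * x - (1 / 4) * b₂ ^ 4 * b₄ * b₆ + (9 / 4) * b₂ ^ 4 * b₆ * x ^ 2
      + (1 / 4) * b₂ ^ 3 * b₄ ^ 3 - (9 / 4) * b₂ ^ 3 * b₄ ^ 2 * x ^ 2 + (39 / 2) * b₂ ^ 3 * b₄ * b₆ * x
      + (27 / 4) * b₂ ^ 3 * b₆ ^ 2 + 9 * b₂ ^ 3 * b₆ * x ^ 3 - (37 / 2) * b₂ ^ 2 * b₄ ^ 3 * x + (9 / 4) * b₂ ^ 2 * b₄ ^ 2 * b₆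
      - 9 * b₂ ^ 2 * b₄ ^ 2 * x ^ 3 - 81 * b₂ ^ 2 * b₄ * b₆ * x ^ 2 - 27 * b₂ ^ 2 * b₆ ^ 2 * x - 8 * b₂ * b₄ ^ 4
      + 72 * b₂ * b₄ ^ 3 * x ^ 2 - 378 * b₂ * b₄ ^ 2 * b₆ * x - 270 * b₂ * b₄ * b₆ ^ 2 - 324 * b₂ * b₄ * b₆ * x ^ 3
      + 243 * b₂ * b₆ ^ 2 * x ^ 2 + 336 * b₄ ^ 4 * x + 216 * b₄ ^ 3 * b₆ + 288 * b₄ ^ 3 * x ^ 3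
      + 1134 * b₄ * b₆ ^ 2 * x + 729 * b₆ ^ 3 + 972 * b₆ ^ 2 * x ^ 3) * hY

theorem Y_ne_zero_of_psi_three {K : Type*} [Field K] [CharZero K] (b₂ b₄ b₆ b₈ x : K)
    (hrel : 4 * b₈ = b₂ * b₆ - b₄ ^ 2)
    (h3 : 3 * x ^ 4 + b₂ * x ^ 3 + 3 * b₄ * x ^ 2 + 3 * b₆ * x + b₈ = 0)
    (hΔ : -b₂ ^ 2 * b₈ - 8 * b₄ ^ 3 - 27 * b₆ ^ 2 + 9 * b₂ * b₄ * b₆ ≠ 0) :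
    4 * x ^ 3 + b₂ * x ^ 2 + 2 * b₄ * x + b₆ ≠ 0 := by
  intro hY
  exact hΔ ((pow_eq_zero_iff (two_ne_zero)).mp (sq_disc_eq_of_psi_three b₂ b₄ b₆ b₈ x hrel h3 hY))

end Fermat.Agent.S51.H52
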