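import Mathlib

set_option autoImplicit false

namespace Fermat.Agent.S51.H74

section Core

variable {F : Type*} [Field F]

/-- Two-parameter core of the order-five moduli identity, with the point of order five at `x = 0`
and its double at `x = w`. -/
theorem ident5_core (B2 B4 B6 B8 w : F) (hw : w ≠ 0)
    (hrel : 4 * B8 = B2 * B6 - B4 ^ 2)
    (h1 : w * B6 = -B8)
    (h2 : w ^ 4 - B4 * w ^ 2 - 2 * B6 * w - B8 = 0) :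
    (B2 ^ 2 - 24 * B4) * (w ^ 2) ^ 5 =
      (-B2 ^ 2 * B8 - 8 * B4 ^ 3 - 27 * B6 ^ 2 + 9 * B2 * B4 * B6) ^ 2
      + 10 * (-B2 ^ 2 * B8 - 8 * B4 ^ 3 - 27 * B6 ^ 2 + 9 * B2 * B4 * B6) * (w ^ 2) ^ 3
      + 5 * (w ^ 2) ^ 6 := by
  have h6 : B6 = w ^ 3 - B4 * w := by
    have h : w * (w ^ 3 - B4 * w - B6) = 0 := by linear_combination h2 + h1
    rcases mul_eq_zero.mp h with h | h
    · exact absurd h hw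
    · linear_combination -h
  have hB6 : B6 ≠ 0 := by
    intro h0
    have h8 : B8 = 0 := by rw [h0] at h1; linear_combination h1
    have h4 : B4 = 0 := by
      have : B4 ^ 2 = 0 := by rw [h0, h8] at hrel; linear_combination hrel
      exact pow_eq_zero_iff (two_ne_zero) |>.mp this
    rw [h0, h4] at h6
    have : w ^ 3 = 0 := by linear_combination -h6
    exact hw (pow_eq_zero_iff (three_ne_zero) |>.mp this)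
  obtain ⟨c, hc⟩ : ∃ c : F, c = w ^ 2 - B4 := ⟨_, rfl⟩
  have hB4 : B4 = w ^ 2 - c := by linear_combination hc
  have h6' : B6 = w * c := by rw [h6, hB4]; ring
  have hc0 : c ≠ 0 := by
    intro h0
    apply hB6
    rw [h6', h0, mul_zero]
  have hB8 : B8 = -(w * (w * c)) := by rw [← h6']; linear_combination h1
  have hB2 : B2 = ((w ^ 2 - c) ^ 2 - 4 * (w * (w * c))) / (w * c) := by
    rw [eq_div_iff (mul_ne_zero hw hc0), ← hB4, ← h6']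
    linear_combination -hrel + 4 * h1
  rw [hB2, hB8, h6', hB4]
  field_simp
  ring

/-- Core of the order-three moduli identity, with the point of order three at `x = 0`
(so `B8 = 0`, and the `b`-relation reads `B2 * B6 = B4 ^ 2`). -/
theorem ident3_core (B2 B4 B6 : F) (hrel : B2 * B6 = B4 ^ 2) :
    (B2 ^ 2 - 24 * B4) ^ 3 * B6 ^ 6 =
      ((-8 * B4 ^ 3 - 27 * B6 ^ 2 + 9 * B2 * B4 * B6) + 27 * B6 ^ 2)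
        * ((-8 * B4 ^ 3 - 27 * B6 ^ 2 + 9 * B2 * B4 * B6) + 3 * B6 ^ 2) ^ 3 := by
  have e1 : (B2 ^ 2 - 24 * B4) * B6 ^ 2 = B4 * (B4 ^ 3 - 24 * B6 ^ 2) := by
    linear_combination (B2 * B6 + B4 ^ 2) * hrel
  have e2 : -8 * B4 ^ 3 - 27 * B6 ^ 2 + 9 * B2 * B4 * B6 = B4 ^ 3 - 27 * B6 ^ 2 := by
    linear_combination 9 * B4 * hrel
  calc (B2 ^ 2 - 24 * B4) ^ 3 * B6 ^ 6 = ((B2 ^ 2 - 24 * B4) * B6 ^ 2) ^ 3 := by ring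
    _ = (B4 * (B4 ^ 3 - 24 * B6 ^ 2)) ^ 3 := by rw [e1]
    _ = _ := by rw [e2]; ring

/-- Order-three moduli identity: if `x` is a root of the 3-division polynomial and
`Y = 4x^3 + b2 x^2 + 2 b4 x + b6`, then `c4^3 Y^6 = (Δ + 27 Y^2) (Δ + 3 Y^2)^3`. -/
theorem ident3 (b2 b4 b6 b8 x : F)
    (hb : 4 * b8 = b2 * b6 - b4 ^ 2)
    (h3 : 3 * x ^ 4 + b2 * x ^ 3 + 3 * b4 * x ^ 2 + 3 * b6 * x + b8 = 0) :
    (b2 ^ 2 - 24 * b4) ^ 3 * (4 * x ^ 3 + b2 * x ^ 2 + 2 * b4 * x + b6) ^ 6 =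
      ((-b2 ^ 2 * b8 - 8 * b4 ^ 3 - 27 * b6 ^ 2 + 9 * b2 * b4 * b6)
          + 27 * (4 * x ^ 3 + b2 * x ^ 2 + 2 * b4 * x + b6) ^ 2)
        * ((-b2 ^ 2 * b8 - 8 * b4 ^ 3 - 27 * b6 ^ 2 + 9 * b2 * b4 * b6)
          + 3 * (4 * x ^ 3 + b2 * x ^ 2 + 2 * b4 * x + b6) ^ 2) ^ 3 := by
  have hrel : (b2 + 12 * x) * (4 * x ^ 3 + b2 * x ^ 2 + 2 * b4 * x + b6)
      = (b4 + x * b2 + 6 * x ^ 2) ^ 2 := by
    linear_combination 4 * h3 - hb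
  have key := ident3_core (b2 + 12 * x) (b4 + x * b2 + 6 * x ^ 2)
    (4 * x ^ 3 + b2 * x ^ 2 + 2 * b4 * x + b6) hrel
  have hc4 : (b2 + 12 * x) ^ 2 - 24 * (b4 + x * b2 + 6 * x ^ 2) = b2 ^ 2 - 24 * b4 := by ring
  have hΔ : -8 * (b4 + x * b2 + 6 * x ^ 2) ^ 3
        - 27 * (4 * x ^ 3 + b2 * x ^ 2 + 2 * b4 * x + b6) ^ 2
        + 9 * (b2 + 12 * x) * (b4 + x * b2 + 6 * x ^ 2)
          * (4 * x ^ 3 + b2 * x ^ 2 + 2 * b4 * x + b6)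
      = -b2 ^ 2 * b8 - 8 * b4 ^ 3 - 27 * b6 ^ 2 + 9 * b2 * b4 * b6 := by
    linear_combination (b2 + 12 * x) ^ 2 * h3 + (-6 * b2 * x - 36 * x ^ 2) * hb
  rw [hc4, hΔ] at key
  exact key

/-- In the situation of `ident3`, a nonzero discriminant forces `Y ≠ 0`. -/
theorem ident3_Y_ne_zero (b2 b4 b6 b8 x : F)
    (hb : 4 * b8 = b2 * b6 - b4 ^ 2)
    (h3 : 3 * x ^ 4 + b2 * x ^ 3 + 3 * b4 * x ^ 2 + 3 * b6 * x + b8 = 0)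
    (hΔ : -b2 ^ 2 * b8 - 8 * b4 ^ 3 - 27 * b6 ^ 2 + 9 * b2 * b4 * b6 ≠ 0) :
    4 * x ^ 3 + b2 * x ^ 2 + 2 * b4 * x + b6 ≠ 0 := by
  intro hY
  apply hΔ
  have hrel : (b2 + 12 * x) * (4 * x ^ 3 + b2 * x ^ 2 + 2 * b4 * x + b6)
      = (b4 + x * b2 + 6 * x ^ 2) ^ 2 := by
    linear_combination 4 * h3 - hb
  have h4 : b4 + x * b2 + 6 * x ^ 2 = 0 := by
    rw [hY, mul_zero] at hrel
    exact pow_eq_zero_iff (two_ne_zero) |>.mp hrel.symm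
  have hΔ' : -8 * (b4 + x * b2 + 6 * x ^ 2) ^ 3
        - 27 * (4 * x ^ 3 + b2 * x ^ 2 + 2 * b4 * x + b6) ^ 2
        + 9 * (b2 + 12 * x) * (b4 + x * b2 + 6 * x ^ 2)
          * (4 * x ^ 3 + b2 * x ^ 2 + 2 * b4 * x + b6)
      = -b2 ^ 2 * b8 - 8 * b4 ^ 3 - 27 * b6 ^ 2 + 9 * b2 * b4 * b6 := by
    linear_combination (b2 + 12 * x) ^ 2 * h3 + (-6 * b2 * x - 36 * x ^ 2) * hb
  rw [← hΔ', hY, h4]
  ring

/-- Order-five moduli identity: if `u = x(P)`, `v = x(2P)` with `x(2P) = v`, `x(4P) = u`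
(duplication formulas in cleared-denominator form), `u ≠ v`, and `D = (u - v)^2`, then
`c4 D^5 = Δ^2 + 10 Δ D^3 + 5 D^6`. -/
theorem ident5 (b2 b4 b6 b8 u v : F)
    (hb : 4 * b8 = b2 * b6 - b4 ^ 2)
    (huv : u ≠ v)
    (h5a : v * (4 * u ^ 3 + b2 * u ^ 2 + 2 * b4 * u + b6)
      = u ^ 4 - b4 * u ^ 2 - 2 * b6 * u - b8)
    (h5b : u * (4 * v ^ 3 + b2 * v ^ 2 + 2 * b4 * v + b6)
      = v ^ 4 - b4 * v ^ 2 - 2 * b6 * v - b8) :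
    (b2 ^ 2 - 24 * b4) * ((u - v) ^ 2) ^ 5 =
      (-b2 ^ 2 * b8 - 8 * b4 ^ 3 - 27 * b6 ^ 2 + 9 * b2 * b4 * b6) ^ 2
      + 10 * (-b2 ^ 2 * b8 - 8 * b4 ^ 3 - 27 * b6 ^ 2 + 9 * b2 * b4 * b6) * ((u - v) ^ 2) ^ 3
      + 5 * ((u - v) ^ 2) ^ 6 := by
  have hw : v - u ≠ 0 := sub_ne_zero.mpr (Ne.symm huv)
  have hrel : 4 * (b8 + 3 * u * b6 + 3 * u ^ 2 * b4 + u ^ 3 * b2 + 3 * u ^ 4)
      = (b2 + 12 * u) * (b6 + 2 * u * b4 + u ^ 2 * b2 + 4 * u ^ 3)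
        - (b4 + u * b2 + 6 * u ^ 2) ^ 2 := by
    linear_combination hb
  have h1 : (v - u) * (b6 + 2 * u * b4 + u ^ 2 * b2 + 4 * u ^ 3)
      = -(b8 + 3 * u * b6 + 3 * u ^ 2 * b4 + u ^ 3 * b2 + 3 * u ^ 4) := by
    linear_combination h5a
  have h2 : (v - u) ^ 4 - (b4 + u * b2 + 6 * u ^ 2) * (v - u) ^ 2
      - 2 * (b6 + 2 * u * b4 + u ^ 2 * b2 + 4 * u ^ 3) * (v - u)
      - (b8 + 3 * u * b6 + 3 * u ^ 2 * b4 + u ^ 3 * b2 + 3 * u ^ 4) = 0 := by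
    linear_combination -h5b
  have key := ident5_core (b2 + 12 * u) (b4 + u * b2 + 6 * u ^ 2)
    (b6 + 2 * u * b4 + u ^ 2 * b2 + 4 * u ^ 3)
    (b8 + 3 * u * b6 + 3 * u ^ 2 * b4 + u ^ 3 * b2 + 3 * u ^ 4) (v - u) hw hrel h1 h2
  have hc4 : (b2 + 12 * u) ^ 2 - 24 * (b4 + u * b2 + 6 * u ^ 2) = b2 ^ 2 - 24 * b4 := by ring
  have hΔ : -(b2 + 12 * u) ^ 2 * (b8 + 3 * u * b6 + 3 * u ^ 2 * b4 + u ^ 3 * b2 + 3 * u ^ 4)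
        - 8 * (b4 + u * b2 + 6 * u ^ 2) ^ 3
        - 27 * (b6 + 2 * u * b4 + u ^ 2 * b2 + 4 * u ^ 3) ^ 2
        + 9 * (b2 + 12 * u) * (b4 + u * b2 + 6 * u ^ 2)
          * (b6 + 2 * u * b4 + u ^ 2 * b2 + 4 * u ^ 3)
      = -b2 ^ 2 * b8 - 8 * b4 ^ 3 - 27 * b6 ^ 2 + 9 * b2 * b4 * b6 := by
    linear_combination (-6 * b2 * u - 36 * u ^ 2) * hb
  have hD : (v - u) ^ 2 = (u - v) ^ 2 := by ring
  rw [hc4, hΔ, hD] at key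
  exact key

end Core

section Curve

/-- From a rational root of the 3-division polynomial one gets a nonzero rational `t` with
`c₄³ t = Δ (t + 27) (t + 3)³`, i.e. `j = (t + 27) (t + 3)³ / t`. -/
theorem exists_t (W : WeierstrassCurve ℤ) (hΔ : W.Δ ≠ 0) (x₃ : ℚ)
    (h3 : 3 * x₃ ^ 4 + (W.b₂ : ℚ) * x₃ ^ 3 + 3 * (W.b₄ : ℚ) * x₃ ^ 2 + 3 * (W.b₆ : ℚ) * x₃
      + (W.b₈ : ℚ) = 0) :
    ∃ t : ℚ, t ≠ 0 ∧ (W.c₄ : ℚ) ^ 3 * t = (W.Δ : ℚ) * ((t + 27) * (t + 3) ^ 3) := by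
  have hb : 4 * (W.b₈ : ℚ) = (W.b₂ : ℚ) * (W.b₆ : ℚ) - (W.b₄ : ℚ) ^ 2 := by
    exact_mod_cast W.b_relation
  have hΔq : (W.Δ : ℚ) = -(W.b₂ : ℚ) ^ 2 * (W.b₈ : ℚ) - 8 * (W.b₄ : ℚ) ^ 3
      - 27 * (W.b₆ : ℚ) ^ 2 + 9 * (W.b₂ : ℚ) * (W.b₄ : ℚ) * (W.b₆ : ℚ) := by
    rw [WeierstrassCurve.Δ]; push_cast; ring
  have hc4q : (W.c₄ : ℚ) = (W.b₂ : ℚ) ^ 2 - 24 * (W.b₄ : ℚ) := by
    rw [WeierstrassCurve.c₄]; push_cast; ring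
  have hΔ0 : (W.Δ : ℚ) ≠ 0 := Int.cast_ne_zero.mpr hΔ
  set Y : ℚ := 4 * x₃ ^ 3 + (W.b₂ : ℚ) * x₃ ^ 2 + 2 * (W.b₄ : ℚ) * x₃ + (W.b₆ : ℚ) with hYdef
  have hY : Y ≠ 0 := ident3_Y_ne_zero _ _ _ _ x₃ hb h3 (hΔq ▸ hΔ0)
  have key := ident3 _ _ _ _ x₃ hb h3
  rw [← hΔq, ← hc4q, ← hYdef] at key
  refine ⟨(W.Δ : ℚ) / Y ^ 2, div_ne_zero hΔ0 (pow_ne_zero _ hY), ?_⟩
  have h27 : (W.Δ : ℚ) / Y ^ 2 + 27 = ((W.Δ : ℚ) + 27 * Y ^ 2) / Y ^ 2 := by field_simp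
  have h03 : (W.Δ : ℚ) / Y ^ 2 + 3 = ((W.Δ : ℚ) + 3 * Y ^ 2) / Y ^ 2 := by field_simp
  rw [h27, h03]
  generalize (W.Δ : ℚ) + 27 * Y ^ 2 = A at key ⊢
  generalize (W.Δ : ℚ) + 3 * Y ^ 2 = B at key ⊢
  generalize (W.Δ : ℚ) = d at hΔ0 key ⊢
  generalize (W.c₄ : ℚ) = c at key ⊢
  clear_value Y
  field_simp
  linear_combination key

/-- From the order-five data one gets a nonzero rational `s` with
`c₄³ s = Δ (s² + 10 s + 5)³`, i.e. `j = (s² + 10 s + 5)³ / s`. -/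
theorem exists_s (W : WeierstrassCurve ℤ) (hΔ : W.Δ ≠ 0)
    {K : Type*} [Field K] [Algebra ℚ K] (u v : K) (huv : u ≠ v)
    (hs : ∃ s : ℚ, u + v = algebraMap ℚ K s)
    (ht : ∃ t : ℚ, u * v = algebraMap ℚ K t)
    (h5a : v * (4 * u ^ 3 + (W.b₂ : K) * u ^ 2 + 2 * (W.b₄ : K) * u + (W.b₆ : K))
        = u ^ 4 - (W.b₄ : K) * u ^ 2 - 2 * (W.b₆ : K) * u - (W.b₈ : K))
    (h5b : u * (4 * v ^ 3 + (W.b₂ : K) * v ^ 2 + 2 * (W.b₄ : K) * v + (W.b₆ : K))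
        = v ^ 4 - (W.b₄ : K) * v ^ 2 - 2 * (W.b₆ : K) * v - (W.b₈ : K)) :
    ∃ s : ℚ, s ≠ 0 ∧ (W.c₄ : ℚ) ^ 3 * s = (W.Δ : ℚ) * (s ^ 2 + 10 * s + 5) ^ 3 := by
  have hinj : Function.Injective (algebraMap ℚ K) := (algebraMap ℚ K).injective
  have hbK : 4 * (W.b₈ : K) = (W.b₂ : K) * (W.b₆ : K) - (W.b₄ : K) ^ 2 := by
    exact_mod_cast congrArg (Int.cast : ℤ → K) W.b_relation
  have hΔq : (W.Δ : ℚ) = -(W.b₂ : ℚ) ^ 2 * (W.b₈ : ℚ) - 8 * (W.b₄ : ℚ) ^ 3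
      - 27 * (W.b₆ : ℚ) ^ 2 + 9 * (W.b₂ : ℚ) * (W.b₄ : ℚ) * (W.b₆ : ℚ) := by
    rw [WeierstrassCurve.Δ]; push_cast; ring
  have hc4q : (W.c₄ : ℚ) = (W.b₂ : ℚ) ^ 2 - 24 * (W.b₄ : ℚ) := by
    rw [WeierstrassCurve.c₄]; push_cast; ring
  have hΔ0 : (W.Δ : ℚ) ≠ 0 := Int.cast_ne_zero.mpr hΔ
  obtain ⟨s0, hs0⟩ := hs
  obtain ⟨t0, ht0⟩ := ht
  set D : ℚ := s0 ^ 2 - 4 * t0 with hDdef
  have hDK : algebraMap ℚ K D = (u - v) ^ 2 := by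
    rw [hDdef, map_sub, map_pow, map_mul, ← hs0, ← ht0, map_ofNat]
    ring
  have hD0 : D ≠ 0 := by
    intro h0
    rw [h0, map_zero] at hDK
    exact huv (sub_eq_zero.mp (pow_eq_zero_iff (two_ne_zero) |>.mp hDK.symm))
  have key := ident5 _ _ _ _ u v hbK huv h5a h5b
  have hΔK : algebraMap ℚ K (W.Δ : ℚ) = -(W.b₂ : K) ^ 2 * (W.b₈ : K) - 8 * (W.b₄ : K) ^ 3
      - 27 * (W.b₆ : K) ^ 2 + 9 * (W.b₂ : K) * (W.b₄ : K) * (W.b₆ : K) := by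
    rw [map_intCast, WeierstrassCurve.Δ]; push_cast; ring
  have hc4K : algebraMap ℚ K (W.c₄ : ℚ) = (W.b₂ : K) ^ 2 - 24 * (W.b₄ : K) := by
    rw [map_intCast, WeierstrassCurve.c₄]; push_cast; ring
  have keyq : (W.c₄ : ℚ) * D ^ 5 = (W.Δ : ℚ) ^ 2 + 10 * (W.Δ : ℚ) * D ^ 3 + 5 * D ^ 6 := by
    apply hinj
    rw [map_mul, map_pow, map_add, map_add, map_pow, map_mul, map_mul, map_pow, map_mul,
      map_pow, map_ofNat, map_ofNat, hΔK, hc4K, hDK]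
    exact key
  refine ⟨(W.Δ : ℚ) / D ^ 3, div_ne_zero hΔ0 (pow_ne_zero _ hD0), ?_⟩
  have hc4 : (W.c₄ : ℚ) = D * (((W.Δ : ℚ) / D ^ 3) ^ 2 + 10 * ((W.Δ : ℚ) / D ^ 3) + 5) := by
    field_simp
    linear_combination keyq
  rw [hc4]
  field_simp

/-- Combined form: the hypotheses of the moduli step give a rational point `(t, s)`, with
`t s ≠ 0`, on the plane model `(t + 27) (t + 3)³ s = (s² + 10 s + 5)³ t` of `X₀(15)`,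
together with the two expressions of `j = c₄³ / Δ`. -/
theorem exists_plane_point (W : WeierstrassCurve ℤ) (hΔ : W.Δ ≠ 0) (x₃ : ℚ)
    (h3 : 3 * x₃ ^ 4 + (W.b₂ : ℚ) * x₃ ^ 3 + 3 * (W.b₄ : ℚ) * x₃ ^ 2 + 3 * (W.b₆ : ℚ) * x₃
      + (W.b₈ : ℚ) = 0)
    {K : Type*} [Field K] [Algebra ℚ K] (u v : K) (huv : u ≠ v)
    (hs : ∃ s : ℚ, u + v = algebraMap ℚ K s)
    (ht : ∃ t : ℚ, u * v = algebraMap ℚ K t)
    (h5a : v * (4 * u ^ 3 + (W.b₂ : K) * u ^ 2 + 2 * (W.b₄ : K) * u + (W.b₆ : K))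
        = u ^ 4 - (W.b₄ : K) * u ^ 2 - 2 * (W.b₆ : K) * u - (W.b₈ : K))
    (h5b : u * (4 * v ^ 3 + (W.b₂ : K) * v ^ 2 + 2 * (W.b₄ : K) * v + (W.b₆ : K))
        = v ^ 4 - (W.b₄ : K) * v ^ 2 - 2 * (W.b₆ : K) * v - (W.b₈ : K)) :
    ∃ t s : ℚ, t ≠ 0 ∧ s ≠ 0 ∧
      (W.c₄ : ℚ) ^ 3 * t = (W.Δ : ℚ) * ((t + 27) * (t + 3) ^ 3) ∧
      (W.c₄ : ℚ) ^ 3 * s = (W.Δ : ℚ) * (s ^ 2 + 10 * s + 5) ^ 3 ∧
      (t + 27) * (t + 3) ^ 3 * s = (s ^ 2 + 10 * s + 5) ^ 3 * t := by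
  obtain ⟨t, ht0, htj⟩ := exists_t W hΔ x₃ h3
  obtain ⟨s, hs0, hsj⟩ := exists_s W hΔ u v huv hs ht h5a h5b
  refine ⟨t, s, ht0, hs0, htj, hsj, ?_⟩
  have hΔ0 : (W.Δ : ℚ) ≠ 0 := Int.cast_ne_zero.mpr hΔ
  apply mul_left_cancel₀ hΔ0
  linear_combination t * hsj - s * htj

end Curve

end Fermat.Agent.S51.H74
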