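import Fermat.Statements.S51

set_option autoImplicit false

namespace Fermat.Agent.S51.H84

open WeierstrassCurve WeierstrassCurve.Affine

section Field

variable {F : Type*} [Field F] (W : WeierstrassCurve F)

/-- numerator of the duplication formula -/
def dupNum (x : F) : F := x ^ 4 - W.b₄ * x ^ 2 - 2 * W.b₆ * x - W.b₈

/-- denominator of the duplication formula -/
def dupDen (x : F) : F := 4 * x ^ 3 + W.b₂ * x ^ 2 + 2 * W.b₄ * x + W.b₆

lemma dupDen_eq_sq {x y : F} (h : W.toAffine.Equation x y) :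
    dupDen W x = (y - W.toAffine.negY x y) ^ 2 := by
  rw [Affine.equation_iff] at h
  simp only [dupDen, Affine.negY, b₂, b₄, b₆]
  linear_combination (-4) * h

lemma addX_self_mul_dupDen [DecidableEq F] {x y : F} (h : W.toAffine.Equation x y)
    (hy : y ≠ W.toAffine.negY x y) :
    W.toAffine.addX x x (W.toAffine.slope x x y y) * dupDen W x = dupNum W x := by
  have ht : y - W.toAffine.negY x y ≠ 0 := sub_ne_zero.mpr hy
  rw [dupDen_eq_sq W h, Affine.slope_of_Y_ne rfl hy, Affine.addX]
  set t := y - W.toAffine.negY x y with htdef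
  set m := 3 * x ^ 2 + 2 * W.toAffine.a₂ * x + W.toAffine.a₄ - W.toAffine.a₁ * y with hmdef
  have key : ((m / t) ^ 2 + W.toAffine.a₁ * (m / t) - W.toAffine.a₂ - x - x) * t ^ 2
      = m ^ 2 + W.toAffine.a₁ * m * t - (W.toAffine.a₂ + 2 * x) * t ^ 2 := by
    field_simp
    ring
  rw [key, htdef, hmdef]
  rw [Affine.equation_iff] at h
  simp only [dupNum, Affine.negY, b₄, b₆, b₈]
  linear_combination (-(8 * x + W.a₁ ^ 2 + 4 * W.a₂)) * h

lemma dupDen_eq_zero_iff {x y : F} (h : W.toAffine.Equation x y) :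
    dupDen W x = 0 ↔ y = W.toAffine.negY x y := by
  rw [dupDen_eq_sq W h, sq_eq_zero_iff, sub_eq_zero]

variable {W}

/-- doubling an affine point which is not 2-torsion -/
lemma two_nsmul_some [DecidableEq F] {x y : F} (h : W.toAffine.Nonsingular x y)
    (hy : y ≠ W.toAffine.negY x y) :
    ∃ (x' y' : F) (h' : W.toAffine.Nonsingular x' y'),
      (2 : ℕ) • (Point.some x y h) = Point.some x' y' h' ∧ x' * dupDen W x = dupNum W x := by
  refine ⟨_, _, Affine.nonsingular_add h h fun hxy => hy hxy.right, ?_, ?_⟩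
  · rw [two_nsmul, Point.add_self_of_Y_ne hy]
  · exact addX_self_mul_dupDen W h.1 hy

lemma two_nsmul_some_eq_zero_iff [DecidableEq F] {x y : F} (h : W.toAffine.Nonsingular x y) :
    (2 : ℕ) • (Point.some x y h) = 0 ↔ y = W.toAffine.negY x y := by
  constructor
  · intro h2
    by_contra hy
    obtain ⟨x', y', h', h2', -⟩ := two_nsmul_some h hy
    rw [h2'] at h2
    exact Point.some_ne_zero h' h2
  · intro hy
    rw [two_nsmul, Point.add_self_of_Y_eq hy]

end Field

end Fermat.Agent.S51.H84
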