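import Fermat.Agent.S51.H84_Dup

set_option autoImplicit false

namespace Fermat.Agent.S51.H84

open WeierstrassCurve Polynomial

section Field

variable {F : Type*} [Field F] (W : WeierstrassCurve F)

def psi3 (x : F) : F := 3 * x ^ 4 + W.b₂ * x ^ 3 + 3 * W.b₄ * x ^ 2 + 3 * W.b₆ * x + W.b₈

def pre4 (x : F) : F :=
  2 * x ^ 6 + W.b₂ * x ^ 5 + 5 * W.b₄ * x ^ 4 + 10 * W.b₆ * x ^ 3 + 10 * W.b₈ * x ^ 2 +
    (W.b₂ * W.b₈ - W.b₄ * W.b₆) * x + (W.b₄ * W.b₈ - W.b₆ ^ 2)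

def psi5 (x : F) : F := pre4 W x * dupDen W x ^ 2 - psi3 W x ^ 3

def dupDen' (x : F) : F := 12 * x ^ 2 + 2 * W.b₂ * x + 2 * W.b₄

lemma psi3_eq (x : F) : psi3 W x = x * dupDen W x - dupNum W x := by
  simp only [psi3, dupDen, dupNum]; ring

lemma sixteen_psi3 (x : F) :
    16 * psi3 W x = 2 * dupDen W x * (24 * x + 2 * W.b₂) - dupDen' W x ^ 2 := by
  simp only [psi3, dupDen, dupDen']
  linear_combination 4 * W.b_relation

lemma two_pre4 (x : F) :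
    2 * pre4 W x = psi3 W x * dupDen' W x - 2 * dupDen W x ^ 2 := by
  simp only [psi3, dupDen, dupDen', pre4]
  linear_combination (2 * x ^ 2) * W.b_relation

lemma disc_cert (x : F) :
    -64 * W.Δ = (96 * W.b₂ ^ 2 * x - 2304 * W.b₄ * x + 16 * W.b₂ ^ 3 - 480 * W.b₂ * W.b₄
        + 1728 * W.b₆) * dupDen W x
      + (-32 * W.b₂ ^ 2 * x ^ 2 + 768 * W.b₄ * x ^ 2 - 8 * W.b₂ ^ 3 * x + 224 * W.b₂ * W.b₄ * x
        - 576 * W.b₆ * x - 8 * W.b₂ ^ 2 * W.b₄ - 48 * W.b₂ * W.b₆ + 256 * W.b₄ ^ 2) * dupDen' W x := by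
  simp only [dupDen, dupDen', WeierstrassCurve.Δ]
  linear_combination (16 * W.b₂ ^ 2) * W.b_relation

lemma big_aux [CharZero F] (b2 b4 b6 b8 u v : F) (hb : 4 * b8 = b2 * b6 - b4 ^ 2)
    (hv : v * (4 * u ^ 3 + b2 * u ^ 2 + 2 * b4 * u + b6) = u ^ 4 - b4 * u ^ 2 - 2 * b6 * u - b8) :
    (4 * u ^ 3 + b2 * u ^ 2 + 2 * b4 * u + b6) ^ 4 *
      (u * (4 * v ^ 3 + b2 * v ^ 2 + 2 * b4 * v + b6) - (v ^ 4 - b4 * v ^ 2 - 2 * b6 * v - b8)) =
    (3 * u ^ 4 + b2 * u ^ 3 + 3 * b4 * u ^ 2 + 3 * b6 * u + b8) *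
      ((2 * u ^ 6 + b2 * u ^ 5 + 5 * b4 * u ^ 4 + 10 * b6 * u ^ 3 + 10 * b8 * u ^ 2 +
          (b2 * b8 - b4 * b6) * u + (b4 * b8 - b6 ^ 2)) *
        (4 * u ^ 3 + b2 * u ^ 2 + 2 * b4 * u + b6) ^ 2 -
        (3 * u ^ 4 + b2 * u ^ 3 + 3 * b4 * u ^ 2 + 3 * b6 * u + b8) ^ 3) := by
  have hb8 : b8 = (b2 * b6 - b4 ^ 2) / 4 := by
    field_simp
    linear_combination hb
  set D := 4 * u ^ 3 + b2 * u ^ 2 + 2 * b4 * u + b6 with hD
  have h1 : D ^ 4 *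
      (u * (4 * v ^ 3 + b2 * v ^ 2 + 2 * b4 * v + b6) - (v ^ 4 - b4 * v ^ 2 - 2 * b6 * v - b8)) =
      u * (4 * (v * D) ^ 3 * D + b2 * (v * D) ^ 2 * D ^ 2 + 2 * b4 * (v * D) * D ^ 3 + b6 * D ^ 4)
        - ((v * D) ^ 4 - b4 * (v * D) ^ 2 * D ^ 2 - 2 * b6 * (v * D) * D ^ 3 - b8 * D ^ 4) := by
    ring
  rw [h1, hv, hD, hb8]
  ring

section CharZero

variable [CharZero F] (hΔ : W.Δ ≠ 0)
include hΔ

lemma dupDen'_ne_zero_of_dupDen_eq_zero {x : F} (h : dupDen W x = 0) : dupDen' W x ≠ 0 := by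
  intro h'
  have := disc_cert W x
  rw [h, h', mul_zero, mul_zero, add_zero] at this
  have h64 : (-64 : F) ≠ 0 := by norm_num
  exact hΔ ((mul_eq_zero.mp this).resolve_left h64)

lemma psi3_ne_zero_of_dupDen_eq_zero {x : F} (h : dupDen W x = 0) : psi3 W x ≠ 0 := by
  intro h3
  have h1 := sixteen_psi3 W x
  rw [h, h3] at h1
  have : dupDen' W x ^ 2 = 0 := by linear_combination h1
  exact dupDen'_ne_zero_of_dupDen_eq_zero W hΔ h (pow_eq_zero_iff (two_ne_zero) |>.mp this)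

lemma dupNum_ne_zero_of_dupDen_eq_zero {x : F} (h : dupDen W x = 0) : dupNum W x ≠ 0 := by
  intro hN
  apply psi3_ne_zero_of_dupDen_eq_zero W hΔ h
  rw [psi3_eq, h, hN]; ring

lemma dupDen_ne_zero_of_psi5_eq_zero {x : F} (h : psi5 W x = 0) : dupDen W x ≠ 0 := by
  intro hD
  apply psi3_ne_zero_of_dupDen_eq_zero W hΔ hD
  have : psi3 W x ^ 3 = 0 := by
    simp only [psi5, hD] at h
    linear_combination -h
  exact pow_eq_zero_iff (by norm_num) |>.mp this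

lemma psi3_ne_zero_of_psi5_eq_zero {x : F} (h : psi5 W x = 0) : psi3 W x ≠ 0 := by
  intro h3
  have hD := dupDen_ne_zero_of_psi5_eq_zero W hΔ h
  have h4 : pre4 W x * dupDen W x ^ 2 = 0 := by
    simp only [psi5, h3] at h
    linear_combination h
  have h4' : pre4 W x = 0 := (mul_eq_zero.mp h4).resolve_right (pow_ne_zero 2 hD)
  have h2 := two_pre4 W x
  rw [h4', h3] at h2
  have : dupDen W x ^ 2 = 0 := by linear_combination h2 / 2
  exact hD (pow_eq_zero_iff (two_ne_zero) |>.mp this)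

omit [CharZero F] hΔ in
lemma eval_preΨ'_five (x : F) : (W.preΨ' 5).eval x = psi5 W x := by
  have h5 : W.preΨ' 5 = W.preΨ₄ * W.Ψ₂Sq ^ 2 - W.Ψ₃ ^ 3 := by
    have := W.preΨ'_odd 0
    simpa using this
  rw [h5]
  simp only [preΨ₄, Ψ₂Sq, Ψ₃, psi5, pre4, dupDen, psi3]
  simp only [eval_sub, eval_mul, eval_add, eval_pow, eval_C, eval_X, eval_ofNat]

omit hΔ in
lemma preΨ'_five_ne_zero : W.preΨ' 5 ≠ 0 := by
  have h5 : ((5 : ℕ) : F) ≠ 0 := by norm_num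
  have := W.natDegree_preΨ'_pos (n := 5) (by norm_num) h5
  exact ne_zero_of_natDegree_gt this

omit hΔ in
lemma exists_psi5_root [IsAlgClosed F] : ∃ u : F, psi5 W u = 0 := by
  have h5 : ((5 : ℕ) : F) ≠ 0 := by norm_num
  have hpos := W.natDegree_preΨ'_pos (n := 5) (by norm_num) h5
  have hdeg : (W.preΨ' 5).degree ≠ 0 := by
    rw [degree_eq_natDegree (preΨ'_five_ne_zero W)]
    exact_mod_cast hpos.ne'
  obtain ⟨u, hu⟩ := IsAlgClosed.exists_root (W.preΨ' 5) hdeg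
  exact ⟨u, by rw [← eval_preΨ'_five]; exact hu⟩

/-- the pair relations force `psi5 u = 0` -/
lemma psi5_eq_zero_of_pair {u v : F} (huv : u ≠ v) (h1 : v * dupDen W u = dupNum W u)
    (h2 : u * dupDen W v = dupNum W v) : psi5 W u = 0 ∧ dupDen W u ≠ 0 := by
  have hD : dupDen W u ≠ 0 := by
    intro hD
    apply dupNum_ne_zero_of_dupDen_eq_zero W hΔ hD
    rw [← h1, hD, mul_zero]
  refine ⟨?_, hD⟩
  have hbig := big_aux W.b₂ W.b₄ W.b₆ W.b₈ u v W.b_relation h1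
  have h3 : psi3 W u ≠ 0 := by
    rw [psi3_eq, ← h1, ← sub_mul]
    exact mul_ne_zero (sub_ne_zero.mpr huv) hD
  have h0 : u * (4 * v ^ 3 + W.b₂ * v ^ 2 + 2 * W.b₄ * v + W.b₆) -
      (v ^ 4 - W.b₄ * v ^ 2 - 2 * W.b₆ * v - W.b₈) = 0 := by
    have := h2
    simp only [dupDen, dupNum] at this
    linear_combination this
  rw [h0, mul_zero] at hbig
  have : psi3 W u * psi5 W u = 0 := by
    simp only [psi3, psi5, pre4, dupDen]
    exact hbig.symm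
  exact (mul_eq_zero.mp this).resolve_left h3

/-- a root of `psi5` gives a pair -/
lemma exists_pair_of_psi5_eq_zero {u : F} (h : psi5 W u = 0) :
    ∃ v : F, u ≠ v ∧ v * dupDen W u = dupNum W u ∧ u * dupDen W v = dupNum W v ∧
      dupDen W u ≠ 0 ∧ dupDen W v ≠ 0 := by
  have hD := dupDen_ne_zero_of_psi5_eq_zero W hΔ h
  have h3 := psi3_ne_zero_of_psi5_eq_zero W hΔ h
  set v := dupNum W u / dupDen W u with hv
  have h1 : v * dupDen W u = dupNum W u := by rw [hv]; field_simp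
  have huv : u ≠ v := by
    intro huv
    apply h3
    rw [psi3_eq, ← h1, ← huv]; ring
  have hbig := big_aux W.b₂ W.b₄ W.b₆ W.b₈ u v W.b_relation h1
  have h2 : u * dupDen W v = dupNum W v := by
    have hz : psi3 W u * psi5 W u = 0 := by rw [h, mul_zero]
    simp only [psi3, psi5, pre4, dupDen] at hz
    rw [hz] at hbig
    have hD4 : (4 * u ^ 3 + W.b₂ * u ^ 2 + 2 * W.b₄ * u + W.b₆) ^ 4 ≠ 0 := pow_ne_zero 4 hD
    have := (mul_eq_zero.mp hbig).resolve_left hD4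
    simp only [dupDen, dupNum]
    linear_combination this
  refine ⟨v, huv, h1, h2, hD, ?_⟩
  intro hDv
  apply dupNum_ne_zero_of_dupDen_eq_zero W hΔ hDv
  rw [← h2, hDv, mul_zero]

end CharZero

end Field

end Fermat.Agent.S51.H84
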