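import Fermat.Agent.S51.H84_FiveLine

set_option autoImplicit false

namespace Fermat.Agent.S51.H84

open WeierstrassCurve WeierstrassCurve.Affine WeierstrassCurve.Affine.Point

section Exist

variable {F : Type*} [Field F] [DecidableEq F] [CharZero F] [IsAlgClosed F]
  {W : WeierstrassCurve F}

/-- existence of a nonzero 5-torsion point over an algebraically closed field -/
lemma exists_five_torsion_point (hΔ : W.Δ ≠ 0) :
    ∃ P : W.toAffine.Point, P ≠ 0 ∧ (5 : ℕ) • P = 0 := by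
  obtain ⟨u, hu⟩ := exists_psi5_root W
  obtain ⟨v, huv, h1, h2, hDu, hDv⟩ := exists_pair_of_psi5_eq_zero W hΔ hu
  obtain ⟨s, hs⟩ := IsAlgClosed.exists_pow_nat_eq (dupDen W u) (n := 2) two_pos
  set y := (s - W.a₁ * u - W.a₃) / 2 with hy
  have hs2 : s = 2 * y + W.a₁ * u + W.a₃ := by rw [hy]; ring
  have heq : W.toAffine.Equation u y := by
    rw [Affine.equation_iff]
    rw [hs2] at hs
    simp only [dupDen, b₂, b₄, b₆] at hs
    linear_combination (1 / 4) * hs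
  have hns : W.toAffine.Nonsingular u y :=
    (W.toAffine.equation_iff_nonsingular_of_Δ_ne_zero hΔ).mp heq
  exact ⟨Point.some u y hns, Point.some_ne_zero hns, five_torsion_of_pair hΔ hns huv h1 h2⟩

end Exist

section Grp

variable {A : Type*} [AddCommGroup A]

lemma nsmul_cases {P : A} (h5 : (5 : ℕ) • P = 0) (c : ZMod 5) (hc : c ≠ 0) :
    (c.val • P = P ∧ (2 : ℕ) • (c.val • P) = (2 : ℕ) • P) ∨
    (c.val • P = -P ∧ (2 : ℕ) • (c.val • P) = -((2 : ℕ) • P)) ∨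
    (c.val • P = (2 : ℕ) • P ∧ (2 : ℕ) • (c.val • P) = -P) ∨
    (c.val • P = -((2 : ℕ) • P) ∧ (2 : ℕ) • (c.val • P) = P) := by
  have hlt : c.val < 5 := ZMod.val_lt c
  have hne : c.val ≠ 0 := fun h0 => hc ((ZMod.val_eq_zero c).mp h0)
  obtain h | h | h | h : c.val = 1 ∨ c.val = 2 ∨ c.val = 3 ∨ c.val = 4 := by omega
  · left
    rw [h, one_nsmul]
    exact ⟨rfl, rfl⟩
  · right; right; left
    rw [h]
    refine ⟨rfl, eq_neg_of_add_eq_zero_left ?_⟩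
    calc (2 : ℕ) • ((2 : ℕ) • P) + P = (5 : ℕ) • P := by abel
      _ = 0 := h5
  · right; right; right
    rw [h]
    refine ⟨eq_neg_of_add_eq_zero_left ?_, ?_⟩
    · calc (3 : ℕ) • P + (2 : ℕ) • P = (5 : ℕ) • P := by abel
        _ = 0 := h5
    · calc (2 : ℕ) • ((3 : ℕ) • P) = (5 : ℕ) • P + P := by abel
        _ = P := by rw [h5, zero_add]
  · right; left
    rw [h]
    refine ⟨eq_neg_of_add_eq_zero_left ?_, eq_neg_of_add_eq_zero_left ?_⟩
    · calc (4 : ℕ) • P + P = (5 : ℕ) • P := by abel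
        _ = 0 := h5
    · calc (2 : ℕ) • ((4 : ℕ) • P) + (2 : ℕ) • P = (2 : ℕ) • ((5 : ℕ) • P) := by abel
        _ = 0 := by rw [h5, nsmul_zero]

end Grp

section Field2

variable {F : Type*} [Field F] [DecidableEq F] {W : WeierstrassCurve F}

lemma xC_cases {P : W.toAffine.Point} (h5 : (5 : ℕ) • P = 0) (c : ZMod 5) (hc : c ≠ 0) :
    (xC (c.val • P) = xC P ∧ xC ((2 : ℕ) • (c.val • P)) = xC ((2 : ℕ) • P)) ∨
    (xC (c.val • P) = xC ((2 : ℕ) • P) ∧ xC ((2 : ℕ) • (c.val • P)) = xC P) := by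
  rcases nsmul_cases h5 c hc with ⟨e1, e2⟩ | ⟨e1, e2⟩ | ⟨e1, e2⟩ | ⟨e1, e2⟩
  · left; rw [e2, e1]; exact ⟨rfl, rfl⟩
  · left; rw [e2, e1, xC_neg, xC_neg]; exact ⟨rfl, rfl⟩
  · right; rw [e2, e1, xC_neg]; exact ⟨rfl, rfl⟩
  · right; rw [e2, e1, xC_neg]; exact ⟨rfl, rfl⟩

end Field2

section Gal

variable {R S K : Type*} [CommRing R] [CommRing S] [Field K]
  [DecidableEq K] {W' : Affine R} [Algebra R S] [Algebra R K] [Algebra S K]
  [IsScalarTower R S K]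

lemma xC_smul (σ : K ≃ₐ[S] K) (P : (W'⁄K).Point) : xC (σ • P) = σ (xC P) := by
  rcases P with _ | ⟨x, y, h⟩
  · exact (map_zero σ).symm
  · rfl

lemma coe_zmod_smul (c : ZMod 5) (P : Submodule.torsionBy ℤ (W'⁄K).Point (5 : ℕ)) :
    ((c • P : Submodule.torsionBy ℤ (W'⁄K).Point (5 : ℕ)) : (W'⁄K).Point) =
      c.val • (P : (W'⁄K).Point) := by
  conv_lhs => rw [← ZMod.natCast_zmod_val c]
  rw [Nat.cast_smul_eq_nsmul]
  rfl

lemma five_nsmul_coe (P : Submodule.torsionBy ℤ (W'⁄K).Point (5 : ℕ)) :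
    (5 : ℕ) • (P : (W'⁄K).Point) = 0 := by
  have := (Submodule.mem_torsionBy_iff _ _).mp P.2
  rwa [natCast_zsmul] at this

lemma coe_ne_zero {P : Submodule.torsionBy ℤ (W'⁄K).Point (5 : ℕ)} (hP : P ≠ 0) :
    (P : (W'⁄K).Point) ≠ 0 := fun h => hP (Subtype.ext h)

/-- a proper submodule of the 5-torsion containing a nonzero point is on the line through it -/
lemma stable_line [CharZero K] (hΔ : (W'⁄K).Δ ≠ 0)
    (N : Submodule (ZMod 5) (Submodule.torsionBy ℤ (W'⁄K).Point (5 : ℕ))) (hN : N ≠ ⊤)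
    {P0 : Submodule.torsionBy ℤ (W'⁄K).Point (5 : ℕ)} (hP0 : P0 ∈ N) (hP0' : P0 ≠ 0) :
    ∀ Q ∈ N, ∃ c : ZMod 5, Q = c • P0 := by
  have h2 : (2 : ZMod 5) ≠ 0 := by decide
  have : Fact (Nat.Prime 5) := ⟨Nat.prime_five⟩
  refine submodule_le_line (k := ZMod 5) (V := Submodule.torsionBy ℤ (W'⁄K).Point (5 : ℕ)) h2
    (fun P : Submodule.torsionBy ℤ (W'⁄K).Point (5 : ℕ) => xC (W := (W'⁄K)) (P : (W'⁄K).Point))
    ((W'⁄K).preΨ' 5).roots.toFinset ?_ ?_ ?_ N hN hP0 hP0'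
  · intro P hP
    exact xC_mem_roots hΔ (coe_ne_zero hP) (five_nsmul_coe P)
  · intro P Q hP hQ h
    rcases eq_or_eq_neg_of_xC_eq (coe_ne_zero hP) (coe_ne_zero hQ) h with h' | h'
    · exact Or.inl (Subtype.ext h')
    · exact Or.inr (Subtype.ext h')
  · rw [ZMod.card]
    exact lt_of_le_of_lt card_roots_preΨ'_five_le (by norm_num)

/-- from a proper nonzero Galois-stable submodule of the 5-torsion to a Galois-stable pair -/
theorem exists_pair_of_stable [CharZero K] (hΔ : (W'⁄K).Δ ≠ 0)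
    (N : Submodule (ZMod 5) (Submodule.torsionBy ℤ (W'⁄K).Point (5 : ℕ)))
    (hN0 : N ≠ ⊥) (hN1 : N ≠ ⊤) (hst : IsGaloisStable S N) :
    ∃ u v : K, u ≠ v ∧ (∀ σ : K ≃ₐ[S] K, σ (u + v) = u + v) ∧
      (∀ σ : K ≃ₐ[S] K, σ (u * v) = u * v) ∧
      v * dupDen (W'⁄K) u = dupNum (W'⁄K) u ∧ u * dupDen (W'⁄K) v = dupNum (W'⁄K) v := by
  obtain ⟨P0, hP0, hP0'⟩ := (Submodule.ne_bot_iff N).mp hN0
  have h5 := five_nsmul_coe P0
  have hne := coe_ne_zero hP0'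
  rcases hPP : (P0 : (W'⁄K).Point) with _ | ⟨u, y, h⟩
  · exact absurd hPP hne
  rw [hPP] at h5
  obtain ⟨v, y', h', h2P, huv, h1, h2⟩ := pair_of_five_torsion h h5
  have key : ∀ σ : K ≃ₐ[S] K, (σ u = u ∧ σ v = v) ∨ (σ u = v ∧ σ v = u) := by
    intro σ
    obtain ⟨c, hc⟩ := stable_line hΔ N hN1 hP0 hP0' (σ • P0) (hst σ P0 hP0)
    have hc0 : c ≠ 0 := by
      rintro rfl
      rw [zero_smul] at hc
      have : σ⁻¹ • (σ • P0) = P0 := inv_smul_smul σ P0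
      rw [hc, smul_zero] at this
      exact hP0' this.symm
    have hc' : σ • (P0 : (W'⁄K).Point) = c.val • (P0 : (W'⁄K).Point) := by
      have := congrArg Subtype.val hc
      rw [coe_zmod_smul] at this
      exact this
    rw [hPP] at hc'
    have hu : σ u = xC (c.val • Point.some u y h) := by
      rw [← hc', xC_smul]; rfl
    have hcomm : σ • ((2 : ℕ) • Point.some u y h) = (2 : ℕ) • (σ • Point.some u y h) :=
      map_nsmul (Point.map (W' := W') σ.toAlgHom) 2 (Point.some u y h)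
    have hv : σ v = xC ((2 : ℕ) • (c.val • Point.some u y h)) := by
      rw [← hc', ← hcomm, h2P, xC_smul]; rfl
    rcases xC_cases h5 c hc0 with ⟨e1, e2⟩ | ⟨e1, e2⟩
    · left; rw [hu, hv, e2, e1, h2P]; exact ⟨rfl, rfl⟩
    · right; rw [hu, hv, e2, e1, h2P]; exact ⟨rfl, rfl⟩
  refine ⟨u, v, huv, ?_, ?_, h1, h2⟩
  · intro σ
    rcases key σ with ⟨a, b⟩ | ⟨a, b⟩
    · rw [map_add, a, b]
    · rw [map_add, a, b, add_comm]
  · intro σ
    rcases key σ with ⟨a, b⟩ | ⟨a, b⟩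
    · rw [map_mul, a, b]
    · rw [map_mul, a, b, mul_comm]

lemma nontrivial_five_torsion [CharZero K] [IsAlgClosed K] (hΔ : (W'⁄K).Δ ≠ 0) :
    Nontrivial (Submodule.torsionBy ℤ (W'⁄K).Point (5 : ℕ)) := by
  obtain ⟨P, hP, h5⟩ := exists_five_torsion_point (W := (W'⁄K)) hΔ
  have hmem : P ∈ Submodule.torsionBy ℤ (W'⁄K).Point (5 : ℕ) := by
    rw [Submodule.mem_torsionBy_iff, natCast_zsmul]
    exact h5
  exact ⟨⟨⟨P, hmem⟩, 0, fun h => hP (congrArg Subtype.val h)⟩⟩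

end Gal

end Fermat.Agent.S51.H84
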