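import Fermat.Agent.S51.H84_FiveTorsion

set_option autoImplicit false

namespace Fermat.Agent.S51.H84

open WeierstrassCurve WeierstrassCurve.Affine Polynomial

section Field

variable {F : Type*} [Field F] {W : WeierstrassCurve F}

lemma card_roots_preΨ'_five_le [DecidableEq F] : (W.preΨ' 5).roots.toFinset.card ≤ 12 := by
  refine (Multiset.toFinset_card_le _).trans ((card_roots' _).trans ?_)
  have := W.natDegree_preΨ'_le 5
  have h5 : ¬ Even 5 := by decide
  simpa [h5] using this

lemma xC_mem_roots [DecidableEq F] [CharZero F] (hΔ : W.Δ ≠ 0) {P : W.toAffine.Point}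
    (hP : P ≠ 0) (h5 : (5 : ℕ) • P = 0) : xC P ∈ (W.preΨ' 5).roots.toFinset := by
  rcases P with _ | ⟨x, y, h⟩
  · exact absurd rfl hP
  · obtain ⟨v, y', h', -, hxv, h1, h2⟩ := pair_of_five_torsion h h5
    have h0 := (psi5_eq_zero_of_pair W hΔ hxv h1 h2).1
    rw [Multiset.mem_toFinset, mem_roots (preΨ'_five_ne_zero W), IsRoot, eval_preΨ'_five]
    exact h0

lemma eq_or_eq_neg_of_xC_eq {P Q : W.toAffine.Point} (hP : P ≠ 0) (hQ : Q ≠ 0)
    (h : xC P = xC Q) : P = Q ∨ P = -Q := by
  rcases P with _ | ⟨x, y, hp⟩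
  · exact absurd rfl hP
  rcases Q with _ | ⟨x', y', hq⟩
  · exact absurd rfl hQ
  exact (Point.X_eq_iff (h₁ := hp) (h₂ := hq)).mp h

end Field

section LinAlg

/-- a proper submodule containing a nonzero vector lies on the line through it, provided
the vectors off the origin are separated up to sign by a map to a small finite set -/
lemma submodule_le_line {k V X : Type*} [Field k] [Fintype k] [AddCommGroup V] [Module k V]
    (h2 : (2 : k) ≠ 0) (x : V → X) (S : Finset X) (hS : ∀ P : V, P ≠ 0 → x P ∈ S)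
    (hx : ∀ P Q : V, P ≠ 0 → Q ≠ 0 → x P = x Q → P = Q ∨ P = -Q)
    (hcard : S.card < Fintype.card k * Fintype.card k)
    (N : Submodule k V) (hN : N ≠ ⊤) {P0 : V} (hP0 : P0 ∈ N) (hP0' : P0 ≠ 0) :
    ∀ Q ∈ N, ∃ c : k, Q = c • P0 := by
  classical
  intro Q hQ
  by_contra hcon
  push Not at hcon
  obtain ⟨R0, hR0⟩ : ∃ R0 : V, R0 ∉ N := by
    by_contra hall
    push Not at hall
    exact hN (eq_top_iff.mpr fun v _ => hall v)
  let f : k × k → V := fun p => p.1 • P0 + p.2 • Q + R0
  have hfN : ∀ p : k × k, p.1 • P0 + p.2 • Q ∈ N := fun p =>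
    N.add_mem (N.smul_mem _ hP0) (N.smul_mem _ hQ)
  have hf0 : ∀ p, f p ≠ 0 := by
    intro p hp
    apply hR0
    have : R0 = -(p.1 • P0 + p.2 • Q) := by
      have : p.1 • P0 + p.2 • Q + R0 = 0 := hp
      exact eq_neg_of_add_eq_zero_right this
    rw [this]
    exact N.neg_mem (hfN p)
  have hlin : ∀ a b : k, a • P0 + b • Q = 0 → a = 0 ∧ b = 0 := by
    intro a b hab
    have hb : b = 0 := by
      by_contra hb
      apply hcon (-(b⁻¹ * a))
      have : b • Q = -(a • P0) := eq_neg_of_add_eq_zero_right hab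
      calc Q = b⁻¹ • (b • Q) := by rw [smul_smul, inv_mul_cancel₀ hb, one_smul]
        _ = b⁻¹ • (-(a • P0)) := by rw [this]
        _ = (-(b⁻¹ * a)) • P0 := by rw [smul_neg, smul_smul, neg_smul]
    refine ⟨?_, hb⟩
    rw [hb, zero_smul, add_zero] at hab
    exact (smul_eq_zero.mp hab).resolve_right hP0'
  have hfinj : Function.Injective (fun p => x (f p)) := by
    intro p q hpq
    rcases hx _ _ (hf0 p) (hf0 q) hpq with h | h
    · have : (p.1 - q.1) • P0 + (p.2 - q.2) • Q = 0 := by
        have h' : p.1 • P0 + p.2 • Q + R0 = q.1 • P0 + q.2 • Q + R0 := h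
        have h'' := add_right_cancel h'
        rw [sub_smul, sub_smul]
        rw [← sub_eq_zero] at h''
        rw [← h'']
        abel
      obtain ⟨ha, hb⟩ := hlin _ _ this
      exact Prod.ext (sub_eq_zero.mp ha) (sub_eq_zero.mp hb)
    · exfalso
      apply hR0
      have h' : p.1 • P0 + p.2 • Q + R0 = -(q.1 • P0 + q.2 • Q + R0) := h
      have h2R : (2 : k) • R0 = -((p.1 • P0 + p.2 • Q) + (q.1 • P0 + q.2 • Q)) := by
        rw [two_smul]
        rw [← sub_eq_zero] at h'
        rw [eq_neg_iff_add_eq_zero, ← h']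
        abel
      have : R0 = (2 : k)⁻¹ • ((2 : k) • R0) := by
        rw [smul_smul, inv_mul_cancel₀ h2, one_smul]
      rw [this, h2R]
      exact N.smul_mem _ (N.neg_mem (N.add_mem (hfN p) (hfN q)))
  let g : k × k → S := fun p => ⟨x (f p), hS _ (hf0 p)⟩
  have hg : Function.Injective g := by
    intro p q hpq
    exact hfinj (Subtype.ext_iff.mp hpq)
  have hle := Fintype.card_le_of_injective g hg
  rw [Fintype.card_prod, Fintype.card_coe] at hle
  exact absurd hle (not_le.mpr hcard)

end LinAlg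

end Fermat.Agent.S51.H84
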