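import Fermat.Agent.S51.H84_FiveAlg

set_option autoImplicit false

namespace Fermat.Agent.S51.H84

open WeierstrassCurve WeierstrassCurve.Affine

section Field

variable {F : Type*} [Field F] {W : WeierstrassCurve F}

/-- x-coordinate with junk value `0` at infinity -/
def xC : W.toAffine.Point → F
  | .zero => 0
  | .some x _ _ => x

@[simp] lemma xC_some {x y : F} (h : W.toAffine.Nonsingular x y) : xC (Point.some x y h) = x := rfl

lemma xC_neg (P : W.toAffine.Point) : xC (-P) = xC P := by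
  cases P <;> rfl

/-- from a 5-torsion affine point to a pair -/
lemma pair_of_five_torsion [DecidableEq F] {x y : F} (h : W.toAffine.Nonsingular x y)
    (h5 : (5 : ℕ) • (Point.some x y h) = 0) :
    ∃ (v y' : F) (h' : W.toAffine.Nonsingular v y'),
      (2 : ℕ) • Point.some x y h = Point.some v y' h' ∧ x ≠ v ∧
      v * dupDen W x = dupNum W x ∧ x * dupDen W v = dupNum W v := by
  obtain ⟨P, hP⟩ : ∃ P : W.toAffine.Point, P = Point.some x y h := ⟨_, rfl⟩
  rw [← hP] at h5 ⊢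
  have hP0 : P ≠ 0 := hP ▸ Point.some_ne_zero h
  have e5 : (5 : ℕ) • P = (4 : ℕ) • P + P := succ_nsmul P 4
  have e4 : (4 : ℕ) • P = (2 : ℕ) • ((2 : ℕ) • P) := by
    rw [show (4 : ℕ) = 2 * 2 from rfl, mul_nsmul]
  have h4neg : (4 : ℕ) • P = -P := by
    rw [h5] at e5
    exact eq_neg_of_add_eq_zero_left e5.symm
  have h4ne : (4 : ℕ) • P ≠ 0 := by
    rw [h4neg]; exact neg_ne_zero.mpr hP0
  have h2ne : (2 : ℕ) • P ≠ 0 := by
    intro h2
    apply h4ne
    rw [e4, h2, nsmul_zero]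
  have hy : y ≠ W.toAffine.negY x y := fun hy =>
    h2ne (hP ▸ (two_nsmul_some_eq_zero_iff h).mpr hy)
  obtain ⟨v, y', h', h2, hv⟩ := two_nsmul_some h hy
  rw [← hP] at h2
  have hy' : y' ≠ W.toAffine.negY v y' := fun hy' =>
    h4ne (by rw [e4, h2]; exact (two_nsmul_some_eq_zero_iff h').mpr hy')
  obtain ⟨w, y'', h'', h4, hw⟩ := two_nsmul_some h' hy'
  have hwx : w = x := by
    have : Point.some w y'' h'' = -P := by rw [← h4, ← h2, ← e4, h4neg]
    rw [hP, Point.neg_some] at this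
    exact (Point.some.inj this).1
  refine ⟨v, y', h', h2, ?_, hv, hwx ▸ hw⟩
  intro hxv
  rcases (Point.X_eq_iff (h₁ := h) (h₂ := h')).mp hxv with h1 | h1
  · -- P = 2P
    rw [← hP, ← h2, two_nsmul] at h1
    exact hP0 (by simpa using h1.symm)
  · -- P = -2P, so 3P = 0
    rw [← hP, ← h2] at h1
    have h3 : (3 : ℕ) • P = 0 := by
      have : (3 : ℕ) • P = (2 : ℕ) • P + P := succ_nsmul P 2
      rw [this]
      nth_rewrite 2 [h1]
      exact add_neg_cancel _
    apply hP0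
    have h6 : (6 : ℕ) • P = 0 := by
      rw [show (6 : ℕ) = 3 * 2 from rfl, mul_nsmul, h3, nsmul_zero]
    have : (6 : ℕ) • P = (5 : ℕ) • P + P := succ_nsmul P 5
    rw [h6, h5, zero_add] at this
    exact this.symm

/-- from a pair to a 5-torsion point -/
lemma five_torsion_of_pair [DecidableEq F] [CharZero F] (hΔ : W.Δ ≠ 0) {u v y : F}
    (h : W.toAffine.Nonsingular u y) (huv : u ≠ v)
    (h1 : v * dupDen W u = dupNum W u) (h2 : u * dupDen W v = dupNum W v) :
    (5 : ℕ) • Point.some u y h = 0 := by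
  obtain ⟨P, hP⟩ : ∃ P : W.toAffine.Point, P = Point.some u y h := ⟨_, rfl⟩
  rw [← hP]
  have hDu : dupDen W u ≠ 0 := fun hD =>
    dupNum_ne_zero_of_dupDen_eq_zero W hΔ hD (by rw [← h1, hD, mul_zero])
  have hDv : dupDen W v ≠ 0 := fun hD =>
    dupNum_ne_zero_of_dupDen_eq_zero W hΔ hD (by rw [← h2, hD, mul_zero])
  have hy : y ≠ W.toAffine.negY u y := fun hy => hDu ((dupDen_eq_zero_iff W h.1).mpr hy)
  obtain ⟨x', y', h', h2P, hx'⟩ := two_nsmul_some h hy
  have hx'v : x' = v := mul_right_cancel₀ hDu (hx'.trans h1.symm)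
  subst hx'v
  have hy' : y' ≠ W.toAffine.negY x' y' := fun hy' => hDv ((dupDen_eq_zero_iff W h'.1).mpr hy')
  obtain ⟨x'', y'', h'', h4P, hx''⟩ := two_nsmul_some h' hy'
  have hx''u : x'' = u := mul_right_cancel₀ hDv (hx''.trans h2.symm)
  subst hx''u
  rw [← hP] at h2P
  have e4 : (4 : ℕ) • P = Point.some x'' y'' h'' := by
    rw [show (4 : ℕ) = 2 * 2 from rfl, mul_nsmul, h2P, h4P]
  have e5 : (5 : ℕ) • P = (4 : ℕ) • P + P := succ_nsmul P 4
  rcases (Point.X_eq_iff (h₁ := h'') (h₂ := h)).mp rfl with h4 | h4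
  · -- 4P = P, so 3P = 0 and 2P = -P: contradiction with u ≠ v
    exfalso
    rw [← e4, ← hP] at h4
    have e4' : (4 : ℕ) • P = (3 : ℕ) • P + P := succ_nsmul P 3
    have h3 : (3 : ℕ) • P = 0 := by
      rw [e4'] at h4
      simpa using h4
    have e3 : (3 : ℕ) • P = (2 : ℕ) • P + P := succ_nsmul P 2
    rw [e3] at h3
    have h2neg : (2 : ℕ) • P = -P := eq_neg_of_add_eq_zero_left h3
    rw [h2P, hP, Point.neg_some] at h2neg
    exact huv (Point.some.inj h2neg).1.symm
  · rw [← e4, ← hP] at h4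
    rw [e5, h4]
    exact neg_add_cancel P

end Field

end Fermat.Agent.S51.H84
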