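import Fermat.Statements.S51
import Fermat.Agent.S51.H9_X015
import Fermat.Agent.S51.H52_IdentityThree
import Fermat.Agent.S51.H52_JValues

set_option autoImplicit false

namespace Fermat.Agent.S51.H9

open WeierstrassCurve

/-- Shape of the `X_0(5)` identity (identity five): for a field `F`, `D = (u-v)^2`. -/
def IdentityFive (F : Type) [Field F] : Prop :=
  ∀ (b₂ b₄ b₆ b₈ u v : F), 4 * b₈ = b₂ * b₆ - b₄ ^ 2 → u ≠ v →
    v * (4 * u ^ 3 + b₂ * u ^ 2 + 2 * b₄ * u + b₆) = u ^ 4 - b₄ * u ^ 2 - 2 * b₆ * u - b₈ →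
    u * (4 * v ^ 3 + b₂ * v ^ 2 + 2 * b₄ * v + b₆) = v ^ 4 - b₄ * v ^ 2 - 2 * b₆ * v - b₈ →
    (-b₂ ^ 2 * b₈ - 8 * b₄ ^ 3 - 27 * b₆ ^ 2 + 9 * b₂ * b₄ * b₆) ≠ 0 →
    (b₂ ^ 2 - 24 * b₄) * ((u - v) ^ 2) ^ 5 =
      (-b₂ ^ 2 * b₈ - 8 * b₄ ^ 3 - 27 * b₆ ^ 2 + 9 * b₂ * b₄ * b₆) ^ 2
      + 10 * (-b₂ ^ 2 * b₈ - 8 * b₄ ^ 3 - 27 * b₆ ^ 2 + 9 * b₂ * b₄ * b₆) * ((u - v) ^ 2) ^ 3
      + 5 * ((u - v) ^ 2) ^ 6

/-- The moduli algebra: no semistable curve carries both a rational `3`-isogeny datum and a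
rational `5`-isogeny datum (assuming identity five over `ℚ̄`). -/
theorem no_fifteen_of_identityFive (I5 : IdentityFive (AlgebraicClosure ℚ))
    (W : WeierstrassCurve ℤ) (hΔ : W.Δ ≠ 0) (hW : W.IsSemistableModel)
    (x₃ : ℚ)
    (h3 : 3 * x₃ ^ 4 + (W.b₂ : ℚ) * x₃ ^ 3 + 3 * (W.b₄ : ℚ) * x₃ ^ 2 + 3 * (W.b₆ : ℚ) * x₃
      + (W.b₈ : ℚ) = 0)
    (u v : AlgebraicClosure ℚ) (huv : u ≠ v)
    (hs : ∃ s : ℚ, u + v = algebraMap ℚ (AlgebraicClosure ℚ) s)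
    (ht : ∃ t : ℚ, u * v = algebraMap ℚ (AlgebraicClosure ℚ) t)
    (h5a : v * (4 * u ^ 3 + (W.b₂ : AlgebraicClosure ℚ) * u ^ 2 + 2 * (W.b₄ : AlgebraicClosure ℚ) * u
          + (W.b₆ : AlgebraicClosure ℚ))
        = u ^ 4 - (W.b₄ : AlgebraicClosure ℚ) * u ^ 2 - 2 * (W.b₆ : AlgebraicClosure ℚ) * u
          - (W.b₈ : AlgebraicClosure ℚ))
    (h5b : u * (4 * v ^ 3 + (W.b₂ : AlgebraicClosure ℚ) * v ^ 2 + 2 * (W.b₄ : AlgebraicClosure ℚ) * v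
          + (W.b₆ : AlgebraicClosure ℚ))
        = v ^ 4 - (W.b₄ : AlgebraicClosure ℚ) * v ^ 2 - 2 * (W.b₆ : AlgebraicClosure ℚ) * v
          - (W.b₈ : AlgebraicClosure ℚ)) : False := by
  obtain ⟨σ, hσ⟩ := hs
  obtain ⟨τ, hτ⟩ := ht
  -- abbreviations over ℚ
  set b₂ : ℚ := (W.b₂ : ℚ) with hb₂
  set b₄ : ℚ := (W.b₄ : ℚ) with hb₄
  set b₆ : ℚ := (W.b₆ : ℚ) with hb₆
  set b₈ : ℚ := (W.b₈ : ℚ) with hb₈
  have hrel : 4 * b₈ = b₂ * b₆ - b₄ ^ 2 := by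
    have := W.b_relation
    have h' : ((4 * W.b₈ : ℤ) : ℚ) = ((W.b₂ * W.b₆ - W.b₄ ^ 2 : ℤ) : ℚ) := by rw [this]
    push_cast at h'
    exact h'
  have hΔq : (W.Δ : ℚ) = -b₂ ^ 2 * b₈ - 8 * b₄ ^ 3 - 27 * b₆ ^ 2 + 9 * b₂ * b₄ * b₆ := by
    rw [WeierstrassCurve.Δ]; push_cast; ring
  have hc₄q : (W.c₄ : ℚ) = b₂ ^ 2 - 24 * b₄ := by
    rw [WeierstrassCurve.c₄]; push_cast; ring
  have hΔne : (W.Δ : ℚ) ≠ 0 := by exact_mod_cast hΔ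
  set Δq : ℚ := (W.Δ : ℚ) with hΔq'
  set c : ℚ := (W.c₄ : ℚ) with hc'
  -- the X_0(3) parameter
  set Y : ℚ := 4 * x₃ ^ 3 + b₂ * x₃ ^ 2 + 2 * b₄ * x₃ + b₆ with hY
  have hYne : Y ≠ 0 :=
    Fermat.Agent.S51.H52.Y_ne_zero_of_psi_three b₂ b₄ b₆ b₈ x₃ hrel h3 (by rw [← hΔq]; exact hΔne)
  have hI3 : c ^ 3 * Y ^ 6 = (Δq + 27 * Y ^ 2) * (Δq + 3 * Y ^ 2) ^ 3 := by
    have := Fermat.Agent.S51.H52.identity_three b₂ b₄ b₆ b₈ x₃ hrel h3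
    rw [← hΔq, ← hc₄q] at this
    exact this
  -- the X_0(5) parameter
  set d : ℚ := σ ^ 2 - 4 * τ with hd
  have hdK : (u - v) ^ 2 = algebraMap ℚ (AlgebraicClosure ℚ) d := by
    have : (u - v) ^ 2 = (u + v) ^ 2 - 4 * (u * v) := by ring
    rw [this, hσ, hτ, hd]
    simp only [map_sub, map_pow, map_mul, map_ofNat]
  have hdne : d ≠ 0 := by
    intro h0
    apply huv
    have : (u - v) ^ 2 = 0 := by rw [hdK, h0, map_zero]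
    exact sub_eq_zero.mp (pow_eq_zero_iff (two_ne_zero) |>.mp this)
  have hI5 : c * d ^ 5 = Δq ^ 2 + 10 * Δq * d ^ 3 + 5 * d ^ 6 := by
    have hrelK : 4 * (W.b₈ : AlgebraicClosure ℚ)
        = (W.b₂ : AlgebraicClosure ℚ) * (W.b₆ : AlgebraicClosure ℚ)
          - (W.b₄ : AlgebraicClosure ℚ) ^ 2 := by
      have := W.b_relation
      have h' : ((4 * W.b₈ : ℤ) : AlgebraicClosure ℚ)
          = ((W.b₂ * W.b₆ - W.b₄ ^ 2 : ℤ) : AlgebraicClosure ℚ) := by rw [this]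
      push_cast at h'
      exact h'
    have hΔK : (-(W.b₂ : AlgebraicClosure ℚ) ^ 2 * (W.b₈ : AlgebraicClosure ℚ)
        - 8 * (W.b₄ : AlgebraicClosure ℚ) ^ 3 - 27 * (W.b₆ : AlgebraicClosure ℚ) ^ 2
        + 9 * (W.b₂ : AlgebraicClosure ℚ) * (W.b₄ : AlgebraicClosure ℚ)
          * (W.b₆ : AlgebraicClosure ℚ)) = algebraMap ℚ (AlgebraicClosure ℚ) Δq := by
      rw [hΔq]
      simp only [map_sub, map_add, map_mul, map_pow, map_neg, map_ofNat, hb₂, hb₄, hb₆, hb₈,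
        eq_ratCast, Rat.cast_intCast]
    have hcK : ((W.b₂ : AlgebraicClosure ℚ) ^ 2 - 24 * (W.b₄ : AlgebraicClosure ℚ))
        = algebraMap ℚ (AlgebraicClosure ℚ) c := by
      rw [hc₄q]
      simp only [map_sub, map_mul, map_pow, map_ofNat, hb₂, hb₄, eq_ratCast, Rat.cast_intCast]
    have key := I5 (W.b₂ : AlgebraicClosure ℚ) (W.b₄ : AlgebraicClosure ℚ)
      (W.b₆ : AlgebraicClosure ℚ) (W.b₈ : AlgebraicClosure ℚ) u v hrelK huv h5a h5b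
      (by
        rw [hΔK]
        intro h0
        exact hΔne ((map_eq_zero (algebraMap ℚ (AlgebraicClosure ℚ))).mp h0))
    rw [hΔK, hcK, hdK] at key
    have key' : algebraMap ℚ (AlgebraicClosure ℚ) (c * d ^ 5)
        = algebraMap ℚ (AlgebraicClosure ℚ) (Δq ^ 2 + 10 * Δq * d ^ 3 + 5 * d ^ 6) := by
      simp only [map_add, map_mul, map_pow, map_ofNat]
      exact key
    exact (algebraMap ℚ (AlgebraicClosure ℚ)).injective key'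
  -- the point of X_0(15)
  set t : ℚ := Δq / Y ^ 2 with ht
  set s : ℚ := Δq / d ^ 3 with hs
  have htne : t ≠ 0 := div_ne_zero hΔne (pow_ne_zero _ hYne)
  have hsne : s ≠ 0 := div_ne_zero hΔne (pow_ne_zero _ hdne)
  have hc3 : c ^ 3 = Y ^ 2 * ((t + 27) * (t + 3) ^ 3) := by
    rw [ht]
    field_simp
    linear_combination hI3
  have hc1 : c = d * (s ^ 2 + 10 * s + 5) := by
    rw [hs]
    field_simp
    linear_combination hI5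
  have hcurve : (t + 27) * (t + 3) ^ 3 * s = (s ^ 2 + 10 * s + 5) ^ 3 * t := by
    have e1 : (t + 27) * (t + 3) ^ 3 = c ^ 3 / Y ^ 2 := by
      rw [hc3]; field_simp
    have e2 : (s ^ 2 + 10 * s + 5) = c / d := by
      rw [hc1]; field_simp
    rw [e1, e2, ht, hs]
    field_simp
  have hslist := x015_points t s htne hsne hcurve
  refine Fermat.Agent.S51.H52.not_semistable_of_s W hW s hslist ?_
  -- j = c₄³/Δ = (s²+10s+5)³/s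
  have e2 : (s ^ 2 + 10 * s + 5) = c / d := by
    rw [hc1]; field_simp
  rw [e2, hs]
  field_simp
  show c ^ 3 * Δq = Δq * c ^ 3
  ring

end Fermat.Agent.S51.H9
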